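/-
S30 (item 92), ASSEMBLY piece ASM-3 (lead): the Tate module with coefficients.

`A` an abelian group with commuting endomorphisms `gA g` (`g ∈ G`) and `T i`; `O` a ring;
`B := O ⊗[ℤ] A`; `eig` := the compatible sequences `y : ℕ → B` (`y 0 = 0`, `p • y (n+1) = y n`)
with `(T i ⊗ 1) (y n) = a i • y n`.  `G` acts coordinatewise.
Mathlib only.  Flatness (ASM-1) enters as the hypothesis `Flat1`.
-/
import Mathlib

set_option autoImplicit false

open TensorProduct

noncomputable section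

namespace Fermat.Agent.S30.Asm

section Defs

variable (p : ℕ) (O : Type) [CommRing O] (A : Type) [AddCommGroup A]

/-- base change of an endomorphism of `A` to `O ⊗ A`. -/
def bc (φ : Module.End ℤ A) : Module.End O (O ⊗[ℤ] A) := LinearMap.baseChange O φ

variable {O A}

theorem bc_tmul (φ : Module.End ℤ A) (r : O) (x : A) : bc O A φ (r ⊗ₜ[ℤ] x) = r ⊗ₜ[ℤ] φ x :=
  LinearMap.baseChange_tmul _ _ _

theorem bc_mul (φ ψ : Module.End ℤ A) : bc O A (φ * ψ) = bc O A φ * bc O A ψ :=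
  LinearMap.baseChange_mul _ _

theorem bc_one : bc O A (1 : Module.End ℤ A) = 1 := LinearMap.baseChange_one ℤ A

variable (O A)

/-- ASM-1 as a hypothesis: the `p^n`-torsion of `O ⊗ A` is spanned by `1 ⊗ A[p^n]`. -/
def Flat1 : Prop :=
  ∀ (n : ℕ) (z : O ⊗[ℤ] A), ((p : O) ^ n) • z = 0 →
    z ∈ Submodule.span O {w : O ⊗[ℤ] A | ∃ x : A, (p ^ n) • x = 0 ∧ w = (1 : O) ⊗ₜ[ℤ] x}

variable {ι : Type} (T : ι → Module.End ℤ A) (a : ι → O)

/-- the eigen-part of the Tate module with coefficients in `O`. -/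
def eig : Submodule O (ℕ → O ⊗[ℤ] A) where
  carrier := {y | y 0 = 0 ∧ (∀ n, (p : O) • y (n + 1) = y n) ∧
    ∀ i n, bc O A (T i) (y n) = a i • y n}
  add_mem' := by
    rintro y z ⟨hy0, hy1, hy2⟩ ⟨hz0, hz1, hz2⟩
    refine ⟨?_, ?_, ?_⟩
    · show y 0 + z 0 = 0
      rw [hy0, hz0, add_zero]
    · intro n
      show (p : O) • (y (n + 1) + z (n + 1)) = y n + z n
      rw [smul_add, hy1, hz1]
    · intro i n
      show bc O A (T i) (y n + z n) = a i • (y n + z n)
      rw [map_add, hy2, hz2, smul_add]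
  zero_mem' := by
    refine ⟨rfl, ?_, ?_⟩
    · intro n
      show (p : O) • (0 : O ⊗[ℤ] A) = 0
      rw [smul_zero]
    · intro i n
      show bc O A (T i) (0 : O ⊗[ℤ] A) = a i • (0 : O ⊗[ℤ] A)
      rw [map_zero, smul_zero]
  smul_mem' := by
    rintro c y ⟨hy0, hy1, hy2⟩
    refine ⟨?_, ?_, ?_⟩
    · show c • y 0 = 0
      rw [hy0, smul_zero]
    · intro n
      show (p : O) • (c • y (n + 1)) = c • y n
      rw [smul_comm, hy1]
    · intro i n
      show bc O A (T i) (c • y n) = a i • (c • y n)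
      rw [map_smul, hy2, smul_comm]

variable {p O A T a}

theorem eig_zero (y : eig p O A T a) : (y : ℕ → O ⊗[ℤ] A) 0 = 0 := y.2.1
theorem eig_succ (y : eig p O A T a) (n : ℕ) :
    (p : O) • (y : ℕ → O ⊗[ℤ] A) (n + 1) = (y : ℕ → O ⊗[ℤ] A) n := y.2.2.1 n
theorem eig_eigen (y : eig p O A T a) (i : ι) (n : ℕ) :
    bc O A (T i) ((y : ℕ → O ⊗[ℤ] A) n) = a i • (y : ℕ → O ⊗[ℤ] A) n := y.2.2.2 i n

/-- `p^k • y (n + k) = y n`. -/
theorem eig_pow_smul (y : eig p O A T a) (k n : ℕ) :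
    ((p : O) ^ k) • (y : ℕ → O ⊗[ℤ] A) (n + k) = (y : ℕ → O ⊗[ℤ] A) n := by
  induction k generalizing n with
  | zero => rw [pow_zero, one_smul, add_zero]
  | succ k ih =>
    rw [pow_succ, mul_smul, ← add_assoc, eig_succ, ih]

/-- the coordinates are torsion. -/
theorem eig_torsion (y : eig p O A T a) (n : ℕ) :
    ((p : O) ^ n) • (y : ℕ → O ⊗[ℤ] A) n = 0 := by
  have := eig_pow_smul y n 0
  rw [zero_add, eig_zero] at this
  exact this

theorem eig_torsion_le (y : eig p O A T a) {j k : ℕ} (h : j ≤ k) :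
    ((p : O) ^ k) • (y : ℕ → O ⊗[ℤ] A) j = 0 := by
  obtain ⟨d, rfl⟩ := Nat.exists_eq_add_of_le h
  rw [pow_add, mul_comm, mul_smul, eig_torsion, smul_zero]

/-- **shift**: the sequence `n ↦ y (n + k)` when `y j = 0` for `j ≤ k`. -/
def shift (y : eig p O A T a) (k : ℕ) (hk : (y : ℕ → O ⊗[ℤ] A) k = 0) : eig p O A T a :=
  ⟨fun n => (y : ℕ → O ⊗[ℤ] A) (n + k), by
    refine ⟨?_, ?_, ?_⟩
    · show (y : ℕ → O ⊗[ℤ] A) (0 + k) = 0
      rw [zero_add, hk]
    · intro n
      show (p : O) • (y : ℕ → O ⊗[ℤ] A) (n + 1 + k) = (y : ℕ → O ⊗[ℤ] A) (n + k)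
      rw [show n + 1 + k = n + k + 1 by omega, eig_succ]
    · intro i n
      exact eig_eigen y i (n + k)⟩

theorem pow_smul_shift (y : eig p O A T a) (k : ℕ) (hk : (y : ℕ → O ⊗[ℤ] A) k = 0) :
    ((p : O) ^ k) • shift y k hk = y := by
  apply Subtype.ext
  funext n
  show ((p : O) ^ k) • (y : ℕ → O ⊗[ℤ] A) (n + k) = (y : ℕ → O ⊗[ℤ] A) n
  exact eig_pow_smul y k n

/-- if `p^k • y = 0` then `y = 0` (the Tate module has no `p`-torsion). -/
theorem eq_zero_of_pow_smul (y : eig p O A T a) (k : ℕ) (h : ((p : O) ^ k) • y = 0) : y = 0 := by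
  apply Subtype.ext
  funext n
  have h1 := eig_pow_smul y k n
  have h2 : ((p : O) ^ k) • (y : ℕ → O ⊗[ℤ] A) (n + k) = 0 := by
    have := congrArg (fun z : eig p O A T a => (z : ℕ → O ⊗[ℤ] A) (n + k)) h
    exact this
  rw [h2] at h1
  exact h1.symm

/-- torsion free, given that every nonzero element of `O` divides a power of `p`. -/
theorem eq_zero_of_smul (hdiv : ∀ c : O, c ≠ 0 → ∃ k : ℕ, c ∣ (p : O) ^ k)
    (y : eig p O A T a) (c : O) (hc : c ≠ 0) (h : c • y = 0) : y = 0 := by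
  obtain ⟨k, d, hd⟩ := hdiv c hc
  apply eq_zero_of_pow_smul y k
  rw [hd, mul_comm, mul_smul, h, smul_zero]

/-- the coordinates of `p^k • y` vanish up to `k`. -/
theorem pow_smul_apply_eq_zero (y : eig p O A T a) {j k : ℕ} (h : j ≤ k) :
    ((((p : O) ^ k) • y : eig p O A T a) : ℕ → O ⊗[ℤ] A) j = 0 :=
  eig_torsion_le y h

/-- **Hausdorff**: an element divisible by all powers of `p` is zero. -/
theorem eq_zero_of_forall_pow (y : eig p O A T a)
    (h : ∀ k : ℕ, ∃ z : eig p O A T a, ((p : O) ^ k) • z = y) : y = 0 := by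
  apply Subtype.ext
  funext n
  obtain ⟨z, hz⟩ := h n
  rw [← hz]
  exact pow_smul_apply_eq_zero z le_rfl

/-- the first coordinate, `M → B`. -/
def coord (n : ℕ) : eig p O A T a →ₗ[O] O ⊗[ℤ] A where
  toFun y := (y : ℕ → O ⊗[ℤ] A) n
  map_add' _ _ := rfl
  map_smul' _ _ := rfl

/-- the kernel of `y ↦ y k` is `p^k M`. -/
theorem exists_of_coord_eq_zero (y : eig p O A T a) (k : ℕ) (hk : coord (p := p) (T := T) (a := a) k y = 0) :
    ∃ z : eig p O A T a, ((p : O) ^ k) • z = y :=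
  ⟨shift y k hk, pow_smul_shift y k hk⟩

end Defs

section Action

variable {p : ℕ} {O : Type} [CommRing O] {A : Type} [AddCommGroup A] {ι : Type}
  {T : ι → Module.End ℤ A} {a : ι → O}

/-- an endomorphism of `A` commuting with all `T i` acts on `eig`. -/
def actEnd (φ : Module.End ℤ A) (hφ : ∀ i, T i * φ = φ * T i) :
    Module.End O (eig p O A T a) where
  toFun y := ⟨fun n => bc O A φ ((y : ℕ → O ⊗[ℤ] A) n), by
    refine ⟨?_, ?_, ?_⟩
    · show bc O A φ ((y : ℕ → O ⊗[ℤ] A) 0) = 0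
      rw [eig_zero, map_zero]
    · intro n
      show (p : O) • bc O A φ ((y : ℕ → O ⊗[ℤ] A) (n + 1)) = bc O A φ ((y : ℕ → O ⊗[ℤ] A) n)
      rw [← map_smul, eig_succ]
    · intro i n
      show bc O A (T i) (bc O A φ ((y : ℕ → O ⊗[ℤ] A) n))
        = a i • bc O A φ ((y : ℕ → O ⊗[ℤ] A) n)
      have e : bc O A (T i) (bc O A φ ((y : ℕ → O ⊗[ℤ] A) n))
          = bc O A φ (bc O A (T i) ((y : ℕ → O ⊗[ℤ] A) n)) := by
        rw [← Module.End.mul_apply, ← bc_mul, hφ i, bc_mul, Module.End.mul_apply]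
      rw [e, eig_eigen, map_smul]⟩
  map_add' y z := by
    apply Subtype.ext
    funext n
    exact map_add (bc O A φ) _ _
  map_smul' c y := by
    apply Subtype.ext
    funext n
    exact map_smul (bc O A φ) _ _

theorem actEnd_apply (φ : Module.End ℤ A) (hφ : ∀ i, T i * φ = φ * T i)
    (y : eig p O A T a) (n : ℕ) :
    ((actEnd φ hφ y : eig p O A T a) : ℕ → O ⊗[ℤ] A) n
      = bc O A φ ((y : ℕ → O ⊗[ℤ] A) n) := rfl

variable {G : Type} [Group G] (gA : G →* Module.End ℤ A)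
  (hcomm : ∀ i g, T i * gA g = gA g * T i)

/-- the action of `G` on `eig`. -/
def rho : G →* Module.End O (eig p O A T a) where
  toFun g := actEnd (gA g) (fun i => hcomm i g)
  map_one' := by
    apply LinearMap.ext
    intro y
    apply Subtype.ext
    funext n
    show bc O A (gA 1) ((y : ℕ → O ⊗[ℤ] A) n) = (y : ℕ → O ⊗[ℤ] A) n
    rw [map_one, bc_one, Module.End.one_apply]
  map_mul' g h := by
    apply LinearMap.ext
    intro y
    apply Subtype.ext
    funext n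
    show bc O A (gA (g * h)) ((y : ℕ → O ⊗[ℤ] A) n)
      = bc O A (gA g) (bc O A (gA h) ((y : ℕ → O ⊗[ℤ] A) n))
    rw [map_mul, bc_mul, Module.End.mul_apply]

theorem rho_apply (g : G) (y : eig p O A T a) (n : ℕ) :
    ((rho gA hcomm g y : eig p O A T a) : ℕ → O ⊗[ℤ] A) n
      = bc O A (gA g) ((y : ℕ → O ⊗[ℤ] A) n) := rfl

/-- **transfer**: an `O`-linear map killing `1 ⊗ A[p^n]` kills the `p^n`-torsion of `O ⊗ A`. -/
theorem transfer (hflat : Flat1 p O A) (F : Module.End O (O ⊗[ℤ] A)) (n : ℕ)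
    (hF : ∀ x : A, (p ^ n) • x = 0 → F ((1 : O) ⊗ₜ[ℤ] x) = 0) (z : O ⊗[ℤ] A)
    (hz : ((p : O) ^ n) • z = 0) : F z = 0 := by
  have hmem := hflat n z hz
  clear hz
  induction hmem using Submodule.span_induction with
  | mem w hw =>
    obtain ⟨x, hx, rfl⟩ := hw
    exact hF x hx
  | zero => exact map_zero _
  | add u v _ _ hu hv => rw [map_add, hu, hv, add_zero]
  | smul c u _ hu => rw [map_smul, hu, smul_zero]

/-- **Eichler–Shimura on `eig`**. -/
theorem rho_quad (hflat : Flat1 p O A) (g : G) (i : ι) (ℓ : ℕ)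
    (hrel : ∀ (n : ℕ) (x : A), (p ^ n) • x = 0 →
      gA g (gA g x) - T i (gA g x) + ℓ • x = 0) :
    rho gA hcomm g * rho gA hcomm g - a i • rho gA hcomm g
      + (ℓ : O) • (1 : Module.End O (eig p O A T a)) = 0 := by
  apply LinearMap.ext
  intro y
  apply Subtype.ext
  funext n
  show bc O A (gA g) (bc O A (gA g) ((y : ℕ → O ⊗[ℤ] A) n))
      - a i • bc O A (gA g) ((y : ℕ → O ⊗[ℤ] A) n) + (ℓ : O) • (y : ℕ → O ⊗[ℤ] A) n = 0
  have e1 : a i • bc O A (gA g) ((y : ℕ → O ⊗[ℤ] A) n)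
      = bc O A (T i) (bc O A (gA g) ((y : ℕ → O ⊗[ℤ] A) n)) :=
    (eig_eigen (rho gA hcomm g y) i n).symm
  rw [e1]
  have key := transfer hflat
    (bc O A (gA g) * bc O A (gA g) - bc O A (T i) * bc O A (gA g)
      + (ℓ : O) • (1 : Module.End O (O ⊗[ℤ] A))) n (fun x hx => by
      simp only [LinearMap.add_apply, LinearMap.sub_apply, Module.End.mul_apply, bc_tmul,
        LinearMap.smul_apply, Module.End.one_apply]
      have e2 : (ℓ : O) • ((1 : O) ⊗ₜ[ℤ] x) = (1 : O) ⊗ₜ[ℤ] (ℓ • x) := by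
        rw [← natCast_zsmul x ℓ, TensorProduct.tmul_smul, ← Int.cast_smul_eq_zsmul O,
          Int.cast_natCast]
      rw [e2, ← TensorProduct.tmul_sub, ← TensorProduct.tmul_add, hrel n x hx,
        TensorProduct.tmul_zero]) ((y : ℕ → O ⊗[ℤ] A) n) (eig_torsion y n)
  simpa only [LinearMap.add_apply, LinearMap.sub_apply, Module.End.mul_apply,
    LinearMap.smul_apply, Module.End.one_apply] using key

/-- if `g` fixes `A[p^k]` then `ρ g y - y ∈ p^k M`. -/
theorem rho_sub_eq (hflat : Flat1 p O A) (g : G) (k : ℕ)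
    (hfix : ∀ x : A, (p ^ k) • x = 0 → gA g x = x) (y : eig p O A T a) :
    ∃ z : eig p O A T a, rho gA hcomm g y - y = ((p : O) ^ k) • z := by
  have h0 : ((rho gA hcomm g y - y : eig p O A T a) : ℕ → O ⊗[ℤ] A) k = 0 := by
    show bc O A (gA g) ((y : ℕ → O ⊗[ℤ] A) k) - (y : ℕ → O ⊗[ℤ] A) k = 0
    have key := transfer hflat (bc O A (gA g) - 1) k (fun x hx => by
      simp only [LinearMap.sub_apply, bc_tmul, Module.End.one_apply, hfix x hx, sub_self])
      ((y : ℕ → O ⊗[ℤ] A) k) (eig_torsion y k)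
    simpa only [LinearMap.sub_apply, Module.End.one_apply] using key
  exact ⟨shift (rho gA hcomm g y - y) k h0, (pow_smul_shift (rho gA hcomm g y - y) k h0).symm⟩

/-- **unramified**: if `g` fixes every `A[p^n]` then `ρ g = 1`. -/
theorem rho_eq_one (hflat : Flat1 p O A) (g : G)
    (hfix : ∀ (n : ℕ) (x : A), (p ^ n) • x = 0 → gA g x = x) :
    (rho gA hcomm g : Module.End O (eig p O A T a)) = 1 := by
  apply LinearMap.ext
  intro y
  apply Subtype.ext
  funext n
  show bc O A (gA g) ((y : ℕ → O ⊗[ℤ] A) n) = (y : ℕ → O ⊗[ℤ] A) n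
  have key := transfer hflat (bc O A (gA g) - 1) n (fun x hx => by
    simp only [LinearMap.sub_apply, bc_tmul, Module.End.one_apply, hfix n x hx, sub_self])
    ((y : ℕ → O ⊗[ℤ] A) n) (eig_torsion y n)
  have key' : bc O A (gA g) ((y : ℕ → O ⊗[ℤ] A) n) - (y : ℕ → O ⊗[ℤ] A) n = 0 := by
    simpa only [LinearMap.sub_apply, Module.End.one_apply] using key
  exact sub_eq_zero.mp key'

end Action

end Fermat.Agent.S30.Asm
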