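import Mathlib

/-!
# S30 assembly, piece ASM-1 (FLAT)

`O'` a domain of characteristic `0` (hence flat over `ℤ`), `A` an abelian group.
The `k`-torsion of `O' ⊗[ℤ] A` is the `O'`-span of the elements `1 ⊗ x` with `k • x = 0`.
Consequence (`flat_relation`): any additive endomorphism relation valid on `A[k]` holds on the
`k`-torsion of `O' ⊗[ℤ] A`.
-/

set_option autoImplicit false
set_option linter.unusedSectionVars false

open scoped TensorProduct

namespace Fermat.Agent.S30.Asm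

variable (O' : Type) [CommRing O'] [IsDomain O'] [CharZero O'] (A : Type) [AddCommGroup A]

/-- multiplication by `k` on `A`, as a `ℤ`-linear map -/
def mulK (k : ℕ) : A →ₗ[ℤ] A := (k : ℤ) • LinearMap.id

theorem mulK_apply (k : ℕ) (x : A) : mulK A k x = k • x := by
  simp only [mulK, LinearMap.smul_apply, LinearMap.id_coe, id_eq, natCast_zsmul]

theorem lTensor_mulK (k : ℕ) (z : O' ⊗[ℤ] A) : ((mulK A k).lTensor O') z = (k : O') • z := by
  induction z using TensorProduct.induction_on with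
  | zero => rw [map_zero, smul_zero]
  | tmul o a =>
    rw [LinearMap.lTensor_tmul, mulK_apply, TensorProduct.smul_tmul', smul_eq_mul,
      ← natCast_zsmul, ← TensorProduct.smul_tmul, zsmul_eq_mul, Int.cast_natCast]
  | add x y hx hy => rw [map_add, hx, hy, smul_add]

theorem range_lTensor_subtype_le (k : ℕ) (w : O' ⊗[ℤ] (LinearMap.ker (mulK A k))) :
    ((LinearMap.ker (mulK A k)).subtype.lTensor O') w ∈
      Submodule.span O' {y : O' ⊗[ℤ] A | ∃ x : A, k • x = 0 ∧ y = (1 : O') ⊗ₜ[ℤ] x} := by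
  induction w using TensorProduct.induction_on with
  | zero => rw [map_zero]; exact Submodule.zero_mem _
  | tmul o x =>
    rw [LinearMap.lTensor_tmul]
    have h1 : o ⊗ₜ[ℤ] ((LinearMap.ker (mulK A k)).subtype x) =
        o • ((1 : O') ⊗ₜ[ℤ] ((x : A))) := by
      rw [TensorProduct.smul_tmul', smul_eq_mul, mul_one]; rfl
    rw [h1]
    apply Submodule.smul_mem
    apply Submodule.subset_span
    refine ⟨(x : A), ?_, rfl⟩
    have h2 := x.2
    rw [LinearMap.mem_ker, mulK_apply] at h2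
    exact h2
  | add x y hx hy => rw [map_add]; exact Submodule.add_mem _ hx hy

/-- **ASM-1**: the `k`-torsion of `O' ⊗[ℤ] A` is spanned by `1 ⊗ A[k]`. -/
theorem flat_torsion (k : ℕ) (z : O' ⊗[ℤ] A) (hz : (k : O') • z = 0) :
    z ∈ Submodule.span O' {y : O' ⊗[ℤ] A | ∃ x : A, k • x = 0 ∧ y = (1 : O') ⊗ₜ[ℤ] x} := by
  have hex : Function.Exact (LinearMap.ker (mulK A k)).subtype (mulK A k) :=
    LinearMap.exact_subtype_ker_map (mulK A k)
  have hex' := Module.Flat.lTensor_exact O' hex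
  have hz' : ((mulK A k).lTensor O') z = 0 := by rw [lTensor_mulK, hz]
  obtain ⟨w, hw⟩ := (hex' z).mp hz'
  rw [← hw]
  exact range_lTensor_subtype_le O' A k w

/-- **ASM-1, consequence**: an `O'`-linear endomorphism `Φ` of `O' ⊗[ℤ] A` that kills `1 ⊗ x`
for every `x` with `k • x = 0` kills the whole `k`-torsion of `O' ⊗[ℤ] A`. -/
theorem flat_relation (k : ℕ) (Φ : (O' ⊗[ℤ] A) →ₗ[O'] (O' ⊗[ℤ] A))
    (hΦ : ∀ x : A, k • x = 0 → Φ ((1 : O') ⊗ₜ[ℤ] x) = 0)
    (z : O' ⊗[ℤ] A) (hz : (k : O') • z = 0) : Φ z = 0 := by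
  have hmem := flat_torsion O' A k z hz
  have hle : Submodule.span O' {y : O' ⊗[ℤ] A | ∃ x : A, k • x = 0 ∧ y = (1 : O') ⊗ₜ[ℤ] x} ≤
      LinearMap.ker Φ := by
    rw [Submodule.span_le]
    rintro y ⟨x, hx, rfl⟩
    exact LinearMap.mem_ker.mpr (hΦ x hx)
  exact LinearMap.mem_ker.mp (hle hmem)

/-- **ASM-1, base change form**: a `ℤ`-linear endomorphism `φ` of `A` that vanishes on `A[k]`
vanishes, after base change to `O'`, on the `k`-torsion of `O' ⊗[ℤ] A`. -/
theorem flat_relation_baseChange (k : ℕ) (φ : A →ₗ[ℤ] A) (hφ : ∀ x : A, k • x = 0 → φ x = 0)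
    (z : O' ⊗[ℤ] A) (hz : (k : O') • z = 0) : (φ.baseChange O') z = 0 := by
  refine flat_relation O' A k (φ.baseChange O') (fun x hx => ?_) z hz
  rw [LinearMap.baseChange_tmul, hφ x hx, TensorProduct.tmul_zero]

/-- two `ℤ`-linear endomorphisms of `A` that agree on `A[k]` agree, after base change, on the
`k`-torsion of `O' ⊗[ℤ] A`. -/
theorem flat_eq_baseChange (k : ℕ) (φ ψ : A →ₗ[ℤ] A) (h : ∀ x : A, k • x = 0 → φ x = ψ x)
    (z : O' ⊗[ℤ] A) (hz : (k : O') • z = 0) : (φ.baseChange O') z = (ψ.baseChange O') z := by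
  have h0 := flat_relation_baseChange O' A k (φ - ψ)
    (fun x hx => by rw [LinearMap.sub_apply, h x hx, sub_self]) z hz
  rw [LinearMap.baseChange_sub, LinearMap.sub_apply, sub_eq_zero] at h0
  exact h0

end Fermat.Agent.S30.Asm
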