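import Mathlib

/-!
# S30 assembly, block ASM-2 [FINITE FREE]

`O` a complete discrete valuation ring, `p ≠ 0` in its maximal ideal, `M` an `O`-module which is
torsion free, `p`-adically separated (`⋂ pᵏ M = 0`) and such that `M / p M` embeds into a
finitely generated module.  Then `M` is finite and free over `O`.
-/

set_option autoImplicit false
set_option linter.style.haveILetI false

namespace Fermat.Agent.S30.Asm2

open Submodule

section Pi

variable {R : Type*} [CommRing R] {ι : Type*} [Fintype ι] [DecidableEq ι]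

theorem mem_smul_top_pi_iff (J : Ideal R) (x : ι → R) :
    x ∈ (J • ⊤ : Submodule R (ι → R)) ↔ ∀ i, x i ∈ J := by
  constructor
  · intro hx i
    have h1 : (LinearMap.proj i : (ι → R) →ₗ[R] R) x ∈
        Submodule.map (LinearMap.proj i : (ι → R) →ₗ[R] R) (J • ⊤ : Submodule R (ι → R)) :=
      Submodule.mem_map_of_mem hx
    rw [Submodule.map_smul''] at h1
    have h2 : (J • Submodule.map (LinearMap.proj i : (ι → R) →ₗ[R] R) ⊤) ≤ J := by
      refine (Submodule.smul_mono le_rfl le_top).trans ?_
      simp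
    exact h2 h1
  · intro hx
    have hsum : x = ∑ i, x i • (Pi.single i 1 : ι → R) := by
      ext j
      simp [Finset.sum_apply, Pi.single_apply]
    rw [hsum]
    exact Submodule.sum_mem _ fun i _ => Submodule.smul_mem_smul (hx i) mem_top

theorem isPrecomplete_pi (I : Ideal R) [IsPrecomplete I R] : IsPrecomplete I (ι → R) := by
  refine ⟨fun f hf => ?_⟩
  have hcomp : ∀ i, ∃ L : R, ∀ n, f n i ≡ L [SMOD (I ^ n • ⊤ : Submodule R R)] := by
    intro i
    apply IsPrecomplete.prec' (fun n => f n i)
    intro m n hmn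
    have h1 := hf hmn
    rw [SModEq.sub_mem] at h1 ⊢
    have h2 := (mem_smul_top_pi_iff (I ^ m) _).1 h1 i
    simpa using h2
  choose L hL using hcomp
  refine ⟨L, fun n => ?_⟩
  rw [SModEq.sub_mem, mem_smul_top_pi_iff]
  intro i
  have h1 := hL i n
  rw [SModEq.sub_mem] at h1
  simpa using h1

end Pi

section DVR

variable (O : Type*) [CommRing O] [IsDomain O] [IsDiscreteValuationRing O]

theorem exists_pow_le_span (p : O) (hp0 : p ≠ 0) (k : ℕ) :
    ∃ n, (IsLocalRing.maximalIdeal O) ^ n ≤ Ideal.span {p ^ k} := by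
  obtain ⟨ϖ, hϖ⟩ := IsDiscreteValuationRing.exists_irreducible O
  have hne : Ideal.span {p ^ k} ≠ ⊥ := by
    rw [Ne, Ideal.span_singleton_eq_bot]
    exact pow_ne_zero k hp0
  obtain ⟨n, hn⟩ := IsDiscreteValuationRing.ideal_eq_span_pow_irreducible hne hϖ
  refine ⟨n, ?_⟩
  rw [hn, hϖ.maximalIdeal_eq, Ideal.span_singleton_pow]

theorem isHausdorff_of_padic (p : O) (hp0 : p ≠ 0) (M : Type*) [AddCommGroup M] [Module O M]
    (hH : ∀ y : M, (∀ k : ℕ, ∃ z : M, y = p ^ k • z) → y = 0) :
    IsHausdorff (IsLocalRing.maximalIdeal O) M := by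
  refine ⟨fun x hx => hH x fun k => ?_⟩
  obtain ⟨n, hn⟩ := exists_pow_le_span O p hp0 k
  have h1 : x ∈ ((IsLocalRing.maximalIdeal O) ^ n • ⊤ : Submodule O M) := by
    have h0 := hx n
    rwa [SModEq.zero] at h0
  have h2 : x ∈ (Ideal.span {p ^ k} • ⊤ : Submodule O M) := Submodule.smul_mono_left hn h1
  rw [Submodule.ideal_span_singleton_smul] at h2
  obtain ⟨z, -, hz⟩ := (Submodule.mem_smul_pointwise_iff_exists _ _ _).1 h2
  exact ⟨z, hz.symm⟩

variable [IsAdicComplete (IsLocalRing.maximalIdeal O) O]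

/-- **ASM-2**: a torsion free, `p`-adically separated module over a complete DVR whose
reduction mod `p` embeds in a finitely generated module is finite and free. -/
theorem finite_free (p : O) (hp : p ∈ IsLocalRing.maximalIdeal O) (hp0 : p ≠ 0)
    (M : Type*) [AddCommGroup M] [Module O M]
    (htf : ∀ (c : O) (y : M), c • y = 0 → c = 0 ∨ y = 0)
    (hH : ∀ y : M, (∀ k : ℕ, ∃ z : M, y = p ^ k • z) → y = 0)
    {F : Type*} [AddCommGroup F] [Module O F] [Module.Finite O F]
    (g : M →ₗ[O] F) (hg : ∀ y, g y = 0 → ∃ z, y = p • z) :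
    Module.Finite O M ∧ Module.Free O M := by
  haveI : IsHausdorff (IsLocalRing.maximalIdeal O) M := isHausdorff_of_padic O p hp0 M hH
  haveI : IsNoetherian O F := isNoetherian_of_isNoetherianRing_of_finite O F
  haveI : Module.Finite O (LinearMap.range g) := inferInstance
  obtain ⟨n, s, hs⟩ := Module.Finite.exists_fin (R := O) (M := LinearMap.range g)
  have hex : ∀ i, ∃ y : M, g y = (s i : F) := fun i => (s i).2
  choose e he using hex
  let f : (Fin n → O) →ₗ[O] M := Fintype.linearCombination O e
  have hsurj : Function.Surjective ((mkQ (IsLocalRing.maximalIdeal O • ⊤ : Submodule O M)) ∘ₗ f) := by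
    intro ybar
    obtain ⟨y, rfl⟩ := Submodule.mkQ_surjective _ ybar
    have hy : (⟨g y, LinearMap.mem_range_self g y⟩ : LinearMap.range g) ∈
        Submodule.span O (Set.range s) := by
      rw [hs]; trivial
    obtain ⟨c, hc⟩ := (Submodule.mem_span_range_iff_exists_fun O).1 hy
    refine ⟨c, ?_⟩
    rw [LinearMap.comp_apply, mkQ_apply, mkQ_apply, Submodule.Quotient.eq]
    have hgf : g (f c) = g y := by
      have h1 := congrArg Subtype.val hc
      simp only [f, Fintype.linearCombination_apply, map_sum, map_smul, he]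
      simpa using h1
    have hg0 : g (f c - y) = 0 := by
      rw [map_sub, hgf, sub_self]
    obtain ⟨z, hz⟩ := hg _ hg0
    rw [hz]
    exact Submodule.smul_mem_smul hp mem_top
  haveI : IsPrecomplete (IsLocalRing.maximalIdeal O) (Fin n → O) := isPrecomplete_pi _
  have hfs : Function.Surjective f := surjective_of_mkQ_comp_surjective hsurj
  haveI hfin : Module.Finite O M := Module.Finite.of_surjective f hfs
  haveI : Module.IsTorsionFree O M :=
    Module.IsTorsionFree.of_smul_eq_zero fun c y h => htf c y h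
  exact ⟨hfin, Module.free_of_finite_type_torsion_free'⟩

/-- **ASM-2**, variant: the reduction map `g` takes values in a finitely generated submodule
`W` of an arbitrary `O`-module `B`. -/
theorem finite_free_of_fg (p : O) (hp : p ∈ IsLocalRing.maximalIdeal O) (hp0 : p ≠ 0)
    (M : Type*) [AddCommGroup M] [Module O M]
    (htf : ∀ (c : O) (y : M), c • y = 0 → c = 0 ∨ y = 0)
    (hH : ∀ y : M, (∀ k : ℕ, ∃ z : M, y = p ^ k • z) → y = 0)
    {B : Type*} [AddCommGroup B] [Module O B]
    (g : M →ₗ[O] B) (W : Submodule O B) (hW : W.FG) (hgW : ∀ y, g y ∈ W)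
    (hg : ∀ y, g y = 0 → ∃ z, y = p • z) :
    Module.Finite O M ∧ Module.Free O M := by
  haveI : Module.Finite O W := Module.Finite.of_fg hW
  refine finite_free O p hp hp0 M htf hH (g.codRestrict W hgW) fun y hy => hg y ?_
  have h1 := congrArg Subtype.val hy
  simpa using h1

/-- **ASM-2**, variant: the reduction map `g` takes values in the span of a finite set. -/
theorem finite_free_of_span (p : O) (hp : p ∈ IsLocalRing.maximalIdeal O) (hp0 : p ≠ 0)
    (M : Type*) [AddCommGroup M] [Module O M]
    (htf : ∀ (c : O) (y : M), c • y = 0 → c = 0 ∨ y = 0)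
    (hH : ∀ y : M, (∀ k : ℕ, ∃ z : M, y = p ^ k • z) → y = 0)
    {B : Type*} [AddCommGroup B] [Module O B]
    (g : M →ₗ[O] B) (T : Set B) (hT : T.Finite) (hgT : ∀ y, g y ∈ Submodule.span O T)
    (hg : ∀ y, g y = 0 → ∃ z, y = p • z) :
    Module.Finite O M ∧ Module.Free O M :=
  finite_free_of_fg O p hp hp0 M htf hH g (Submodule.span O T) (Submodule.fg_span hT) hgT hg

end DVR

end Fermat.Agent.S30.Asm2
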