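/-
S30 (item 92), ASSEMBLY (lead): the concrete module `M ⊂ Tate(O' ⊗ J₀(N))` and the `LInput`,
from ASM-1 (flat, helper7), ASM-2 (finite free, helper2), ASM-3 (`Asm3.lean`),
R3 + R4 of S29, and the two remaining inputs
* `hfin` : `J₀(N)[p^k]` is finite   (block (F)),
* `hnt`  : the eigen-part of the Tate module is nonzero   (ASM-4 = (C) + (E)).
-/
import Fermat.Agent.S30.Asm3
import Fermat.Agent.S30.AsmFlat
import Fermat.Agent.S30.AsmFree
import Fermat.Agent.S30.Contract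
import Fermat.Agent.S29.R3
import Fermat.Agent.S29.R4

set_option autoImplicit false
set_option maxHeartbeats 2000000
set_option linter.unusedSectionVars false

open ModularCurve AlgebraicCurve
open scoped TensorProduct

noncomputable section

namespace Fermat.Agent.S30.AsmJ

open Fermat.Agent.S30.Asm

/-- Galois on `J₀(N)`, as `ℤ`-linear maps. -/
def galJ (N : ℕ) [NeZero N] : GQ →* Module.End ℤ (JZero N) where
  toFun σ := (DistribSMul.toAddMonoidHom (JZero N) σ).toIntLinearMap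
  map_one' := by
    ext x
    show (1 : GQ) • x = x
    exact one_smul _ _
  map_mul' σ τ := by
    ext x
    show (σ * τ) • x = σ • τ • x
    exact mul_smul _ _ _

theorem galJ_apply (N : ℕ) [NeZero N] (σ : GQ) (x : JZero N) : galJ N σ x = σ • x := rfl

/-- the good primes. -/
def GoodPrime (N : ℕ) (S : Finset ℕ) : Type :=
  {ℓ : ℕ // ℓ.Prime ∧ ¬ ℓ ∣ N ∧ ℓ ∉ (↑S : Set ℕ)}

/-- the Hecke operators at the good primes. -/
def TJ (N : ℕ) [NeZero N] (S : Finset ℕ) (i : GoodPrime N S) : Module.End ℤ (JZero N) :=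
  heckeOperatorBar N ⟨i.1, i.2.1⟩

/-- the eigenvalues. -/
def aJ (N : ℕ) [NeZero N] (S : Finset ℕ) {O' : Type} [CommRing O']
    (χ : CuspForm.heckeAlgebra N 2 (↑S : Set ℕ) →+* O') (i : GoodPrime N S) : O' :=
  χ (CuspForm.heckeAlgebra.T i.2.1 i.2.2.1 i.2.2.2)

theorem hcommJ (N : ℕ) [NeZero N] (S : Finset ℕ) (i : GoodPrime N S) (σ : GQ) :
    TJ N S i * galJ N σ = galJ N σ * TJ N S i := by
  ext x
  exact Fermat.Agent.S29.heckeGaloisStatement N ⟨i.1, i.2.1⟩ σ x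

/-- a finite set of points is fixed by an open subgroup. -/
theorem exists_level_of_finite (N : ℕ) [NeZero N] (X : Set (JZero N)) (hX : X.Finite) :
    ∃ L : IntermediateField ℚ (AlgebraicClosure ℚ), FiniteDimensional ℚ L ∧
      ∀ σ : GQ, (∀ y ∈ L, σ y = y) → ∀ x ∈ X, σ • x = x := by
  obtain ⟨F, rfl⟩ := hX.exists_finset_coe
  classical
  induction F using Finset.induction_on with
  | empty => exact ⟨⊥, inferInstance, fun σ _ x hx => absurd hx (by simp)⟩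
  | insert x₀ X₀ _ ih =>
    obtain ⟨L₁, hL₁, h₁⟩ := ih (Finset.finite_toSet X₀)
    obtain ⟨L₂, hL₂, h₂⟩ := Fermat.Agent.S29.openStabStatement N x₀
    have hfd : FiniteDimensional ℚ ↥(L₁ ⊔ L₂) := IntermediateField.finiteDimensional_sup L₁ L₂
    refine ⟨L₁ ⊔ L₂, hfd, ?_⟩
    intro σ hσ x hx
    rw [Finset.coe_insert] at hx
    rcases Set.mem_insert_iff.mp hx with rfl | hx'
    · exact h₂ σ (fun y hy => hσ y ((le_sup_right : L₂ ≤ L₁ ⊔ L₂) hy))
    · exact h₁ σ (fun y hy => hσ y ((le_sup_left : L₁ ≤ L₁ ⊔ L₂) hy)) x hx'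

section Main

variable (p : ℕ) [Fact p.Prime] (N : ℕ) [NeZero N] (S : Finset ℕ)
  (O' : Type) [CommRing O'] [IsDomain O'] [IsDiscreteValuationRing O'] [CharZero O']
  [IsAdicComplete (IsLocalRing.maximalIdeal O') O']
  (χ : CuspForm.heckeAlgebra N 2 (↑S : Set ℕ) →+* O')

/-- the module. -/
abbrev MJ : Submodule O' (ℕ → O' ⊗[ℤ] JZero N) := eig p O' (JZero N) (TJ N S) (aJ N S χ)

theorem flat1J : Flat1 p O' (JZero N) := by
  intro n z hz
  have h := flat_torsion O' (JZero N) (p ^ n) z (by rw [Nat.cast_pow]; exact hz)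
  exact h

theorem hdivJ (hpO' : (p : O') ∈ IsLocalRing.maximalIdeal O') (c : O') (hc : c ≠ 0) :
    ∃ k : ℕ, c ∣ (p : O') ^ k := by
  obtain ⟨ϖ, hϖ⟩ := IsDiscreteValuationRing.exists_irreducible O'
  have hne : Ideal.span {c} ≠ ⊥ := by
    rw [Ne, Ideal.span_singleton_eq_bot]
    exact hc
  obtain ⟨n, hn⟩ := IsDiscreteValuationRing.ideal_eq_span_pow_irreducible hne hϖ
  refine ⟨n, ?_⟩
  have h1 : (p : O') ^ n ∈ IsLocalRing.maximalIdeal O' ^ n := Ideal.pow_mem_pow hpO' n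
  rw [hϖ.maximalIdeal_eq, Ideal.span_singleton_pow, ← hn] at h1
  exact Ideal.mem_span_singleton.mp h1

/-- **finite free** (ASM-2 applied to `M`). -/
theorem finite_free_MJ (hpO' : (p : O') ∈ IsLocalRing.maximalIdeal O')
    (hfin : (∀ k : ℕ, {x : JZero N | (p ^ k) • x = 0}.Finite)) :
    Module.Finite O' (MJ p N S O' χ) ∧ Module.Free O' (MJ p N S O' χ) := by
  have hp0 : (p : O') ≠ 0 := by
    exact_mod_cast (Fact.out : p.Prime).ne_zero
  refine Fermat.Agent.S30.Asm2.finite_free_of_span O' (p : O') hpO' hp0 (MJ p N S O' χ) ?_ ?_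
    (coord (p := p) (T := TJ N S) (a := aJ N S χ) 1)
    ((fun x : JZero N => (1 : O') ⊗ₜ[ℤ] x) '' {x : JZero N | (p ^ 1) • x = 0})
    ((hfin 1).image _) ?_ ?_
  · intro c y h
    by_cases hc : c = 0
    · exact Or.inl hc
    · exact Or.inr (eq_zero_of_smul (hdivJ p O' hpO') y c hc h)
  · intro y h
    exact eq_zero_of_forall_pow y (fun k => by
      obtain ⟨z, hz⟩ := h k
      exact ⟨z, hz.symm⟩)
  · intro y
    have h1 := flat1J p N O' 1 ((y : ℕ → O' ⊗[ℤ] JZero N) 1) (eig_torsion y 1)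
    refine Submodule.span_mono ?_ h1
    rintro w ⟨x, hx, rfl⟩
    exact ⟨x, hx, rfl⟩
  · intro y hy
    obtain ⟨z, hz⟩ := exists_of_coord_eq_zero y 1 hy
    exact ⟨z, by rw [← hz, pow_one]⟩

theorem not_dvd_J {q : ℕ} (hq : q.Prime) (hqN : ¬ q ∣ N) (hqp : q ≠ p) (n : ℕ) :
    ¬ q ∣ N * p ^ n := by
  have hpr : p.Prime := Fact.out
  intro h
  rcases (Nat.Prime.dvd_mul hq).mp h with h' | h'
  · exact hqN h'
  · exact hqp ((Nat.prime_dvd_prime_iff_eq hq hpr).mp (hq.dvd_of_dvd_pow h'))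

/-- the representation. -/
def rhoJ : GQ →* Module.End O' (MJ p N S O' χ) := rho (galJ N) (hcommJ N S)

theorem contJ (hpO' : (p : O') ∈ IsLocalRing.maximalIdeal O')
    (hfin : (∀ k : ℕ, {x : JZero N | (p ^ k) • x = 0}.Finite)) :
    GaloisActionIsAdicContinuous O' (rhoJ p N S O' χ) := by
  intro n
  obtain ⟨L, hL, h⟩ := exists_level_of_finite N _ (hfin n)
  refine ⟨L, hL, fun σ hσ v => ?_⟩
  obtain ⟨z, hz⟩ := rho_sub_eq (galJ N) (hcommJ N S) (flat1J p N O') σ n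
    (fun x hx => h σ hσ x hx) v
  have hz' : rhoJ p N S O' χ σ v - v = ((p : O') ^ n) • z := hz
  rw [hz']
  exact Submodule.smul_mem_smul (Ideal.pow_mem_pow hpO' n) Submodule.mem_top

theorem esJ (hpS : p ∈ S) (ℓ : ℕ) (hℓ : ℓ.Prime) (hℓN : ¬ ℓ ∣ N) (hℓS : ℓ ∉ (↑S : Set ℕ))
    (A : ValuationSubring (AlgebraicClosure ℚ)) (hA : A.LiesOverPrime ℓ)
    (σ : GQ) (hσ : A.IsFrobeniusAt σ ℓ) :
    rhoJ p N S O' χ σ * rhoJ p N S O' χ σ
      - χ (CuspForm.heckeAlgebra.T hℓ hℓN hℓS) • rhoJ p N S O' χ σ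
      + (ℓ : O') • (1 : Module.End O' (MJ p N S O' χ)) = 0 := by
  have hℓp : ℓ ≠ p := fun h => hℓS (by rw [h]; exact Finset.mem_coe.mpr hpS)
  exact rho_quad (galJ N) (hcommJ N S) (flat1J p N O') σ (⟨ℓ, hℓ, hℓN, hℓS⟩ : GoodPrime N S) ℓ
    (fun n x hx =>
      Fermat.Agent.S29.frobQuadStatement N (p ^ n) ℓ hℓ (not_dvd_J p N hℓ hℓN hℓp n) A hA σ hσ x hx)

theorem urJ (q : ℕ) (hq : q.Prime) (hqN : ¬ q ∣ N) (hqp : q ≠ p)
    (P : ValuationSubring (AlgebraicClosure ℚ)) (hP : P.LiesOverPrime q)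
    (σ : GQ) (hσ : σ ∈ P.inertiaSubgroupIn ℚ) : rhoJ p N S O' χ σ = 1 :=
  rho_eq_one (galJ N) (hcommJ N S) (flat1J p N O') σ
    (fun n x hx =>
      Fermat.Agent.S29.unramStatement N (p ^ n) q hq (not_dvd_J p N hq hqN hqp n) P hP σ hσ x hx)

/-- **the `LInput`**, given finiteness (F) and nontriviality (ASM-4). -/
theorem nonempty_LInput (hpS : p ∈ S) (hpO' : (p : O') ∈ IsLocalRing.maximalIdeal O')
    (hfin : (∀ k : ℕ, {x : JZero N | (p ^ k) • x = 0}.Finite))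
    (hnt : Nontrivial (MJ p N S O' χ)) :
    Nonempty (LInput p N S O' χ) := by
  obtain ⟨hF, hFr⟩ := finite_free_MJ p N S O' χ hpO' hfin
  exact ⟨@LInput.mk p N _ S O' _ _ _ χ (MJ p N S O' χ) _ _ hFr hF hnt (rhoJ p N S O' χ)
    (contJ p N S O' χ hpO' hfin) (esJ p N S O' χ hpS) (urJ p N S O' χ)⟩

end Main

end Fermat.Agent.S30.AsmJ
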