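/-
S30 long shot (item 92), block (F) "reverse Kummer", PACKAGING (helper5).

Given the root statement `RootC N m` (F1 + I3: every unit of `F_ℂ(N)` all of whose orders are
divisible by `m` has an `m`-th root in `MerH`), the character of a root is a homomorphism

  `psi : KPK ℂ N m →* (Γ₀(N) →* ℂˣ)`,   `psi u ^ m = 1`,   `psi u = 1 ↔ u` is an `m`-th power,

and its range is finite.  Hence `KPK ℂ N m / (m-th powers)` is FINITE.
-/
import Mathlib
import Fermat.Agent.S29.KSysMod
import Fermat.Agent.S30.InjRoot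

set_option autoImplicit false
set_option linter.unusedSectionVars false
set_option linter.style.haveILetI false

noncomputable section

open UpperHalfPlane hiding I
open Function Complex CongruenceSubgroup AlgebraicCurve ModularCurve
open scoped Real MatrixGroups Manifold

namespace Fermat.Agent.S30.RevHom

open Fermat.Agent.FF Fermat.Agent.S29.Mer Fermat.Agent.S29.BrC Fermat.Agent.S29
  Fermat.Agent.S30.Rev Fermat.Agent.S30.Inj

variable (N : ℕ) [NeZero N] (m : ℕ)

/-- **the root statement** (F1 + I3). -/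
def RootC : Prop :=
  ∀ u : FC N, u ≠ 0 → (∀ P : Place ℂ (FC N), (m : ℤ) ∣ P.ord u) →
    ∃ h : MerH, h ^ m = embFC N u

variable {N m}

theorem exists_relC (hm : m ≠ 0) (hroot : RootC N m) (u : KM.KPK ℂ N m) :
    ∃ χ : Gamma0 N →* ℂˣ, χ ^ m = 1 ∧ RelC N m χ ((u : (FC N)ˣ) : FC N) := by
  obtain ⟨h, hh⟩ := hroot ((u : (FC N)ˣ) : FC N) (Units.ne_zero _) ((KM.mem_KPK_iff ℂ N m).1 u.2)
  exact RelC.of_root hm (Units.ne_zero _) hh

/-- the character of `u`. -/
def psiFun (hm : m ≠ 0) (hroot : RootC N m) (u : KM.KPK ℂ N m) : Gamma0 N →* ℂˣ :=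
  (exists_relC hm hroot u).choose

theorem psiFun_pow (hm : m ≠ 0) (hroot : RootC N m) (u : KM.KPK ℂ N m) :
    psiFun hm hroot u ^ m = 1 := (exists_relC hm hroot u).choose_spec.1

theorem relC_psiFun (hm : m ≠ 0) (hroot : RootC N m) (u : KM.KPK ℂ N m) :
    RelC N m (psiFun hm hroot u) ((u : (FC N)ˣ) : FC N) :=
  (exists_relC hm hroot u).choose_spec.2

/-- **the reverse Kummer homomorphism**. -/
def psi (hm : m ≠ 0) (hroot : RootC N m) : KM.KPK ℂ N m →* (Gamma0 N →* ℂˣ) where
  toFun := psiFun hm hroot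
  map_one' := RelC.unique hm (relC_psiFun hm hroot 1) (by
    have : (((1 : KM.KPK ℂ N m) : (FC N)ˣ) : FC N) = 1 := rfl
    rw [this]
    exact RelC.one)
  map_mul' u v := RelC.unique hm (relC_psiFun hm hroot (u * v)) (by
    have : (((u * v : KM.KPK ℂ N m) : (FC N)ˣ) : FC N)
        = ((u : (FC N)ˣ) : FC N) * ((v : (FC N)ˣ) : FC N) := rfl
    rw [this]
    exact (relC_psiFun hm hroot u).mul (relC_psiFun hm hroot v))

theorem psi_apply (hm : m ≠ 0) (hroot : RootC N m) (u : KM.KPK ℂ N m) :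
    psi hm hroot u = psiFun hm hroot u := rfl

theorem psi_pow (hm : m ≠ 0) (hroot : RootC N m) (u : KM.KPK ℂ N m) :
    psi hm hroot u ^ m = 1 := psiFun_pow hm hroot u

theorem relC_psi (hm : m ≠ 0) (hroot : RootC N m) (u : KM.KPK ℂ N m) :
    RelC N m (psi hm hroot u) ((u : (FC N)ˣ) : FC N) := relC_psiFun hm hroot u

/-- `psi u` is THE character of `u`. -/
theorem psi_eq_of_relC (hm : m ≠ 0) (hroot : RootC N m) (u : KM.KPK ℂ N m)
    {χ : Gamma0 N →* ℂˣ} (h : RelC N m χ ((u : (FC N)ˣ) : FC N)) : psi hm hroot u = χ :=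
  RelC.unique hm (relC_psi hm hroot u) h

/-- **injectivity modulo `m`-th powers**. -/
theorem psi_eq_one_iff (hm : m ≠ 0) (hroot : RootC N m) (u : KM.KPK ℂ N m) :
    psi hm hroot u = 1 ↔ ∃ y : (FC N)ˣ, y ^ m = (u : (FC N)ˣ) := by
  constructor
  · intro h
    have h1 := relC_psi hm hroot u
    rw [h] at h1
    obtain ⟨y, hy⟩ := RelC.exists_pow_of_one N m hm h1
    have hy0 : y ≠ 0 := by
      rintro rfl
      rw [zero_pow hm] at hy
      exact (Units.ne_zero _) hy.symm
    exact ⟨Units.mk0 y hy0, Units.ext (by rw [Units.val_pow_eq_pow_val]; exact hy)⟩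
  · rintro ⟨y, hy⟩
    apply psi_eq_of_relC
    have : ((u : (FC N)ˣ) : FC N) = (y : FC N) ^ m := by
      rw [← hy, Units.val_pow_eq_pow_val]
    rw [this]
    exact RelC.pow y.ne_zero

/-- constants have trivial character. -/
theorem psi_const (hm : m ≠ 0) (hroot : RootC N m) (u : KM.KPK ℂ N m)
    (hu : (u : (FC N)ˣ) ∈ KM.CK ℂ N) : psi hm hroot u = 1 := by
  obtain ⟨c, hc, h⟩ := (KM.mem_CK_iff ℂ N).1 hu
  apply psi_eq_of_relC
  rw [h]
  exact RelC.const hm hc

/-- characters of exponent `m` of a finitely generated group are finite in number. -/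
theorem finite_char_of_fg (G : Type*) [Group G] (hG : Group.FG G) (hm : m ≠ 0) :
    {χ : G →* ℂˣ | χ ^ m = 1}.Finite := by
  obtain ⟨S, hS⟩ := Group.fg_def.1 hG
  haveI : NeZero m := ⟨hm⟩
  let res : {χ : G →* ℂˣ | χ ^ m = 1} → (S → rootsOfUnity m ℂ) := fun χ s =>
    ⟨χ.1 (s : G), by
      rw [_root_.mem_rootsOfUnity]
      have := congrArg (fun φ : G →* ℂˣ => φ (s : G)) χ.2
      simp only [MonoidHom.pow_apply, MonoidHom.one_apply] at this
      exact this⟩
  have hinj : Function.Injective res := by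
    intro χ φ h
    apply Subtype.ext
    apply MonoidHom.eq_of_eqOn_dense hS
    intro x hx
    have := congrArg Subtype.val (congrFun h ⟨x, hx⟩)
    exact this
  exact Set.finite_coe_iff.1 (Finite.of_injective res hinj)

/-- `Γ₀(N)` is finitely generated. -/
theorem gamma0_fg (N : ℕ) [NeZero N] : Group.FG ↥(Gamma0 N) := by
  have : Group.FG SL(2, ℤ) := by
    rw [Group.fg_def]
    refine ⟨{ModularGroup.S, ModularGroup.T}, ?_⟩
    have := SpecialLinearGroup.SL2Z_generators
    simpa using this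
  exact Subgroup.fg_of_index_ne_zero (Gamma0 N)

/-- **finiteness**: the range of `psi` is finite. -/
theorem finite_range_psi (hm : m ≠ 0) (hroot : RootC N m) :
    (Set.range (psi hm hroot)).Finite := by
  refine (finite_char_of_fg (Gamma0 N) (gamma0_fg N) hm).subset ?_
  rintro _ ⟨u, rfl⟩
  exact psi_pow hm hroot u

end Fermat.Agent.S30.RevHom
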