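import Mathlib
import Fermat.Agent.S29.InvCField
import Fermat.Agent.FF.Holo
import Fermat.Agent.FF.OrdFnBasic
import Fermat.Agent.FF.DictOrd

/-!
# S30 (item 92), block (F), piece (I3): from places to analytic orders

`ordH τ₀ : OrdFn ℂ MerH` is the analytic order at `τ₀ ∈ ℍ` on `MerH = Frac Hol`
(`ordH (a / b) = ordAt τ₀ a - ordAt τ₀ b`).

`dvd_ordH_of_places` : if `u ∈ fieldC N`, `u ≠ 0`, and `m ∣ P.ord u` for every place `P` of
`fieldC N / ℂ`, then `m ∣ ordH τ₀ u` for every `τ₀ ∈ ℍ`.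

`dvd_ordAt_sub_of_places` : the same in terms of a representation `u · b = a`, `a, b ∈ Hol`:
`m ∣ ordAt τ₀ a - ordAt τ₀ b`.
-/

set_option autoImplicit false
set_option linter.unusedSectionVars false
set_option linter.style.haveILetI false

open UpperHalfPlane hiding I
open Function Complex AlgebraicCurve
open scoped Real MatrixGroups Manifold IntermediateField Polynomial

noncomputable section

namespace Fermat.Agent.S30.OrdBridge

open Fermat.Agent.FF Fermat.Agent.S29.Mer Fermat.Agent.S29.InvCDeg Fermat.Agent.S29.InvC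

/-- evaluation `Hol →+* (ℍ → ℂ)` -/
def evH : Hol →+* (ℍ → ℂ) := holRing.subtype

theorem evH_apply (h : Hol) : evH h = (h : ℍ → ℂ) := rfl

theorem evH_injective : Function.Injective evH := Subtype.val_injective

theorem evH_const (c : ℂ) : ∃ z : ℂ, evH (algebraMap ℂ Hol c) = fun _ => z := ⟨c, rfl⟩

/-- the analytic order at `τ₀ ∈ ℍ`, on `MerH` -/
def ordH (τ₀ : ℍ) : OrdFn ℂ MerH :=
  ordFrac (K := ℂ) (L := MerH) evH evH_injective (fun r => r.mdiff) evH_const τ₀

theorem ordH_algebraMap (τ₀ : ℍ) {r : Hol} (hr : r ≠ 0) :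
    ordH τ₀ (algebraMap Hol MerH r) = ordAt τ₀ (r : ℍ → ℂ) :=
  ordFrac_algebraMap _ _ _ _ τ₀ hr

theorem ordH_div (τ₀ : ℍ) {a b : Hol} (ha : a ≠ 0) (hb : b ≠ 0) :
    ordH τ₀ (algebraMap Hol MerH a / algebraMap Hol MerH b) =
      ordAt τ₀ (a : ℍ → ℂ) - ordAt τ₀ (b : ℍ → ℂ) :=
  ordFrac_div _ _ _ _ τ₀ ha hb

section Abstract

variable {F : Type*} [Field F] [Algebra ℂ F]

/-- an order function is divisible by `m` on every element all of whose orders at places are
divisible by `m`. -/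
theorem dvd_ordFn_of_places (w : OrdFn ℂ F) (m : ℤ) (u : F) (hu : u ≠ 0)
    (hdiv : ∀ P : Place ℂ F, m ∣ P.ord u) : m ∣ w u := by
  rcases ordFn_trivial_or w with h | h
  · rw [h u hu]
    exact dvd_zero m
  · obtain ⟨t, -, -, ht⟩ := H6.exists_mul_ord w h
    rw [ht u hu]
    exact Dvd.dvd.mul_left (hdiv _) t

end Abstract

variable (N : ℕ) [NeZero N]

/-- the analytic order at `τ₀` on `fieldC N`. -/
def ordFieldC (τ₀ : ℍ) : OrdFn ℂ ↥(fieldC N) :=
  (ordH τ₀).comap (fieldC N).val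

theorem ordFieldC_apply (τ₀ : ℍ) (u : ↥(fieldC N)) :
    ordFieldC N τ₀ u = ordH τ₀ (u : MerH) := rfl

/-- **(I3)**: divisibility at all places gives divisibility of all analytic orders. -/
theorem dvd_ordH_of_places (m : ℤ) (u : ↥(fieldC N)) (hu : u ≠ 0)
    (hdiv : ∀ P : Place ℂ ↥(fieldC N), m ∣ P.ord u) (τ₀ : ℍ) :
    m ∣ ordH τ₀ (u : MerH) :=
  dvd_ordFn_of_places (ordFieldC N τ₀) m u hu hdiv

/-- **(I3)**, in terms of a quotient representation. -/
theorem dvd_ordAt_sub_of_places (m : ℤ) (u : ↥(fieldC N)) (hu : u ≠ 0)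
    (hdiv : ∀ P : Place ℂ ↥(fieldC N), m ∣ P.ord u)
    (a b : Hol) (hb : b ≠ 0) (hab : (u : MerH) * algebraMap Hol MerH b = algebraMap Hol MerH a)
    (τ₀ : ℍ) : m ∣ ordAt τ₀ (a : ℍ → ℂ) - ordAt τ₀ (b : ℍ → ℂ) := by
  have hb' : algebraMap Hol MerH b ≠ 0 := fun h0 =>
    hb (IsFractionRing.injective Hol MerH (by rw [h0, map_zero]))
  have hu' : (u : MerH) ≠ 0 := fun h0 => hu (Subtype.ext h0)
  have ha : a ≠ 0 := by
    rintro rfl
    rw [map_zero] at hab
    exact (mul_ne_zero hu' hb') hab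
  have hueq : (u : MerH) = algebraMap Hol MerH a / algebraMap Hol MerH b := by
    rw [eq_div_iff hb', hab]
  have h := dvd_ordH_of_places N m u hu hdiv τ₀
  rwa [hueq, ordH_div τ₀ ha hb] at h

end Fermat.Agent.S30.OrdBridge
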