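import Mathlib
import Fermat.Agent.S30.OrdBridge
import Fermat.Agent.S29.BridgeC

/-!
# S30 (item 92), block (F), piece (I3'): from places of `F_K(N)` to analytic orders

General form of `OrdBridge.dvd_ordH_of_places`: `K` algebraically closed of characteristic `0`,
`F / K` any field, `φ : F →+* MerH` a ring homomorphism mapping constants to constants.
If `m ∣ P.ord u` for every place `P` of `F / K`, then `m ∣ ordH τ₀ (φ u)` for every `τ₀ ∈ ℍ`.

Instances: `φ = embFC N` (`K = ℂ`, `F = F_ℂ(N)`), and `φ = embFC N ∘ bc` for a base change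
`bc : F_K(N) →+* F_ℂ(N)` over `ι : K →+* ℂ`.
-/

set_option autoImplicit false
set_option linter.unusedSectionVars false
set_option linter.style.haveILetI false

open UpperHalfPlane hiding I
open Function Complex AlgebraicCurve
open scoped Real MatrixGroups Manifold IntermediateField Polynomial

noncomputable section

namespace Fermat.Agent.S30.OrdBridge

open Fermat.Agent.FF Fermat.Agent.S29.Mer Fermat.Agent.S29.InvCDeg Fermat.Agent.S29.InvC

section General

variable {K F : Type*} [Field K] [CharZero K] [IsAlgClosed K] [Field F] [Algebra K F]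

/-- an order function is divisible by `m` on every element all of whose orders at places are
divisible by `m` (any algebraically closed constant field of characteristic `0`). -/
theorem dvd_ordFn_of_places' (w : OrdFn K F) (m : ℤ) (u : F) (hu : u ≠ 0)
    (hdiv : ∀ P : Place K F, m ∣ P.ord u) : m ∣ w u := by
  rcases ordFn_trivial_or w with h | h
  · rw [h u hu]
    exact dvd_zero m
  · obtain ⟨t, -, -, ht⟩ := H6.exists_mul_ord w h
    rw [ht u hu]
    exact Dvd.dvd.mul_left (hdiv _) t

/-- the pull back of the analytic order at `τ₀` along `φ`. -/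
def ordPull (φ : F →+* MerH)
    (hφ : ∀ c : K, ∃ z : ℂ, φ (algebraMap K F c) = algebraMap ℂ MerH z) (τ₀ : ℍ) :
    OrdFn K F where
  toFun f := ordH τ₀ (φ f)
  map_mul' f g hf hg := by
    rw [φ.map_mul]
    exact (ordH τ₀).map_mul' _ _ ((map_ne_zero φ).mpr hf) ((map_ne_zero φ).mpr hg)
  map_add' f g hf hg hfg := by
    rw [φ.map_add]
    exact (ordH τ₀).map_add' _ _ ((map_ne_zero φ).mpr hf) ((map_ne_zero φ).mpr hg)
      (by rw [← φ.map_add]; exact (map_ne_zero φ).mpr hfg)
  map_const' c hc := by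
    obtain ⟨z, hz⟩ := hφ c
    have hne : φ (algebraMap K F c) ≠ 0 :=
      (map_ne_zero φ).mpr ((map_ne_zero (algebraMap K F)).mpr hc)
    have hz0 : z ≠ 0 := by
      rintro rfl
      rw [hz, (algebraMap ℂ MerH).map_zero] at hne
      exact hne rfl
    rw [hz]
    exact (ordH τ₀).map_const' z hz0

/-- **(I3')**: divisibility at all places of `F / K` gives divisibility of all analytic orders
of the image in `MerH`. -/
theorem dvd_ordH_of_places_hom (φ : F →+* MerH)
    (hφ : ∀ c : K, ∃ z : ℂ, φ (algebraMap K F c) = algebraMap ℂ MerH z)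
    (m : ℤ) (u : F) (hu : u ≠ 0) (hdiv : ∀ P : Place K F, m ∣ P.ord u) (τ₀ : ℍ) :
    m ∣ ordH τ₀ (φ u) :=
  dvd_ordFn_of_places' (ordPull φ hφ τ₀) m u hu hdiv

/-- **(I3')**, in terms of a quotient representation `φ u · b = a`, `a, b ∈ Hol`. -/
theorem dvd_ordAt_sub_of_places_hom (φ : F →+* MerH)
    (hφ : ∀ c : K, ∃ z : ℂ, φ (algebraMap K F c) = algebraMap ℂ MerH z)
    (m : ℤ) (u : F) (hu : u ≠ 0) (hdiv : ∀ P : Place K F, m ∣ P.ord u)
    (a b : Hol) (hb : b ≠ 0) (hab : φ u * algebraMap Hol MerH b = algebraMap Hol MerH a)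
    (τ₀ : ℍ) : m ∣ ordAt τ₀ (a : ℍ → ℂ) - ordAt τ₀ (b : ℍ → ℂ) := by
  have hb' : algebraMap Hol MerH b ≠ 0 := fun h0 =>
    hb (IsFractionRing.injective Hol MerH (by rw [h0, map_zero]))
  have hu' : φ u ≠ 0 := (map_ne_zero φ).mpr hu
  have ha : a ≠ 0 := by
    rintro rfl
    rw [map_zero] at hab
    exact (mul_ne_zero hu' hb') hab
  have hueq : φ u = algebraMap Hol MerH a / algebraMap Hol MerH b := by
    rw [eq_div_iff hb', hab]
  have h := dvd_ordH_of_places_hom φ hφ m u hu hdiv τ₀
  rwa [hueq, ordH_div τ₀ ha hb] at h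

end General

section Modular

open Fermat.Agent.S29.BrC

variable (N : ℕ) [NeZero N]

/-- **(I3')** for `F_ℂ(N)` and `embFC N`. -/
theorem dvd_ordH_embFC (m : ℤ) (u : FC N) (hu : u ≠ 0)
    (hdiv : ∀ P : Place ℂ (FC N), m ∣ P.ord u) (τ₀ : ℍ) :
    m ∣ ordH τ₀ (embFC N u) :=
  dvd_ordH_of_places_hom (embFC N) (fun c => ⟨c, embFC_const N c⟩) m u hu hdiv τ₀

end Modular

end Fermat.Agent.S30.OrdBridge
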