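import Mathlib

/-!
# S30 block (F1): m-th roots of holomorphic functions on a disc

If a function `H` has, at every point of the disc `ball 0 ρ`, a local analytic `m`-th root,
then it has an analytic `m`-th root on the whole disc (continuation along growing discs).
-/

set_option autoImplicit false

open Metric Set Filter Topology

namespace Fermat.Agent.S30.Root

/-- the `m`-th roots of unity in `ℂ` form a finite set -/
theorem finite_roots_of_unity (m : ℕ) (hm : 0 < m) : {ζ : ℂ | ζ ^ m = 1}.Finite := by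
  have hp : (Polynomial.X ^ m - Polynomial.C (1 : ℂ)) ≠ 0 := Polynomial.X_pow_sub_C_ne_zero hm 1
  refine (Polynomial.finite_setOfPred_isRoot hp).subset ?_
  intro ζ hζ
  simp only [Set.mem_ofPred_eq, Polynomial.IsRoot.def, Polynomial.eval_sub, Polynomial.eval_pow,
    Polynomial.eval_X, Polynomial.eval_C] at hζ ⊢
  rw [hζ, sub_self]

/-- two analytic functions with the same `m`-th power on a preconnected open set differ by a
constant `m`-th root of unity -/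
theorem root_unique {m : ℕ} (hm : 0 < m) {V : Set ℂ} (hVo : IsOpen V) (hVc : IsPreconnected V)
    {f g : ℂ → ℂ} (hf : AnalyticOnNhd ℂ f V) (hg : AnalyticOnNhd ℂ g V)
    (h : ∀ z ∈ V, f z ^ m = g z ^ m) :
    ∃ ω : ℂ, ω ^ m = 1 ∧ ∀ z ∈ V, f z = ω * g z := by
  by_cases hg0 : ∀ z ∈ V, g z = 0
  · refine ⟨1, one_pow m, fun z hz => ?_⟩
    have h0 : f z ^ m = 0 := by rw [h z hz, hg0 z hz, zero_pow hm.ne']
    have h1 : f z = 0 := pow_eq_zero_iff hm.ne' |>.mp h0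
    rw [h1, hg0 z hz, mul_zero]
  · push Not at hg0
    obtain ⟨z1, hz1, hgz1⟩ := hg0
    have hωm : (f z1 / g z1) ^ m = 1 := by
      rw [div_pow, h z1 hz1, div_self (pow_ne_zero m hgz1)]
    refine ⟨f z1 / g z1, hωm, ?_⟩
    have hfin := finite_roots_of_unity m hm
    have hclosed : IsClosed ({ζ : ℂ | ζ ^ m = 1} \ {f z1 / g z1}) :=
      (hfin.subset Set.sdiff_subset).isClosed
    have hωmem : f z1 / g z1 ∈ ({ζ : ℂ | ζ ^ m = 1} \ {f z1 / g z1})ᶜ := by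
      intro hmem
      exact hmem.2 rfl
    have hgc : ContinuousAt g z1 := (hg z1 hz1).continuousAt
    have hfc : ContinuousAt f z1 := (hf z1 hz1).continuousAt
    have hq : ContinuousAt (fun z => f z / g z) z1 := hfc.div hgc hgz1
    have h1 : ∀ᶠ z in 𝓝 z1, f z / g z ∈ ({ζ : ℂ | ζ ^ m = 1} \ {f z1 / g z1})ᶜ :=
      hq.eventually_mem (hclosed.isOpen_compl.mem_nhds hωmem)
    have h2 : ∀ᶠ z in 𝓝 z1, g z ≠ 0 := hgc.eventually_ne hgz1
    have h3 : ∀ᶠ z in 𝓝 z1, z ∈ V := hVo.mem_nhds hz1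
    have hev : f =ᶠ[𝓝 z1] fun z => f z1 / g z1 * g z := by
      filter_upwards [h1, h2, h3] with z hz1' hz2 hz3
      have hqm : (f z / g z) ^ m = 1 := by
        rw [div_pow, h z hz3, div_self (pow_ne_zero m hz2)]
      have hqe : f z / g z = f z1 / g z1 := by
        by_contra hne
        exact hz1' ⟨hqm, hne⟩
      rw [← hqe, div_mul_cancel₀ _ hz2]
    have hωg : AnalyticOnNhd ℂ (fun z => f z1 / g z1 * g z) V :=
      fun z hz => analyticAt_const.mul (hg z hz)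
    exact fun z hz => hf.eqOn_of_preconnected_of_eventuallyEq hωg hVc hz1 hev hz

/-- local data: a local root on a small ball inside the disc -/
theorem local_root_ball {m : ℕ} {H : ℂ → ℂ} {ρ : ℝ}
    (hloc : ∀ z ∈ ball (0 : ℂ) ρ, ∃ d : ℂ → ℂ, AnalyticAt ℂ d z ∧ ∀ᶠ w in 𝓝 z, d w ^ m = H w)
    (z : ℂ) (hz : z ∈ ball (0 : ℂ) ρ) :
    ∃ d : ℂ → ℂ, ∃ ε : ℝ, 0 < ε ∧ ball z ε ⊆ ball 0 ρ ∧
      AnalyticOnNhd ℂ d (ball z ε) ∧ ∀ w ∈ ball z ε, d w ^ m = H w := by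
  obtain ⟨d, hd, hdH⟩ := hloc z hz
  have h1 := hd.eventually_analyticAt
  have h2 : ∀ᶠ w in 𝓝 z, w ∈ ball (0 : ℂ) ρ := isOpen_ball.mem_nhds hz
  obtain ⟨ε, hε, hsub⟩ := Metric.eventually_nhds_iff_ball.mp (h1.and (hdH.and h2))
  exact ⟨d, ε, hε, fun w hw => (hsub w hw).2.2, fun w hw => (hsub w hw).1,
    fun w hw => (hsub w hw).2.1⟩

/-- uniqueness of the continuation with a given germ at `0` -/
theorem germ_unique {c c' c0 : ℂ → ℂ} {r r' : ℝ}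
    (hc : AnalyticOnNhd ℂ c (ball 0 r)) (hc' : AnalyticOnNhd ℂ c' (ball 0 r'))
    (hg : c =ᶠ[𝓝 0] c0) (hg' : c' =ᶠ[𝓝 0] c0) {w : ℂ} (hw : w ∈ ball (0 : ℂ) r)
    (hw' : w ∈ ball (0 : ℂ) r') : c w = c' w := by
  have hmin : w ∈ ball (0 : ℂ) (min r r') := by
    rw [mem_ball] at hw hw' ⊢
    exact lt_min hw hw'
  have h0 : (0 : ℂ) ∈ ball (0 : ℂ) (min r r') := by
    rw [mem_ball, dist_self]
    rw [mem_ball] at hmin
    exact lt_of_le_of_lt dist_nonneg hmin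
  have hA : AnalyticOnNhd ℂ c (ball 0 (min r r')) :=
    hc.mono (ball_subset_ball (min_le_left _ _))
  have hA' : AnalyticOnNhd ℂ c' (ball 0 (min r r')) :=
    hc'.mono (ball_subset_ball (min_le_right _ _))
  exact hA.eqOn_of_preconnected_of_eventuallyEq hA' (convex_ball 0 _).isPreconnected h0
    (hg.trans hg'.symm) hmin

/-- the class of good radii -/
def Good (m : ℕ) (H c0 : ℂ → ℂ) (r : ℝ) : Prop :=
  ∃ c : ℂ → ℂ, AnalyticOnNhd ℂ c (ball 0 r) ∧ (∀ z ∈ ball (0 : ℂ) r, c z ^ m = H z) ∧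
    c =ᶠ[𝓝 0] c0

theorem good_glue {m : ℕ} {H c0 : ℂ → ℂ} {R : ℝ} (hR : 0 < R)
    (h : ∀ z ∈ ball (0 : ℂ) R, ∃ r, dist z 0 < r ∧ r ≤ R ∧ Good m H c0 r) :
    Good m H c0 R := by
  have hex : ∀ z : ℂ, ∃ c : ℂ → ℂ, z ∈ ball (0 : ℂ) R → ∃ r, dist z 0 < r ∧ r ≤ R ∧
      AnalyticOnNhd ℂ c (ball 0 r) ∧ (∀ w ∈ ball (0 : ℂ) r, c w ^ m = H w) ∧ c =ᶠ[𝓝 0] c0 := by
    intro z
    by_cases hz : z ∈ ball (0 : ℂ) R
    · obtain ⟨r, h1, h2, c, h3, h4, h5⟩ := h z hz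
      exact ⟨c, fun _ => ⟨r, h1, h2, h3, h4, h5⟩⟩
    · exact ⟨0, fun hz' => absurd hz' hz⟩
  choose cz hcz using hex
  have key : ∀ z ∈ ball (0 : ℂ) R, ∀ r, dist z 0 < r → r ≤ R →
      AnalyticOnNhd ℂ (cz z) (ball 0 r) → cz z =ᶠ[𝓝 0] c0 →
      ∀ w ∈ ball (0 : ℂ) r, cz w w = cz z w := by
    intro z hz r hzr hrR hA hG w hw
    have hwR : w ∈ ball (0 : ℂ) R := ball_subset_ball hrR hw
    obtain ⟨r', h1', h2', h3', h4', h5'⟩ := hcz w hwR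
    exact germ_unique h3' hA h5' hG (mem_ball.mpr h1') hw
  refine ⟨fun z => cz z z, ?_, ?_, ?_⟩
  · intro z hz
    obtain ⟨r, h1, h2, h3, h4, h5⟩ := hcz z hz
    have hzr : z ∈ ball (0 : ℂ) r := mem_ball.mpr h1
    have hev : (fun w => cz w w) =ᶠ[𝓝 z] cz z := by
      filter_upwards [isOpen_ball.mem_nhds hzr] with w hw
      exact key z hz r h1 h2 h3 h5 w hw
    exact (h3 z hzr).congr hev.symm
  · intro z hz
    obtain ⟨r, h1, h2, h3, h4, h5⟩ := hcz z hz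
    exact h4 z (mem_ball.mpr h1)
  · have h0 : (0 : ℂ) ∈ ball (0 : ℂ) R := mem_ball_self hR
    obtain ⟨r, h1, h2, h3, h4, h5⟩ := hcz 0 h0
    have hev : (fun w => cz w w) =ᶠ[𝓝 0] cz 0 := by
      filter_upwards [isOpen_ball.mem_nhds (mem_ball.mpr h1)] with w hw
      exact key 0 h0 r h1 h2 h3 h5 w hw
    exact hev.trans h5

theorem good_extend {m : ℕ} (hm : 0 < m) {H c0 : ℂ → ℂ} {ρ R : ℝ} (hR : 0 < R) (hRρ : R < ρ)
    (hloc : ∀ z ∈ ball (0 : ℂ) ρ, ∃ d : ℂ → ℂ, AnalyticAt ℂ d z ∧ ∀ᶠ w in 𝓝 z, d w ^ m = H w)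
    (hG : Good m H c0 R) : ∃ R', R < R' ∧ R' ≤ ρ ∧ Good m H c0 R' := by
  obtain ⟨c, hcA, hcH, hcG⟩ := hG
  have hloc2 : ∀ ξ ∈ sphere (0 : ℂ) R, ∃ e : ℂ → ℂ, ∃ ε : ℝ, 0 < ε ∧ ball ξ ε ⊆ ball 0 ρ ∧
      AnalyticOnNhd ℂ e (ball ξ ε) ∧ (∀ w ∈ ball ξ ε, e w ^ m = H w) ∧
      (∀ w ∈ ball ξ ε ∩ ball 0 R, e w = c w) := by
    intro ξ hξ
    have hξρ : ξ ∈ ball (0 : ℂ) ρ := by
      rw [mem_ball]; rw [mem_sphere] at hξ; rw [hξ]; exact hRρ
    obtain ⟨d, ε, hε, hsub, hdA, hdH⟩ := local_root_ball hloc ξ hξρ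
    have hVo : IsOpen (ball ξ ε ∩ ball 0 R) := isOpen_ball.inter isOpen_ball
    have hVc : IsPreconnected (ball ξ ε ∩ ball (0 : ℂ) R) :=
      ((convex_ball ξ ε).inter (convex_ball 0 R)).isPreconnected
    obtain ⟨ω, hω, hωeq⟩ := root_unique hm hVo hVc (hcA.mono Set.inter_subset_right)
      (hdA.mono Set.inter_subset_left) (fun z hz => by rw [hcH z hz.2, hdH z hz.1])
    refine ⟨fun w => ω * d w, ε, hε, hsub, fun w hw => analyticAt_const.mul (hdA w hw), ?_, ?_⟩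
    · intro w hw
      rw [mul_pow, hω, one_mul, hdH w hw]
    · intro w hw
      exact (hωeq w hw).symm
  choose! e ε hε hsub heA heH hec using hloc2
  have compat1 : ∀ ξ ∈ sphere (0 : ℂ) R, ∀ ξ' ∈ sphere (0 : ℂ) R, ε ξ' ≤ ε ξ →
      ∀ z, z ∈ ball ξ (ε ξ / 2) → z ∈ ball ξ' (ε ξ' / 2) → e ξ z = e ξ' z := by
    intro ξ hξ ξ' hξ' hle z hz hz'
    have hzV : z ∈ ball ξ (ε ξ) ∩ ball ξ' (ε ξ') :=
      ⟨ball_subset_ball (by linarith [hε ξ hξ]) hz,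
        ball_subset_ball (by linarith [hε ξ' hξ']) hz'⟩
    have hξ'V : ξ' ∈ ball ξ (ε ξ) ∩ ball ξ' (ε ξ') := by
      refine ⟨?_, mem_ball_self (hε ξ' hξ')⟩
      rw [mem_ball] at hz hz' ⊢
      calc dist ξ' ξ ≤ dist ξ' z + dist z ξ := dist_triangle _ _ _
        _ < ε ξ' / 2 + ε ξ / 2 := by rw [dist_comm ξ' z]; exact add_lt_add hz' hz
        _ ≤ ε ξ := by linarith
    have hVo : IsOpen (ball ξ (ε ξ) ∩ ball ξ' (ε ξ')) := isOpen_ball.inter isOpen_ball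
    have hVc : IsPreconnected (ball ξ (ε ξ) ∩ ball ξ' (ε ξ')) :=
      ((convex_ball ξ _).inter (convex_ball ξ' _)).isPreconnected
    have hcl : ξ' ∈ closure (ball (0 : ℂ) R) := by
      rw [closure_ball 0 hR.ne']
      exact sphere_subset_closedBall hξ'
    obtain ⟨y, hyV, hyR⟩ := mem_closure_iff_nhds.mp hcl _ (hVo.mem_nhds hξ'V)
    have hev : e ξ =ᶠ[𝓝 y] e ξ' := by
      filter_upwards [(hVo.inter isOpen_ball).mem_nhds ⟨hyV, hyR⟩] with w hw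
      rw [hec ξ hξ w ⟨hw.1.1, hw.2⟩, hec ξ' hξ' w ⟨hw.1.2, hw.2⟩]
    exact ((heA ξ hξ).mono Set.inter_subset_left).eqOn_of_preconnected_of_eventuallyEq
      ((heA ξ' hξ').mono Set.inter_subset_right) hVc hyV hev hzV
  have compat : ∀ ξ ∈ sphere (0 : ℂ) R, ∀ ξ' ∈ sphere (0 : ℂ) R,
      ∀ z, z ∈ ball ξ (ε ξ / 2) → z ∈ ball ξ' (ε ξ' / 2) → e ξ z = e ξ' z := by
    intro ξ hξ ξ' hξ' z hz hz'
    rcases le_total (ε ξ') (ε ξ) with h | h
    · exact compat1 ξ hξ ξ' hξ' h z hz hz'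
    · exact (compat1 ξ' hξ' ξ hξ h z hz' hz).symm
  obtain ⟨δ, hδ, hleb⟩ := lebesgue_number_lemma_of_metric (isCompact_sphere (0 : ℂ) R)
    (c := fun ξ : sphere (0 : ℂ) R => ball (ξ : ℂ) (ε ξ / 2)) (fun _ => isOpen_ball)
    (fun x hx => Set.mem_iUnion.mpr ⟨⟨x, hx⟩, mem_ball_self (half_pos (hε x hx))⟩)
  have hann : ∀ z : ℂ, R ≤ dist z 0 → dist z 0 < R + δ →
      ∃ ξ ∈ sphere (0 : ℂ) R, z ∈ ball ξ (ε ξ / 2) := by
    intro z hz1 hz2
    rw [dist_zero_right] at hz1 hz2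
    have hzpos : 0 < ‖z‖ := lt_of_lt_of_le hR hz1
    have hζR : (((R / ‖z‖ : ℝ) : ℂ) * z) ∈ sphere (0 : ℂ) R := by
      rw [mem_sphere, dist_zero_right, norm_mul, Complex.norm_real, Real.norm_eq_abs,
        abs_of_pos (div_pos hR hzpos), div_mul_cancel₀ _ hzpos.ne']
    have hdist : dist z (((R / ‖z‖ : ℝ) : ℂ) * z) < δ := by
      have h0 : z - ((R / ‖z‖ : ℝ) : ℂ) * z = ((1 - R / ‖z‖ : ℝ) : ℂ) * z := by
        push_cast; ring
      rw [dist_eq_norm, h0, norm_mul, Complex.norm_real, Real.norm_eq_abs]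
      have h1 : 0 ≤ 1 - R / ‖z‖ := by
        rw [sub_nonneg, div_le_one hzpos]; exact hz1
      rw [abs_of_nonneg h1, sub_mul, one_mul, div_mul_cancel₀ _ hzpos.ne']
      linarith
    obtain ⟨ξ, hξ⟩ := hleb _ hζR
    exact ⟨ξ, ξ.2, hξ (mem_ball.mpr hdist)⟩
  have hex : ∀ z : ℂ, ∃ ξ : ℂ, (R ≤ dist z 0 → dist z 0 < R + δ →
      ξ ∈ sphere (0 : ℂ) R ∧ z ∈ ball ξ (ε ξ / 2)) := by
    intro z
    by_cases h : R ≤ dist z 0 ∧ dist z 0 < R + δ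
    · obtain ⟨ξ, h1, h2⟩ := hann z h.1 h.2
      exact ⟨ξ, fun _ _ => ⟨h1, h2⟩⟩
    · exact ⟨0, fun h1 h2 => absurd ⟨h1, h2⟩ h⟩
  choose ξf hξf using hex
  classical
  have hct_e : ∀ ξ ∈ sphere (0 : ℂ) R, ∀ w ∈ ball ξ (ε ξ / 2) ∩ ball 0 (R + δ),
      (if dist w 0 < R then c w else e (ξf w) w) = e ξ w := by
    intro ξ hξ w hw
    by_cases hwR : dist w 0 < R
    · rw [if_pos hwR]
      exact (hec ξ hξ w ⟨ball_subset_ball (by linarith [hε ξ hξ]) hw.1, mem_ball.mpr hwR⟩).symm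
    · rw [if_neg hwR]
      obtain ⟨h1, h2⟩ := hξf w (not_lt.mp hwR) (mem_ball.mp hw.2)
      exact compat (ξf w) h1 ξ hξ w h2 hw.1
  refine ⟨min (R + δ) ρ, lt_min (by linarith) hRρ, min_le_right _ _,
    fun z => if dist z 0 < R then c z else e (ξf z) z, ?_, ?_, ?_⟩
  · intro z hz
    have hz1 : dist z 0 < R + δ := lt_of_lt_of_le (mem_ball.mp hz) (min_le_left _ _)
    by_cases hzR : dist z 0 < R
    · have hev : (fun z => if dist z 0 < R then c z else e (ξf z) z) =ᶠ[𝓝 z] c := by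
        filter_upwards [isOpen_ball.mem_nhds (mem_ball.mpr hzR)] with w hw
        exact if_pos (mem_ball.mp hw)
      exact (hcA z (mem_ball.mpr hzR)).congr hev.symm
    · obtain ⟨h1, h2⟩ := hξf z (not_lt.mp hzR) hz1
      have hev : (fun z => if dist z 0 < R then c z else e (ξf z) z) =ᶠ[𝓝 z] e (ξf z) := by
        filter_upwards [(isOpen_ball.inter isOpen_ball).mem_nhds
          (⟨h2, mem_ball.mpr hz1⟩ : z ∈ ball (ξf z) (ε (ξf z) / 2) ∩ ball 0 (R + δ))] with w hw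
        exact hct_e (ξf z) h1 w hw
      exact (heA (ξf z) h1 z (ball_subset_ball (by linarith [hε (ξf z) h1]) h2)).congr hev.symm
  · intro z hz
    have hz1 : dist z 0 < R + δ := lt_of_lt_of_le (mem_ball.mp hz) (min_le_left _ _)
    by_cases hzR : dist z 0 < R
    · simp only [if_pos hzR]; exact hcH z (mem_ball.mpr hzR)
    · obtain ⟨h1, h2⟩ := hξf z (not_lt.mp hzR) hz1
      simp only [if_neg hzR]
      exact heH (ξf z) h1 z (ball_subset_ball (by linarith [hε (ξf z) h1]) h2)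
  · have hev : (fun z => if dist z 0 < R then c z else e (ξf z) z) =ᶠ[𝓝 0] c := by
      filter_upwards [isOpen_ball.mem_nhds (mem_ball_self hR : (0 : ℂ) ∈ ball (0 : ℂ) R)]
        with w hw
      exact if_pos (mem_ball.mp hw)
    exact hev.trans hcG

/-- **Continuation**: a function with local analytic `m`-th roots everywhere on a disc has an
analytic `m`-th root on the whole disc. -/
theorem exists_root_on_ball (m : ℕ) (hm : 0 < m) (H : ℂ → ℂ) (ρ : ℝ) (hρ : 0 < ρ)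
    (hloc : ∀ z ∈ ball (0 : ℂ) ρ, ∃ d : ℂ → ℂ, AnalyticAt ℂ d z ∧ ∀ᶠ w in 𝓝 z, d w ^ m = H w) :
    ∃ c : ℂ → ℂ, AnalyticOnNhd ℂ c (ball 0 ρ) ∧ ∀ z ∈ ball (0 : ℂ) ρ, c z ^ m = H z := by
  obtain ⟨c0, ε0, hε0, hsub0, hc0, hc0H⟩ := local_root_ball hloc 0 (mem_ball_self hρ)
  have hε0ρ : ε0 ≤ ρ := by
    by_contra hlt
    rw [not_le] at hlt
    have h1 : ((ρ : ℝ) : ℂ) ∈ ball (0 : ℂ) ε0 := by
      rw [mem_ball, dist_zero_right, Complex.norm_real, Real.norm_eq_abs, abs_of_pos hρ]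
      exact hlt
    have h2 := hsub0 h1
    rw [mem_ball, dist_zero_right, Complex.norm_real, Real.norm_eq_abs, abs_of_pos hρ] at h2
    exact lt_irrefl _ h2
  have hT0 : ε0 ∈ {r : ℝ | 0 < r ∧ r ≤ ρ ∧ Good m H c0 r} :=
    ⟨hε0, hε0ρ, c0, hc0, hc0H, Filter.EventuallyEq.refl _ _⟩
  have hTb : BddAbove {r : ℝ | 0 < r ∧ r ≤ ρ ∧ Good m H c0 r} := ⟨ρ, fun r hr => hr.2.1⟩
  have hRpos : 0 < sSup {r : ℝ | 0 < r ∧ r ≤ ρ ∧ Good m H c0 r} :=
    lt_of_lt_of_le hε0 (le_csSup hTb hT0)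
  have hRle : sSup {r : ℝ | 0 < r ∧ r ≤ ρ ∧ Good m H c0 r} ≤ ρ :=
    csSup_le ⟨ε0, hT0⟩ (fun r hr => hr.2.1)
  have hGR : Good m H c0 (sSup {r : ℝ | 0 < r ∧ r ≤ ρ ∧ Good m H c0 r}) := by
    apply good_glue hRpos
    intro z hz
    obtain ⟨r, hrT, hzr⟩ := exists_lt_of_lt_csSup ⟨ε0, hT0⟩ (mem_ball.mp hz)
    exact ⟨r, hzr, le_csSup hTb hrT, hrT.2.2⟩
  rcases eq_or_lt_of_le hRle with h | h
  · rw [h] at hGR
    obtain ⟨c, h1, h2, -⟩ := hGR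
    exact ⟨c, h1, h2⟩
  · obtain ⟨R', h1, h2, h3⟩ := good_extend hm hRpos h hloc hGR
    have h4 : R' ≤ sSup {r : ℝ | 0 < r ∧ r ≤ ρ ∧ Good m H c0 r} :=
      le_csSup hTb ⟨lt_trans hRpos h1, h2, h3⟩
    exact absurd h1 (not_lt.mpr h4)

end Fermat.Agent.S30.Root
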