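import Mathlib
import Fermat.Agent.S30.RootH

/-!
# S30 block (F1), part 2: local roots from orders, Cayley transfer to the upper half plane

* `local_root_of_order` : order divisible by `m` (or `⊤`) gives a local analytic `m`-th root;
* `exists_root_on_upperHalfPlane` : local roots on `{z | 0 < z.im}` give a global analytic root;
* `exists_root_mdiff`, `exists_root_mdiff_of_order` : the same for `MDiff` functions on `ℍ`.
-/

set_option autoImplicit false

open Metric Set Filter Topology Complex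
open scoped Manifold

namespace Fermat.Agent.S30.Root

/-- (A) a local analytic `m`-th root from divisibility of the order -/
theorem local_root_of_order {m : ℕ} (hm : 0 < m) {f : ℂ → ℂ} {z0 : ℂ} (hf : AnalyticAt ℂ f z0)
    (hord : analyticOrderAt f z0 = ⊤ ∨ ∃ k : ℕ, analyticOrderAt f z0 = ((m * k : ℕ) : ℕ∞)) :
    ∃ d : ℂ → ℂ, AnalyticAt ℂ d z0 ∧ ∀ᶠ w in 𝓝 z0, d w ^ m = f w := by
  rcases hord with htop | ⟨k, hk⟩
  · refine ⟨fun _ => 0, analyticAt_const, ?_⟩
    filter_upwards [analyticOrderAt_eq_top.mp htop] with w hw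
    rw [hw, zero_pow hm.ne']
  · obtain ⟨g, hg, hg0, hfg⟩ := (hf.analyticOrderAt_eq_natCast).mp hk
    obtain ⟨w0, hw0⟩ := IsAlgClosed.exists_pow_nat_eq (g z0) hm
    have hq : AnalyticAt ℂ (fun z => g z / g z0) z0 := hg.div analyticAt_const hg0
    have hq1 : (fun z => g z / g z0) z0 ∈ slitPlane := by
      simp only [div_self hg0]; exact one_mem_slitPlane
    have hlog : AnalyticAt ℂ (fun z => Complex.log (g z / g z0)) z0 := hq.clog hq1
    have hmne : (m : ℂ) ≠ 0 := Nat.cast_ne_zero.mpr hm.ne'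
    have hexp : AnalyticAt ℂ (fun z => Complex.exp (Complex.log (g z / g z0) / m)) z0 :=
      (hlog.div analyticAt_const hmne).cexp'
    refine ⟨fun z => (z - z0) ^ k * (w0 * Complex.exp (Complex.log (g z / g z0) / m)), ?_, ?_⟩
    · exact ((analyticAt_id.sub analyticAt_const).pow k).mul (analyticAt_const.mul hexp)
    · have hgne : ∀ᶠ w in 𝓝 z0, g w ≠ 0 := hg.continuousAt.eventually_ne hg0
      filter_upwards [hfg, hgne] with w hw hwne
      have h1 : (m : ℂ) * (Complex.log (g w / g z0) / m) = Complex.log (g w / g z0) := by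
        field_simp
      rw [hw, mul_pow, mul_pow, ← pow_mul, ← Complex.exp_nat_mul, hw0, h1,
        Complex.exp_log (div_ne_zero hwne hg0), smul_eq_mul, mul_comm k m,
        mul_div_cancel₀ _ hg0]

theorem cayley_denom_ne {w : ℂ} (hw : ‖w‖ < 1) : (1 - w) ≠ 0 := by
  intro h
  have h1 : w = 1 := by linear_combination -h
  rw [h1, norm_one] at hw
  exact lt_irrefl _ hw

theorem cayley_im_pos {w : ℂ} (hw : ‖w‖ < 1) : 0 < (I * (1 + w) / (1 - w)).im := by
  have hne : (1 - w) ≠ 0 := cayley_denom_ne hw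
  have hns : 0 < normSq (1 - w) := normSq_pos.mpr hne
  have hw2 : normSq w < 1 := by
    rw [Complex.normSq_eq_norm_sq]
    nlinarith [norm_nonneg w]
  rw [Complex.normSq_apply] at hw2
  rw [mul_div_assoc, Complex.I_mul_im, Complex.div_re]
  simp only [Complex.add_re, Complex.one_re, Complex.sub_re, Complex.add_im, Complex.one_im,
    Complex.sub_im, zero_add, zero_sub]
  have h3 : (1 + w.re) * (1 - w.re) / normSq (1 - w) + w.im * -w.im / normSq (1 - w)
      = (1 - (w.re * w.re + w.im * w.im)) / normSq (1 - w) := by ring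
  rw [h3]
  exact div_pos (by linarith) hns

theorem cayley_add_I_ne {z : ℂ} (hz : 0 < z.im) : z + I ≠ 0 := by
  intro h
  have h1 := congrArg Complex.im h
  simp only [Complex.add_im, Complex.I_im, Complex.zero_im] at h1
  linarith

theorem cayley_inv_mem {z : ℂ} (hz : 0 < z.im) : (z - I) / (z + I) ∈ ball (0 : ℂ) 1 := by
  have hne : z + I ≠ 0 := cayley_add_I_ne hz
  rw [mem_ball, dist_zero_right, norm_div, div_lt_one (norm_pos_iff.mpr hne)]
  have h1 : ‖z - I‖ ^ 2 < ‖z + I‖ ^ 2 := by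
    rw [← Complex.normSq_eq_norm_sq, ← Complex.normSq_eq_norm_sq, Complex.normSq_apply,
      Complex.normSq_apply]
    simp only [Complex.sub_re, Complex.sub_im, Complex.add_re, Complex.add_im, Complex.I_re,
      Complex.I_im]
    nlinarith
  exact lt_of_pow_lt_pow_left₀ 2 (norm_nonneg _) h1

theorem cayley_comp {z : ℂ} (hz : 0 < z.im) :
    I * (1 + (z - I) / (z + I)) / (1 - (z - I) / (z + I)) = z := by
  have hne : z + I ≠ 0 := cayley_add_I_ne hz
  have h1 : 1 + (z - I) / (z + I) = 2 * z / (z + I) := by field_simp; ring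
  have h2 : 1 - (z - I) / (z + I) = 2 * I / (z + I) := by field_simp; ring
  rw [h1, h2]
  have hI : (I : ℂ) ≠ 0 := Complex.I_ne_zero
  field_simp

/-- (B) local analytic `m`-th roots on the upper half plane give a global analytic `m`-th root -/
theorem exists_root_on_upperHalfPlane (m : ℕ) (hm : 0 < m) (H : ℂ → ℂ)
    (hloc : ∀ z : ℂ, 0 < z.im → ∃ d : ℂ → ℂ, AnalyticAt ℂ d z ∧ ∀ᶠ w in 𝓝 z, d w ^ m = H w) :
    ∃ c : ℂ → ℂ, AnalyticOnNhd ℂ c {z | 0 < z.im} ∧ ∀ z : ℂ, 0 < z.im → c z ^ m = H z := by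
  have hφ : ∀ w ∈ ball (0 : ℂ) 1, AnalyticAt ℂ (fun w : ℂ => I * (1 + w) / (1 - w)) w := by
    intro w hw
    have hne : 1 - w ≠ 0 := cayley_denom_ne (by simpa using hw)
    exact (analyticAt_const.mul (analyticAt_const.add analyticAt_id)).div
      (analyticAt_const.sub analyticAt_id) hne
  have hloc' : ∀ w ∈ ball (0 : ℂ) 1, ∃ d : ℂ → ℂ, AnalyticAt ℂ d w ∧
      ∀ᶠ x in 𝓝 w, d x ^ m = (fun w : ℂ => H (I * (1 + w) / (1 - w))) x := by
    intro w hw
    have him := cayley_im_pos (w := w) (by simpa using hw)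
    obtain ⟨d, hd, hdH⟩ := hloc _ him
    refine ⟨fun x => d (I * (1 + x) / (1 - x)), ?_, ?_⟩
    · exact AnalyticAt.comp (f := fun w : ℂ => I * (1 + w) / (1 - w)) (x := w) hd (hφ w hw)
    · exact (hφ w hw).continuousAt.eventually hdH
  obtain ⟨c', hc'A, hc'H⟩ := exists_root_on_ball m hm _ 1 one_pos hloc'
  refine ⟨fun z => c' ((z - I) / (z + I)), ?_, ?_⟩
  · intro z hz
    have hne : z + I ≠ 0 := cayley_add_I_ne hz
    have hψ : AnalyticAt ℂ (fun z : ℂ => (z - I) / (z + I)) z :=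
      (analyticAt_id.sub analyticAt_const).div (analyticAt_id.add analyticAt_const) hne
    exact AnalyticAt.comp (f := fun z : ℂ => (z - I) / (z + I)) (x := z)
      (hc'A _ (cayley_inv_mem hz)) hψ
  · intro z hz
    have h1 : c' ((z - I) / (z + I)) ^ m =
        H (I * (1 + (z - I) / (z + I)) / (1 - (z - I) / (z + I))) :=
      hc'H _ (cayley_inv_mem hz)
    rw [h1, cayley_comp hz]

open UpperHalfPlane in
/-- (C) the same for functions on `ℍ` -/
theorem exists_root_mdiff (m : ℕ) (hm : 0 < m) (h : ℍ → ℂ)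
    (hloc : ∀ τ : ℍ, ∃ d : ℂ → ℂ, AnalyticAt ℂ d (τ : ℂ) ∧
      ∀ᶠ w in 𝓝 (τ : ℂ), d w ^ m = (h ∘ ofComplex) w) :
    ∃ c : ℍ → ℂ, MDiff c ∧ ∀ τ : ℍ, c τ ^ m = h τ := by
  obtain ⟨c, hcA, hcH⟩ := exists_root_on_upperHalfPlane m hm (h ∘ ofComplex)
    (fun z hz => hloc ⟨z, hz⟩)
  refine ⟨fun τ => c (τ : ℂ), ?_, ?_⟩
  · rw [UpperHalfPlane.mdifferentiable_iff]
    intro z hz
    have hd : DifferentiableAt ℂ c z := (hcA z hz).differentiableAt
    refine (hd.differentiableWithinAt).congr ?_ ?_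
    · intro w hw
      simp only [Function.comp_apply, ofComplex_apply_of_im_pos hw]
    · simp only [Function.comp_apply, ofComplex_apply_of_im_pos hz]
  · intro τ
    have h1 := hcH τ τ.im_pos
    simpa only [Function.comp_apply, ofComplex_apply] using h1

open UpperHalfPlane in
/-- (C') order form: a holomorphic function on `ℍ` all of whose orders are divisible by `m`
has a holomorphic `m`-th root -/
theorem exists_root_mdiff_of_order (m : ℕ) (hm : 0 < m) (h : ℍ → ℂ) (hh : MDiff h)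
    (hord : ∀ τ : ℍ, analyticOrderAt (h ∘ ofComplex) (τ : ℂ) = ⊤ ∨
      ∃ k : ℕ, analyticOrderAt (h ∘ ofComplex) (τ : ℂ) = ((m * k : ℕ) : ℕ∞)) :
    ∃ c : ℍ → ℂ, MDiff c ∧ ∀ τ : ℍ, c τ ^ m = h τ := by
  apply exists_root_mdiff m hm h
  intro τ
  have hA : AnalyticAt ℂ (h ∘ ofComplex) (τ : ℂ) :=
    (UpperHalfPlane.mdifferentiable_iff.mp hh).analyticAt
      (isOpen_upperHalfPlaneSet.mem_nhds τ.im_pos)
  exact local_root_of_order hm hA (hord τ)

end Fermat.Agent.S30.Root
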