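import Mathlib
import Fermat.Agent.S29.MerField
import Fermat.Agent.S30.RootHalf

/-!
# S30 block (F1), part 3: `m`-th roots in `Hol` and in `MerH = Frac Hol`

* `exists_root_Hol` : `h : Hol` with all orders divisible by `m` is an `m`-th power in `Hol`;
* `order_mul_pow` : orders of `A * B ^ (m - 1)` from `m ∣ ord A - ord B`;
* `exists_root_MerH` : `a / b ∈ MerH` is an `m`-th power as soon as `a * b ^ (m - 1)` has all
  orders divisible by `m`;
* `exists_root_MerH_of_orders` : the same from `m ∣ ord_τ a - ord_τ b` for all `τ`.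
-/

set_option autoImplicit false

open Metric Set Filter Topology Complex
open UpperHalfPlane hiding I
open scoped Manifold

namespace Fermat.Agent.S30.Root

open Fermat.Agent.S29.Mer

/-- the order condition at a point: the order is `⊤` or a multiple of `m` -/
def OrdDvd (m : ℕ) (f : ℂ → ℂ) (z : ℂ) : Prop :=
  analyticOrderAt f z = ⊤ ∨ ∃ k : ℕ, analyticOrderAt f z = ((m * k : ℕ) : ℕ∞)

theorem exists_root_Hol (m : ℕ) (hm : 0 < m) (h : Hol)
    (hord : ∀ τ : ℍ, OrdDvd m ((h : ℍ → ℂ) ∘ ofComplex) (τ : ℂ)) :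
    ∃ c : Hol, c ^ m = h := by
  obtain ⟨c, hc, hcm⟩ := exists_root_mdiff_of_order m hm (h : ℍ → ℂ) h.mdiff hord
  refine ⟨⟨c, hc⟩, Hol.ext fun τ => ?_⟩
  rw [Subring.coe_pow, Pi.pow_apply]
  exact hcm τ

theorem analyticAt_Hol (h : Hol) (τ : ℍ) : AnalyticAt ℂ ((h : ℍ → ℂ) ∘ ofComplex) (τ : ℂ) :=
  (UpperHalfPlane.mdifferentiable_iff.mp h.mdiff).analyticAt
    (isOpen_upperHalfPlaneSet.mem_nhds τ.im_pos)

/-- orders of `A * B ^ (m - 1)` -/
theorem order_mul_pow {m : ℕ} (hm : 0 < m) {A B : ℂ → ℂ} {z : ℂ} (hA : AnalyticAt ℂ A z)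
    (hB : AnalyticAt ℂ B z) {p q : ℕ} (hp : analyticOrderAt A z = p)
    (hq : analyticOrderAt B z = q) (hdiv : (m : ℤ) ∣ (p : ℤ) - q) :
    OrdDvd m (A * B ^ (m - 1)) z := by
  right
  have h1 : analyticOrderAt (A * B ^ (m - 1)) z = ((p + (m - 1) * q : ℕ) : ℕ∞) := by
    rw [analyticOrderAt_mul hA (hB.pow _), analyticOrderAt_pow hB, hp, hq]
    push_cast
    rw [nsmul_eq_mul]
    push_cast
    rfl
  have h2 : (m : ℤ) ∣ ((p + (m - 1) * q : ℕ) : ℤ) := by
    have h3 : ((p + (m - 1) * q : ℕ) : ℤ) = ((p : ℤ) - q) + m * q := by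
      have hm1 : ((m - 1 : ℕ) : ℤ) = (m : ℤ) - 1 := by
        rw [Nat.cast_sub hm]; simp
      push_cast
      rw [hm1]; ring
    rw [h3]
    exact dvd_add hdiv (dvd_mul_right _ _)
  obtain ⟨k, hk⟩ := Int.natCast_dvd_natCast.mp h2
  exact ⟨k, by rw [h1, hk]⟩

theorem exists_root_MerH (m : ℕ) (hm : 0 < m) (a b : Hol) (hb : b ≠ 0)
    (hord : ∀ τ : ℍ, OrdDvd m (((a * b ^ (m - 1) : Hol) : ℍ → ℂ) ∘ ofComplex) (τ : ℂ)) :
    ∃ y : MerH, y ^ m = algebraMap Hol MerH a / algebraMap Hol MerH b := by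
  obtain ⟨c, hc⟩ := exists_root_Hol m hm (a * b ^ (m - 1)) hord
  have hb' : algebraMap Hol MerH b ≠ 0 := by
    intro h0
    exact hb ((IsFractionRing.injective Hol MerH) (by rw [h0, map_zero]))
  refine ⟨algebraMap Hol MerH c / algebraMap Hol MerH b, ?_⟩
  rw [div_pow, ← map_pow, hc, map_mul, map_pow]
  have hmm : m = (m - 1) + 1 := by omega
  rw [div_eq_div_iff (pow_ne_zero _ hb') hb']
  conv_rhs => rw [hmm]
  rw [pow_succ]
  ring

end Fermat.Agent.S30.Root
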