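import Mathlib
import Fermat.Agent.S30.OrdBridge
import Fermat.Agent.S30.RootMer

/-!
# S30 block (F1), final form: an element of `fieldC N` whose divisor is divisible by `m`
is an `m`-th power in `MerH`.
-/

set_option autoImplicit false
set_option linter.unusedSectionVars false

open UpperHalfPlane hiding I
open Function Complex AlgebraicCurve
open scoped Real MatrixGroups Manifold

noncomputable section

namespace Fermat.Agent.S30.Root

open Fermat.Agent.FF Fermat.Agent.S29.Mer Fermat.Agent.S29.InvCDeg Fermat.Agent.S29.InvC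
open Fermat.Agent.S30.OrdBridge

theorem coe_mul_pow_comp (a b : Hol) (n : ℕ) :
    ((a * b ^ n : Hol) : ℍ → ℂ) ∘ ofComplex =
      ((a : ℍ → ℂ) ∘ ofComplex) * ((b : ℍ → ℂ) ∘ ofComplex) ^ n := by
  funext z
  simp only [Function.comp_apply, Subring.coe_mul, Subring.coe_pow, Pi.mul_apply, Pi.pow_apply]

/-- `a / b` is an `m`-th power in `MerH` as soon as `m ∣ ord_τ a - ord_τ b` for all `τ`. -/
theorem exists_root_MerH_of_orders (m : ℕ) (hm : 0 < m) (a b : Hol) (ha : a ≠ 0) (hb : b ≠ 0)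
    (hdiv : ∀ τ : ℍ, (m : ℤ) ∣ ordAt τ (a : ℍ → ℂ) - ordAt τ (b : ℍ → ℂ)) :
    ∃ y : MerH, y ^ m = algebraMap Hol MerH a / algebraMap Hol MerH b := by
  apply exists_root_MerH m hm a b hb
  intro τ
  rw [coe_mul_pow_comp]
  have ha0 : (a : ℍ → ℂ) ≠ 0 := fun h => ha (Subtype.ext h)
  have hb0 : (b : ℍ → ℂ) ≠ 0 := fun h => hb (Subtype.ext h)
  have hpa := Nat.cast_analyticOrderNatAt (analyticOrderAt_comp_ofComplex_ne_top a.mdiff ha0 τ)
  have hpb := Nat.cast_analyticOrderNatAt (analyticOrderAt_comp_ofComplex_ne_top b.mdiff hb0 τ)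
  exact order_mul_pow hm (analyticAt_Hol a τ) (analyticAt_Hol b τ) hpa.symm hpb.symm (hdiv τ)

variable (N : ℕ) [NeZero N]

/-- **(F1)**: `u ∈ fieldC N`, `u ≠ 0`, with `m ∣ P.ord u` at every place `P` of `fieldC N / ℂ`,
is an `m`-th power in the field `MerH` of meromorphic functions on `ℍ`. -/
theorem exists_root_of_places (m : ℕ) (hm : 0 < m) (u : ↥(fieldC N)) (hu : u ≠ 0)
    (hdiv : ∀ P : Place ℂ ↥(fieldC N), (m : ℤ) ∣ P.ord u) :
    ∃ y : MerH, y ^ m = (u : MerH) := by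
  obtain ⟨a, b, hb, hab⟩ := IsFractionRing.div_surjective (A := Hol) (u : MerH)
  have hb0 : b ≠ 0 := nonZeroDivisors.ne_zero hb
  have hb' : algebraMap Hol MerH b ≠ 0 := fun h0 =>
    hb0 (IsFractionRing.injective Hol MerH (by rw [h0, map_zero]))
  have hu' : (u : MerH) ≠ 0 := fun h0 => hu (Subtype.ext h0)
  have hmul : (u : MerH) * algebraMap Hol MerH b = algebraMap Hol MerH a := by
    rw [← hab, div_mul_cancel₀ _ hb']
  have ha0 : a ≠ 0 := by
    rintro rfl
    rw [map_zero] at hmul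
    exact (mul_ne_zero hu' hb') hmul
  obtain ⟨y, hy⟩ := exists_root_MerH_of_orders m hm a b ha0 hb0
    (fun τ => dvd_ordAt_sub_of_places N (m : ℤ) u hu hdiv a b hb0 hmul τ)
  exact ⟨y, by rw [hy, hab]⟩

end Fermat.Agent.S30.Root
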