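import Mathlib
import Fermat.Agent.S30.OrdBridgeK
import Fermat.Agent.S30.RootPlaces

/-!
# S30 block (F1): `RootC` — elements with divisor divisible by `m` are `m`-th powers in `MerH`

General form (`exists_root_hom`): `K` algebraically closed of characteristic `0`, `F / K` a field,
`φ : F →+* MerH` mapping constants to constants, `u ≠ 0` with `m ∣ P.ord u` for all places `P`
of `F / K`: then `φ u` is an `m`-th power in `MerH`.  Instance `rootC` : `F = F_ℂ(N)`,
`φ = embFC N`.
-/

set_option autoImplicit false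
set_option linter.unusedSectionVars false

open UpperHalfPlane hiding I
open Function Complex AlgebraicCurve
open scoped Real MatrixGroups Manifold

noncomputable section

namespace Fermat.Agent.S30.Root

open Fermat.Agent.FF Fermat.Agent.S29.Mer Fermat.Agent.S30.OrdBridge

section General

variable {K F : Type*} [Field K] [CharZero K] [IsAlgClosed K] [Field F] [Algebra K F]

theorem exists_root_hom (φ : F →+* MerH)
    (hφ : ∀ c : K, ∃ z : ℂ, φ (algebraMap K F c) = algebraMap ℂ MerH z)
    (m : ℕ) (hm : 0 < m) (u : F) (hu : u ≠ 0) (hdiv : ∀ P : Place K F, (m : ℤ) ∣ P.ord u) :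
    ∃ y : MerH, y ^ m = φ u := by
  obtain ⟨a, b, hb, hab⟩ := IsFractionRing.div_surjective (A := Hol) (φ u)
  have hb0 : b ≠ 0 := nonZeroDivisors.ne_zero hb
  have hb' : algebraMap Hol MerH b ≠ 0 := fun h0 =>
    hb0 (IsFractionRing.injective Hol MerH (by rw [h0, map_zero]))
  have hu' : φ u ≠ 0 := (map_ne_zero φ).mpr hu
  have hmul : φ u * algebraMap Hol MerH b = algebraMap Hol MerH a := by
    rw [← hab, div_mul_cancel₀ _ hb']
  have ha0 : a ≠ 0 := by
    rintro rfl
    rw [map_zero] at hmul
    exact (mul_ne_zero hu' hb') hmul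
  obtain ⟨y, hy⟩ := exists_root_MerH_of_orders m hm a b ha0 hb0
    (fun τ => dvd_ordAt_sub_of_places_hom φ hφ (m : ℤ) u hu hdiv a b hb0 hmul τ)
  exact ⟨y, by rw [hy, hab]⟩

end General

section Modular

open Fermat.Agent.S29.BrC

variable (N : ℕ) [NeZero N]

/-- **RootC** -/
theorem rootC (m : ℕ) (hm : 0 < m) (u : FC N) (hu : u ≠ 0)
    (hdiv : ∀ P : Place ℂ (FC N), (m : ℤ) ∣ P.ord u) : ∃ h : MerH, h ^ m = embFC N u :=
  exists_root_hom (embFC N) (fun c => ⟨c, embFC_const N c⟩) m hm u hu hdiv

end Modular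

end Fermat.Agent.S30.Root
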