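/-
S30 long shot (item 92), block (F) WIRING (helper5):

  **`J₀(N)[m]` is FINITE** for every `m ≠ 0`:   `finite_torsion N m hm : {x : JZero N | m • x = 0}.Finite`.

Route (reverse Kummer): a class `x` with `m x = 0` is `[D]` with `m D = div u`, `u ∈ F_ℚ̄(N)`;
the base change of `u` to `ℂ` has an `m`-th root in `MerH` (F1, helper7 + I3, helper2), the
root has a character `χ` of `Γ₀(N)` with `χ ^ m = 1` (`RevChar`), and `χ` determines `x`
(`InjRoot` + `TransferB.mem_Triv_of_bcU` + `kcls_eq_of_pow`).  Characters of exponent `m` of the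
finitely generated group `Γ₀(N)` are finite in number.
-/
import Mathlib
import Fermat.Agent.S29.TransferB
import Fermat.Agent.S29.BottomKSys
import Fermat.Agent.S30.RootC
import Fermat.Agent.S30.RevHom

set_option autoImplicit false
set_option linter.unusedSectionVars false
set_option linter.style.haveILetI false

noncomputable section

open UpperHalfPlane hiding I
open Function CongruenceSubgroup AlgebraicCurve ModularCurve
open scoped Real MatrixGroups Manifold

namespace Fermat.Agent.S30.FinTors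

open Fermat.Agent.FF Fermat.Agent.S29.Mer Fermat.Agent.S29.BrC Fermat.Agent.S29
  Fermat.Agent.S29.DStep Fermat.Agent.S30.Rev Fermat.Agent.S30.Inj Fermat.Agent.S37
  Fermat.Agent.S29.KD

local notation "Kbar" => AlgebraicClosure ℚ

variable (N : ℕ) [NeZero N]

/-- base change `F_ℚ̄(N) → F_ℂ(N)`. -/
def toC : ↥(modularFunctionFieldBar N) →+* FC N :=
  (A3.bcN iotaK N).comp (RingHomClass.toRingHom (Bottom.eBar N).symm)

theorem toC_apply (u : ↥(modularFunctionFieldBar N)) :
    toC N u = A3.bcN iotaK N ((Bottom.eBar N).symm u) := rfl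

theorem toC_const (c : Kbar) :
    toC N (algebraMap Kbar ↥(modularFunctionFieldBar N) c) = algebraMap ℂ (FC N) (iotaK c) := by
  rw [toC_apply, AlgEquiv.commutes]
  exact A3.bcF_algebraMap iotaK _ _ _ c

/-- the embedding of `F_ℚ̄(N)` into `MerH`. -/
def phi : ↥(modularFunctionFieldBar N) →+* MerH := (embFC N).comp (toC N)

theorem phi_const (c : Kbar) :
    ∃ z : ℂ, phi N (algebraMap Kbar ↥(modularFunctionFieldBar N) c) = algebraMap ℂ MerH z :=
  ⟨iotaK c, by rw [phi, RingHom.comp_apply, toC_const, embFC_const]⟩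

/-- **existence of the character** of a Kummer pair over `ℚ̄`. -/
theorem exists_char (m : ℕ) (hm : m ≠ 0) (u : ↥(modularFunctionFieldBar N))
    (D : Divisor Kbar ↥(modularFunctionFieldBar N)) (hD : IsKummerPair m u D) :
    ∃ χ : Gamma0 N →* ℂˣ, χ ^ m = 1 ∧ RelC N m χ (toC N u) := by
  have hdiv : ∀ P : Place Kbar ↥(modularFunctionFieldBar N), (m : ℤ) ∣ P.ord u := fun P => by
    rw [hD.ord_eq]
    exact dvd_mul_right _ _
  obtain ⟨y, hy⟩ := Root.exists_root_hom (phi N) (phi_const N) m (Nat.pos_of_ne_zero hm) u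
    hD.ne_zero hdiv
  exact RelC.of_root hm ((map_ne_zero (toC N)).2 hD.ne_zero) hy

/-- **the character determines the class.** -/
theorem kcls_eq_of_relC (m : ℕ) (hm : m ≠ 0) {u u' : ↥(modularFunctionFieldBar N)}
    {D D' : Divisor Kbar ↥(modularFunctionFieldBar N)}
    (hD : IsKummerPair m u D) (hD' : IsKummerPair m u' D') {χ : Gamma0 N →* ℂˣ}
    (h : RelC N m χ (toC N u)) (h' : RelC N m χ (toC N u')) :
    haveI := E0M.hasPrincipalDivisors_bar N
    kcls hm hD = kcls hm hD' := by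
  haveI := E0M.hasPrincipalDivisors_bar N
  have huu : u * u'⁻¹ ≠ 0 := mul_ne_zero hD.ne_zero (inv_ne_zero hD'.ne_zero)
  have h1 : RelC N m 1 (toC N (u * u'⁻¹)) := by
    have e : χ * χ⁻¹ = 1 := mul_inv_cancel χ
    have := h.mul h'.inv
    rw [e, ← map_inv₀, ← map_mul] at this
    exact this
  obtain ⟨y, hy⟩ := RelC.exists_pow_of_one N m hm h1
  have hv0 : (Bottom.eBar N).symm (u * u'⁻¹) ≠ 0 := (map_ne_zero _).2 huu
  have hy0 : y ≠ 0 := by
    rintro rfl
    rw [zero_pow hm] at hy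
    exact ((map_ne_zero (toC N)).2 huu) hy.symm
  have hT : TransferB.bcU iotaK N (Units.mk0 _ hv0) ∈ Triv (KM.CK ℂ N) m := by
    refine mem_Triv_iff.2 ⟨1, Subgroup.one_mem _, Units.mk0 y hy0, Units.ext ?_⟩
    rw [one_mul, Units.val_pow_eq_pow_val, Units.val_mk0, hy]
    rfl
  have hT' := TransferB.mem_Triv_of_bcU iotaK N m (Nat.pos_of_ne_zero hm) _ hT
  obtain ⟨c, w, hc, hw, hcw⟩ := Bottom.triv_transport N m hT'
  rw [Units.val_mk0, AlgEquiv.apply_symm_apply] at hcw
  obtain ⟨w', hw', hcw'⟩ := Bottom.exists_pow_eq_smul m (Nat.pos_of_ne_zero hm) c w hc hw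
  rw [hcw'] at hcw
  have huw : u = w' ^ m * u' := by
    rw [← hcw, mul_assoc, inv_mul_cancel₀ hD'.ne_zero, mul_one]
  exact kcls_eq_of_pow hm hD hD' hw' huw

/-- **`J₀(N)[m]` is finite.** -/
theorem finite_torsion (m : ℕ) (hm : m ≠ 0) : {x : JZero N | m • x = 0}.Finite := by
  haveI := E0M.hasPrincipalDivisors_bar N
  have hex : ∀ x : {x : JZero N | m • x = 0},
      ∃ (u : ↥(modularFunctionFieldBar N)) (D : Divisor Kbar ↥(modularFunctionFieldBar N))
        (hD : IsKummerPair m u D), (x : JZero N) = kcls hm hD := by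
    rintro ⟨x, hx⟩
    obtain ⟨⟨D, hdeg⟩, rfl⟩ := Pic0.mk_surjective x
    have h1 : (QuotientAddGroup.mk (m • (⟨D, hdeg⟩ :
        Divisor.degZero (K := Kbar) (F := ↥(modularFunctionFieldBar N)))) :
        Pic0 Kbar ↥(modularFunctionFieldBar N)) = 0 := by
      rw [QuotientAddGroup.mk_nsmul]
      exact hx
    have h2 := (QuotientAddGroup.eq_zero_iff _).1 h1
    rw [AddSubgroup.mem_addSubgroupOf] at h2
    obtain ⟨w, hw, hwD⟩ := h2
    refine ⟨w, D, ⟨hw, fun P => ?_⟩, rfl⟩
    have := hwD P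
    simp only [AddSubgroup.coe_nsmul, Finsupp.smul_apply, nsmul_eq_mul] at this
    exact this.symm
  choose U D hD hx using hex
  have hχ : ∀ x, ∃ χ : Gamma0 N →* ℂˣ, χ ^ m = 1 ∧ RelC N m χ (toC N (U x)) :=
    fun x => exists_char N m hm (U x) (D x) (hD x)
  choose χ hχm hχR using hχ
  let f : {x : JZero N | m • x = 0} → {χ : Gamma0 N →* ℂˣ | χ ^ m = 1} :=
    fun x => ⟨χ x, hχm x⟩
  have hinj : Function.Injective f := by
    intro x x' h
    have hχ' : χ x = χ x' := congrArg Subtype.val h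
    apply Subtype.ext
    rw [hx x, hx x']
    exact kcls_eq_of_relC N m hm (hD x) (hD x') (hχR x) (hχ' ▸ hχR x')
  haveI : Finite {χ : Gamma0 N →* ℂˣ | χ ^ m = 1} :=
    (RevHom.finite_char_of_fg (Gamma0 N) (RevHom.gamma0_fg N) hm).to_subtype
  exact Set.finite_coe_iff.1 (Finite.of_injective f hinj)

end Fermat.Agent.S30.FinTors
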