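import Mathlib
import Fermat.Agent.S30.Asm3

/-!
# S30 assembly, piece ASM-4 (NONZERO), against `S30/Asm3.lean`

`L` a free `ℤ`-module with operators `TL i`, `Φ n : L →ₗ[ℤ] A` with `Φ 0 = 0`,
`p • Φ (n+1) = Φ n`, `T i ∘ Φ n = Φ n ∘ TL i`, and `y₀ ∈ O ⊗ L` an eigenvector of the `TL i`
with eigenvalues `a i`.  Then `seq` `:= n ↦ (Φ n ⊗ 1) y₀` is an element of `eig p O A T a`,
and it is nonzero as soon as `ker Φ n ⊆ p^n L`, `y₀ ≠ 0`, `O` is flat over `ℤ` and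
`p`-adically separated.
-/

set_option autoImplicit false
set_option linter.unusedSectionVars false

open TensorProduct

noncomputable section

namespace Fermat.Agent.S30.Asm4

open Fermat.Agent.S30.Asm

variable (p : ℕ) (O : Type) [CommRing O] (A : Type) [AddCommGroup A] {ι : Type}
  (T : ι → Module.End ℤ A) (a : ι → O)
  (L : Type) [AddCommGroup L] (TL : ι → Module.End ℤ L) (Φ : ℕ → (L →ₗ[ℤ] A))

/-- base change of a natural multiple -/
theorem baseChange_nsmul (k : ℕ) (f : L →ₗ[ℤ] A) (z : O ⊗[ℤ] L) :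
    (k • f).baseChange O z = (k : O) • f.baseChange O z := by
  induction z using TensorProduct.induction_on with
  | zero => rw [map_zero, map_zero, smul_zero]
  | tmul o x =>
    rw [LinearMap.baseChange_tmul, LinearMap.baseChange_tmul, LinearMap.smul_apply,
      TensorProduct.smul_tmul', smul_eq_mul, ← natCast_zsmul, ← TensorProduct.smul_tmul,
      zsmul_eq_mul, Int.cast_natCast]
  | add x y hx hy => rw [map_add, map_add, hx, hy, smul_add]

/-- **ASM-4, the element** -/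
def seq (hΦ0 : Φ 0 = 0) (hΦp : ∀ n, p • Φ (n + 1) = Φ n)
    (hT : ∀ i n, (T i).comp (Φ n) = (Φ n).comp (TL i))
    (y₀ : O ⊗[ℤ] L) (hy₀ : ∀ i, (TL i).baseChange O y₀ = a i • y₀) : eig p O A T a :=
  ⟨fun n => (Φ n).baseChange O y₀, by
    refine ⟨?_, ?_, ?_⟩
    · show (Φ 0).baseChange O y₀ = 0
      rw [hΦ0, LinearMap.baseChange_zero]
      rfl
    · intro n
      show (p : O) • (Φ (n + 1)).baseChange O y₀ = (Φ n).baseChange O y₀
      rw [← baseChange_nsmul, hΦp]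
    · intro i n
      show bc O A (T i) ((Φ n).baseChange O y₀) = a i • (Φ n).baseChange O y₀
      have h1 : bc O A (T i) ((Φ n).baseChange O y₀) = ((T i).comp (Φ n)).baseChange O y₀ := by
        rw [LinearMap.baseChange_comp]
        rfl
      rw [h1, hT i n, LinearMap.baseChange_comp, LinearMap.comp_apply, hy₀ i, map_smul]⟩

theorem seq_apply (hΦ0 : Φ 0 = 0) (hΦp : ∀ n, p • Φ (n + 1) = Φ n)
    (hT : ∀ i n, (T i).comp (Φ n) = (Φ n).comp (TL i))
    (y₀ : O ⊗[ℤ] L) (hy₀ : ∀ i, (TL i).baseChange O y₀ = a i • y₀) (n : ℕ) :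
    ((seq p O A T a L TL Φ hΦ0 hΦp hT y₀ hy₀ : eig p O A T a) : ℕ → O ⊗[ℤ] A) n =
      (Φ n).baseChange O y₀ := rfl

theorem mem_range_of_baseChange_eq_zero [Module.Flat ℤ O] (f : L →ₗ[ℤ] A) (z : O ⊗[ℤ] L)
    (hz : f.baseChange O z = 0) :
    z ∈ LinearMap.range ((LinearMap.ker f).subtype.lTensor O) := by
  have hex := Module.Flat.lTensor_exact O (LinearMap.exact_subtype_ker_map f)
  have h1 : (f.lTensor O) z = 0 := by
    rw [← LinearMap.baseChange_eq_ltensor]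
    exact hz
  exact (hex z).mp h1

theorem exists_smul_of_ker (k : ℕ) (f : L →ₗ[ℤ] A) (hker : ∀ x, f x = 0 → ∃ x', x = k • x')
    (w : O ⊗[ℤ] (LinearMap.ker f)) :
    ∃ z' : O ⊗[ℤ] L, ((LinearMap.ker f).subtype.lTensor O) w = (k : O) • z' := by
  induction w using TensorProduct.induction_on with
  | zero => exact ⟨0, by rw [map_zero, smul_zero]⟩
  | tmul o x =>
    obtain ⟨x', hx'⟩ := hker x (LinearMap.mem_ker.mp x.2)
    refine ⟨o ⊗ₜ[ℤ] x', ?_⟩
    rw [LinearMap.lTensor_tmul, Submodule.subtype_apply, hx', TensorProduct.smul_tmul',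
      smul_eq_mul, ← natCast_zsmul, ← TensorProduct.smul_tmul, zsmul_eq_mul, Int.cast_natCast]
  | add x y hx hy =>
    obtain ⟨u, hu⟩ := hx
    obtain ⟨v, hv⟩ := hy
    exact ⟨u + v, by rw [map_add, hu, hv, smul_add]⟩

/-- `O ⊗ L` is `p`-adically separated when `O` is and `L` is free -/
theorem eq_zero_of_forall_dvd [Module.Free ℤ L]
    (hHaus : ∀ o : O, (∀ n : ℕ, ∃ o', o = (p : O) ^ n * o') → o = 0)
    (z : O ⊗[ℤ] L) (hz : ∀ n : ℕ, ∃ z', z = ((p : O) ^ n) • z') : z = 0 := by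
  have hb : ∀ i, ((Module.Free.chooseBasis ℤ L).baseChange O).repr z i = 0 := by
    intro i
    apply hHaus
    intro n
    obtain ⟨z', hz'⟩ := hz n
    refine ⟨((Module.Free.chooseBasis ℤ L).baseChange O).repr z' i, ?_⟩
    rw [hz', map_smul, Finsupp.smul_apply, smul_eq_mul]
  have h2 : ((Module.Free.chooseBasis ℤ L).baseChange O).repr z = 0 := Finsupp.ext hb
  exact (LinearEquiv.map_eq_zero_iff _).mp h2

/-- **ASM-4**: the element is nonzero -/
theorem seq_ne_zero [Module.Flat ℤ O] [Module.Free ℤ L]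
    (hHaus : ∀ o : O, (∀ n : ℕ, ∃ o', o = (p : O) ^ n * o') → o = 0)
    (hΦ0 : Φ 0 = 0) (hΦp : ∀ n, p • Φ (n + 1) = Φ n)
    (hT : ∀ i n, (T i).comp (Φ n) = (Φ n).comp (TL i))
    (hker : ∀ n x, Φ n x = 0 → ∃ x', x = (p ^ n) • x')
    (y₀ : O ⊗[ℤ] L) (hy₀ : ∀ i, (TL i).baseChange O y₀ = a i • y₀) (hne : y₀ ≠ 0) :
    seq p O A T a L TL Φ hΦ0 hΦp hT y₀ hy₀ ≠ 0 := by
  intro h0
  apply hne
  apply eq_zero_of_forall_dvd p O L hHaus
  intro n
  have hn : (Φ n).baseChange O y₀ = 0 := by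
    rw [← seq_apply p O A T a L TL Φ hΦ0 hΦp hT y₀ hy₀ n, h0]
    rfl
  obtain ⟨w, hw⟩ := mem_range_of_baseChange_eq_zero O A L (Φ n) y₀ hn
  obtain ⟨z', hz'⟩ := exists_smul_of_ker O A L (p ^ n) (Φ n) (hker n) w
  refine ⟨z', ?_⟩
  rw [← hw, hz']
  push_cast
  rfl

/-- **ASM-4**: `eig` is nontrivial -/
theorem nontrivial_eig [Module.Flat ℤ O] [Module.Free ℤ L]
    (hHaus : ∀ o : O, (∀ n : ℕ, ∃ o', o = (p : O) ^ n * o') → o = 0)
    (hΦ0 : Φ 0 = 0) (hΦp : ∀ n, p • Φ (n + 1) = Φ n)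
    (hT : ∀ i n, (T i).comp (Φ n) = (Φ n).comp (TL i))
    (hker : ∀ n x, Φ n x = 0 → ∃ x', x = (p ^ n) • x')
    (y₀ : O ⊗[ℤ] L) (hy₀ : ∀ i, (TL i).baseChange O y₀ = a i • y₀) (hne : y₀ ≠ 0) :
    Nontrivial (eig p O A T a) :=
  ⟨⟨_, 0, seq_ne_zero p O A T a L TL Φ hHaus hΦ0 hΦp hT hker y₀ hy₀ hne⟩⟩

end Fermat.Agent.S30.Asm4
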