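import Mathlib

/-!
# S30 assembly, W1 input: `p`-adic separatedness of the coefficient ring

`O` a local ring which is adically complete (Hausdorff suffices) for its maximal ideal, `p` in the
maximal ideal: an element divisible by all powers of `p` is zero.  This is the hypothesis `hHaus`
of `Asm4.nontrivial_eig`.
-/

set_option autoImplicit false

namespace Fermat.Agent.S30.AsmHaus

/-- `⋂ pⁿ O = 0` for `p` in the maximal ideal of a Hausdorff local ring. -/
theorem eq_zero_of_forall_pow_dvd (O : Type*) [CommRing O] [IsLocalRing O]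
    [IsHausdorff (IsLocalRing.maximalIdeal O) O] (p : O) (hp : p ∈ IsLocalRing.maximalIdeal O)
    (o : O) (h : ∀ n : ℕ, ∃ o' : O, o = p ^ n * o') : o = 0 := by
  apply IsHausdorff.haus' (I := IsLocalRing.maximalIdeal O) o
  intro n
  rw [SModEq.zero]
  obtain ⟨o', ho'⟩ := h n
  rw [ho']
  have h1 : p ^ n ∈ (IsLocalRing.maximalIdeal O) ^ n := Ideal.pow_mem_pow hp n
  have h2 : p ^ n * o' = (p ^ n) • o' := rfl
  rw [h2]
  exact Submodule.smul_mem_smul h1 Submodule.mem_top

/-- the same for the image of a natural number, in the exact shape of `Asm4.nontrivial_eig`. -/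
theorem hHaus_nat (O : Type*) [CommRing O] [IsLocalRing O]
    [IsAdicComplete (IsLocalRing.maximalIdeal O) O] (p : ℕ)
    (hp : (p : O) ∈ IsLocalRing.maximalIdeal O) :
    ∀ o : O, (∀ n : ℕ, ∃ o', o = (p : O) ^ n * o') → o = 0 :=
  fun o h => eq_zero_of_forall_pow_dvd O (p : O) hp o h

/-- `O` of characteristic zero and without zero divisors is flat over `ℤ`. -/
theorem flat_int (O : Type*) [CommRing O] [IsDomain O] [CharZero O] : Module.Flat ℤ O :=
  inferInstance

end Fermat.Agent.S30.AsmHaus
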