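/-
S30 (item 92), block (C) (helper1): COMPATIBILITY of the dictionaries in `n`.

If the groups `J₀(N)[p^n]` are finite (block (F)), there is a family of injective Hecke-equivariant
maps `Φ_n : XP N (p^n) →+ J₀(N)[p^n]` with `Φ_n (ψ mod p^n) = p • Φ_{n+1} ψ`.
Proof: every dictionary at level `n+1` induces one at level `n` (`down`), and an inverse system of
nonempty finite sets has a compatible family (König).
-/
import Mathlib
import Fermat.Agent.S30.DictM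

set_option autoImplicit false
set_option linter.unusedSectionVars false
set_option linter.style.haveILetI false

open CongruenceSubgroup ModularCurve CategoryTheory
open Fermat.Agent.S29 Fermat.Agent.S16
open scoped MatrixGroups

noncomputable section

namespace Fermat.Agent.S30.Compat

/-- Kőnig's lemma for sequences of finite nonempty types. -/
theorem konig {X : ℕ → Type} [∀ n, Finite (X n)] [∀ n, Nonempty (X n)]
    (f : ∀ n, X (n + 1) → X n) : ∃ u : ∀ n, X n, ∀ n, f n (u (n + 1)) = u n := by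
  let F : ℕᵒᵖ ⥤ Type := CategoryTheory.Functor.ofOpSequence (C := Type) (X := X)
    (fun n => TypeCat.ofHom (f n))
  haveI : ∀ j : ℕᵒᵖ, Finite (F.obj j) := fun j => inferInstanceAs (Finite (X j.unop))
  haveI : ∀ j : ℕᵒᵖ, Nonempty (F.obj j) := fun j => inferInstanceAs (Nonempty (X j.unop))
  obtain ⟨u, hu⟩ := nonempty_sections_of_finite_inverse_system F
  refine ⟨fun n => u (Opposite.op n), fun n => ?_⟩
  have h := hu (homOfLE (Nat.le_add_right n 1)).op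
  rw [CategoryTheory.Functor.ofOpSequence_map_homOfLE_succ] at h
  exact h

variable (N : ℕ) [NeZero N] (p : ℕ) [NeZero p]

/-- reduction `ZMod (p^(n+1)) → ZMod (p^n)`. -/
def castN (n : ℕ) : ZMod (p ^ (n + 1)) →+* ZMod (p ^ n) :=
  ZMod.castHom (pow_dvd_pow p (Nat.le_succ n)) (ZMod (p ^ n))

theorem castN_eq_zero_iff (n : ℕ) (v : ZMod (p ^ (n + 1))) :
    castN p n v = 0 ↔ (p : ZMod (p ^ (n + 1))) * v = 0 := by
  have hp : 0 < p := Nat.pos_of_ne_zero (NeZero.ne p)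
  obtain ⟨k, rfl⟩ : ∃ k : ℕ, v = (k : ZMod (p ^ (n + 1))) :=
    ⟨v.val, (ZMod.natCast_zmod_val v).symm⟩
  rw [map_natCast, ZMod.natCast_eq_zero_iff, ← Nat.cast_mul, ZMod.natCast_eq_zero_iff,
    pow_succ', Nat.mul_dvd_mul_iff_left hp]

/-- reduction `XP N p^(n+1) → XP N p^n`. -/
def redXP (n : ℕ) : R2.XP N (p ^ (n + 1)) →+ R2.XP N (p ^ n) where
  toFun ψ := ⟨(castN p n).toAddMonoidHom.comp (ψ : Additive (Gamma0 N) →+ ZMod (p ^ (n + 1))),
    fun γ hγ => by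
      rw [AddMonoidHom.comp_apply, ψ.2 γ hγ, map_zero]⟩
  map_zero' := Subtype.ext (AddMonoidHom.comp_zero _)
  map_add' ψ ψ' := Subtype.ext (AddMonoidHom.comp_add _ _ _)

theorem redXP_apply (n : ℕ) (ψ : R2.XP N (p ^ (n + 1))) (x : Additive (Gamma0 N)) :
    ((redXP N p n ψ : R2.XP N (p ^ n)) : Additive (Gamma0 N) →+ ZMod (p ^ n)) x =
      castN p n ((ψ : Additive (Gamma0 N) →+ ZMod (p ^ (n + 1))) x) := rfl

theorem redXP_surjective (n : ℕ) : Function.Surjective (redXP N p n) := by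
  intro ψ
  obtain ⟨ψ', hpar, hred⟩ := exists_parabolic_lift N (p ^ n)
    (ψ : Additive (Gamma0 N) →+ ZMod (p ^ n)) ψ.2
  refine ⟨R2.redX ψ' (R2.smallTrace_of_isParabolicHom hpar), ?_⟩
  apply Subtype.ext
  refine AddMonoidHom.ext fun x => ?_
  rw [redXP_apply, R2.redX_apply, map_intCast]
  exact hred (Additive.toMul x)

theorem redXP_eq_zero_iff (n : ℕ) (ψ : R2.XP N (p ^ (n + 1))) :
    redXP N p n ψ = 0 ↔ p • ψ = 0 := by
  constructor
  · intro h
    apply Subtype.ext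
    refine AddMonoidHom.ext fun x => ?_
    have h1 := congrArg (fun φ : R2.XP N (p ^ n) =>
      (φ : Additive (Gamma0 N) →+ ZMod (p ^ n)) x) h
    have h2 : castN p n ((ψ : Additive (Gamma0 N) →+ ZMod (p ^ (n + 1))) x) = 0 := h1
    rw [castN_eq_zero_iff] at h2
    show (p • (ψ : Additive (Gamma0 N) →+ ZMod (p ^ (n + 1)))) x = 0
    rw [AddMonoidHom.smul_apply, nsmul_eq_mul]
    exact h2
  · intro h
    apply Subtype.ext
    refine AddMonoidHom.ext fun x => ?_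
    have h1 := congrArg (fun φ : R2.XP N (p ^ (n + 1)) =>
      (φ : Additive (Gamma0 N) →+ ZMod (p ^ (n + 1))) x) h
    have h2 : (p • (ψ : Additive (Gamma0 N) →+ ZMod (p ^ (n + 1)))) x = 0 := h1
    rw [AddMonoidHom.smul_apply, nsmul_eq_mul] at h2
    show castN p n ((ψ : Additive (Gamma0 N) →+ ZMod (p ^ (n + 1))) x) = 0
    rw [castN_eq_zero_iff]
    exact h2

theorem redXP_TXP (n : ℕ) (ℓ : ℕ) [Fact ℓ.Prime] (hℓN : ¬ ℓ ∣ N) (ψ : R2.XP N (p ^ (n + 1))) :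
    redXP N p n (R2.TXP N (p ^ (n + 1)) ℓ hℓN ψ) = R2.TXP N (p ^ n) ℓ hℓN (redXP N p n ψ) := by
  apply Subtype.ext
  show (castN p n).toAddMonoidHom.comp
      (heckeHomT N ℓ hℓN (ψ : Additive (Gamma0 N) →+ ZMod (p ^ (n + 1)))) =
    heckeHomT N ℓ hℓN ((castN p n).toAddMonoidHom.comp
      (ψ : Additive (Gamma0 N) →+ ZMod (p ^ (n + 1))))
  exact (heckeHomT_comp ℓ hℓN _ _).symm

/-- the dictionaries at level `p^n`. -/
def IsDict (n : ℕ) (Φ : R2.XP N (p ^ n) →+ torsP N (p ^ n)) : Prop :=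
  Function.Injective Φ ∧
    ∀ (ℓ : ℕ) [Fact ℓ.Prime] (hℓN : ¬ ℓ ∣ N), ¬ ℓ ∣ N * p →
      ∀ ψ : R2.XP N (p ^ n),
        Φ (R2.TXP N (p ^ n) ℓ hℓN ψ) = heckeTors N (p ^ n) ⟨ℓ, Fact.out⟩ (Φ ψ)

/-- `ψ ↦ p • Φ ψ`, with values in `J₀(N)[p^n]`. -/
def pMul (n : ℕ) (Φ : R2.XP N (p ^ (n + 1)) →+ torsP N (p ^ (n + 1))) :
    R2.XP N (p ^ (n + 1)) →+ torsP N (p ^ n) where
  toFun ψ := ⟨p • ((Φ ψ : torsP N (p ^ (n + 1))) : JZero N), by
    rw [mem_torsP_iff, smul_smul, ← pow_succ]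
    exact (mem_torsP_iff N (p ^ (n + 1)) _).1 (Φ ψ).2⟩
  map_zero' := by
    apply Subtype.ext
    show p • ((Φ 0 : torsP N (p ^ (n + 1))) : JZero N) = 0
    rw [map_zero, Submodule.coe_zero, smul_zero]
  map_add' ψ ψ' := by
    apply Subtype.ext
    show p • ((Φ (ψ + ψ') : torsP N (p ^ (n + 1))) : JZero N) =
      p • ((Φ ψ : torsP N (p ^ (n + 1))) : JZero N) + p • ((Φ ψ' : torsP N (p ^ (n + 1))) : JZero N)
    rw [map_add, Submodule.coe_add, nsmul_add]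

theorem coe_pMul (n : ℕ) (Φ : R2.XP N (p ^ (n + 1)) →+ torsP N (p ^ (n + 1)))
    (ψ : R2.XP N (p ^ (n + 1))) :
    ((pMul N p n Φ ψ : torsP N (p ^ n)) : JZero N) =
      p • ((Φ ψ : torsP N (p ^ (n + 1))) : JZero N) := rfl

theorem pMul_eq_zero_iff (n : ℕ) (Φ : R2.XP N (p ^ (n + 1)) →+ torsP N (p ^ (n + 1)))
    (hΦ : Function.Injective Φ) (ψ : R2.XP N (p ^ (n + 1))) :
    pMul N p n Φ ψ = 0 ↔ redXP N p n ψ = 0 := by
  constructor
  · intro h
    have h1 : p • ((Φ ψ : torsP N (p ^ (n + 1))) : JZero N) = 0 :=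
      congrArg (fun x : torsP N (p ^ n) => (x : JZero N)) h
    have h2 : Φ (p • ψ) = 0 := by
      rw [map_nsmul]
      apply Subtype.ext
      exact h1
    have h3 : p • ψ = 0 := hΦ (h2.trans (map_zero Φ).symm)
    exact (redXP_eq_zero_iff N p n ψ).2 h3
  · intro h
    have h3 := (redXP_eq_zero_iff N p n ψ).1 h
    have h2 : p • Φ ψ = 0 := by rw [← map_nsmul, h3, map_zero]
    have h1 : p • ((Φ ψ : torsP N (p ^ (n + 1))) : JZero N) = 0 :=
      congrArg (fun x : torsP N (p ^ (n + 1)) => (x : JZero N)) h2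
    apply Subtype.ext
    exact h1

theorem ker_le (n : ℕ) (Φ : R2.XP N (p ^ (n + 1)) →+ torsP N (p ^ (n + 1)))
    (hΦ : Function.Injective Φ) : (redXP N p n).ker ≤ (pMul N p n Φ).ker := by
  intro ψ hψ
  rw [AddMonoidHom.mem_ker] at hψ ⊢
  exact (pMul_eq_zero_iff N p n Φ hΦ ψ).2 hψ

/-- the dictionary at level `n` induced by a dictionary at level `n + 1`. -/
def down (n : ℕ) (Φ : R2.XP N (p ^ (n + 1)) →+ torsP N (p ^ (n + 1)))
    (hΦ : Function.Injective Φ) : R2.XP N (p ^ n) →+ torsP N (p ^ n) :=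
  (redXP N p n).liftOfRightInverse (Function.surjInv (redXP_surjective N p n))
    (Function.rightInverse_surjInv (redXP_surjective N p n))
    ⟨pMul N p n Φ, ker_le N p n Φ hΦ⟩

theorem down_redXP (n : ℕ) (Φ : R2.XP N (p ^ (n + 1)) →+ torsP N (p ^ (n + 1)))
    (hΦ : Function.Injective Φ) (ψ : R2.XP N (p ^ (n + 1))) :
    down N p n Φ hΦ (redXP N p n ψ) = pMul N p n Φ ψ :=
  AddMonoidHom.liftOfRightInverse_comp_apply _ _ _ _ ψ

theorem isDict_down (n : ℕ) (Φ : R2.XP N (p ^ (n + 1)) →+ torsP N (p ^ (n + 1)))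
    (hΦ : IsDict N p (n + 1) Φ) : IsDict N p n (down N p n Φ hΦ.1) := by
  refine ⟨?_, ?_⟩
  · rw [injective_iff_map_eq_zero]
    intro x hx
    obtain ⟨ψ, rfl⟩ := redXP_surjective N p n x
    rw [down_redXP] at hx
    exact (pMul_eq_zero_iff N p n Φ hΦ.1 ψ).1 hx
  · intro ℓ _ hℓN hℓNp x
    obtain ⟨ψ, rfl⟩ := redXP_surjective N p n x
    rw [← redXP_TXP, down_redXP, down_redXP]
    apply Subtype.ext
    have hA : ((pMul N p n Φ (R2.TXP N (p ^ (n + 1)) ℓ hℓN ψ) : torsP N (p ^ n)) : JZero N) =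
        p • heckeOperatorBar N ⟨ℓ, Fact.out⟩ ((Φ ψ : torsP N (p ^ (n + 1))) : JZero N) := by
      rw [coe_pMul, hΦ.2 ℓ hℓN hℓNp ψ, coe_heckeTors]
    have hB : ((heckeTors N (p ^ n) ⟨ℓ, Fact.out⟩ (pMul N p n Φ ψ) : torsP N (p ^ n)) : JZero N) =
        p • heckeOperatorBar N ⟨ℓ, Fact.out⟩ ((Φ ψ : torsP N (p ^ (n + 1))) : JZero N) := by
      rw [coe_heckeTors, coe_pMul]
      exact (heckeOperatorBar N ⟨ℓ, Fact.out⟩).toAddMonoidHom.map_nsmul _ _
    rw [hA, hB]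

variable [hfin : ∀ n, Finite (torsP N (p ^ n))]

/-- the set of dictionaries at level `p^n`. -/
abbrev Xn (n : ℕ) : Type := {Φ : R2.XP N (p ^ n) →+ torsP N (p ^ n) // IsDict N p n Φ}

instance finite_Xn (n : ℕ) : Finite (Xn N p n) := by
  haveI : Finite (R2.XP N (p ^ n)) := ChainT.finite_XP N (p ^ n)
  haveI : Finite (R2.XP N (p ^ n) → torsP N (p ^ n)) := Pi.finite
  haveI : Finite (R2.XP N (p ^ n) →+ torsP N (p ^ n)) :=
    Finite.of_injective (fun f => (f : R2.XP N (p ^ n) → torsP N (p ^ n))) DFunLike.coe_injective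
  exact Finite.of_injective (fun x : Xn N p n => x.1) Subtype.val_injective

theorem isDict_of_dictM (hD : DictM.DictStatementM) (n : ℕ) : Nonempty (Xn N p n) := by
  obtain ⟨Φ, hΦ, hT⟩ := hD N (p ^ n)
  refine ⟨⟨Φ, hΦ, ?_⟩⟩
  intro ℓ _ hℓN hℓNp ψ
  refine hT ℓ hℓN ?_ ψ
  intro h
  have hℓ : ℓ.Prime := Fact.out
  rcases (Nat.Prime.dvd_mul hℓ).1 h with h1 | h1
  · exact hℓN h1
  · exact hℓNp (Dvd.dvd.mul_left (hℓ.dvd_of_dvd_pow h1) N)

/-- the transition maps. -/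
def tr (n : ℕ) : Xn N p (n + 1) → Xn N p n :=
  fun Φ => ⟨down N p n Φ.1 Φ.2.1, isDict_down N p n Φ.1 Φ.2⟩

/-- **compatible dictionaries** (given the finiteness of `J₀(N)[p^n]`). -/
theorem exists_compatible (hD : DictM.DictStatementM) :
    ∃ Φ : ∀ n, R2.XP N (p ^ n) →+ torsP N (p ^ n),
      (∀ n, IsDict N p n (Φ n)) ∧
      ∀ n (ψ : R2.XP N (p ^ (n + 1))),
        ((Φ n (redXP N p n ψ) : torsP N (p ^ n)) : JZero N) =
          p • ((Φ (n + 1) ψ : torsP N (p ^ (n + 1))) : JZero N) := by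
  haveI : ∀ n, Nonempty (Xn N p n) := fun n => isDict_of_dictM N p hD n
  obtain ⟨s, hs⟩ := konig (X := fun n => Xn N p n) (fun n => tr N p n)
  refine ⟨fun n => (s n).1, fun n => (s n).2, ?_⟩
  intro n ψ
  have h2 : (s n).1 = down N p n (s (n + 1)).1 (s (n + 1)).2.1 :=
    (congrArg (fun x : Xn N p n => x.1) (hs n)).symm
  show (((s n).1 (redXP N p n ψ) : torsP N (p ^ n)) : JZero N) =
    p • (((s (n + 1)).1 ψ : torsP N (p ^ (n + 1))) : JZero N)
  rw [h2, down_redXP, coe_pMul]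

end Fermat.Agent.S30.Compat
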