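/-
S30 (item 92), block (C) → ASM-4 (helper1): the compatible dictionaries ON THE LATTICE
`L = R2.XP N 0 = Hom(Γ₀(N)/(small trace), ℤ)`.

`exists_compatible_lattice`: if `J₀(N)[p]` is finite, there are `ℤ`-linear maps
`Φ_n : L → J₀(N)` with `p^n Φ_n = 0`, `p Φ_{n+1} = Φ_n`, `ker Φ_n = p^n L`,
`Φ_n ∘ T_ℓ = T_ℓ ∘ Φ_n` for the primes `ℓ ∤ N p`.
-/
import Mathlib
import Fermat.Agent.S30.Compat

set_option autoImplicit false
set_option linter.unusedSectionVars false
set_option linter.style.haveILetI false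

open CongruenceSubgroup ModularCurve
open Fermat.Agent.S29 Fermat.Agent.S16 Fermat.Agent.S30.Compat
open scoped MatrixGroups

noncomputable section

namespace Fermat.Agent.S30.CompatL

variable (N : ℕ) [NeZero N]

/-- reduction `ZMod 0 = ℤ → ZMod m`. -/
def castZ (m : ℕ) : ZMod 0 →+* ZMod m := ZMod.castHom (dvd_zero m) (ZMod m)

theorem castZ_eq (m : ℕ) (v : ZMod 0) : castZ m v = Int.cast (R := ZMod m) (id v : ℤ) := rfl

/-- reduction `XP N 0 → XP N m`. -/
def redZ (m : ℕ) : R2.XP N 0 →+ R2.XP N m where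
  toFun b := ⟨(castZ m).toAddMonoidHom.comp (b : Additive (Gamma0 N) →+ ZMod 0),
    fun γ hγ => by
      rw [AddMonoidHom.comp_apply, b.2 γ hγ, map_zero]⟩
  map_zero' := Subtype.ext (AddMonoidHom.comp_zero _)
  map_add' b b' := Subtype.ext (AddMonoidHom.comp_add _ _ _)

theorem redZ_apply (m : ℕ) (b : R2.XP N 0) (x : Additive (Gamma0 N)) :
    ((redZ N m b : R2.XP N m) : Additive (Gamma0 N) →+ ZMod m) x =
      castZ m ((b : Additive (Gamma0 N) →+ ZMod 0) x) := rfl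

theorem redZ_TXP (m : ℕ) (ℓ : ℕ) [Fact ℓ.Prime] (hℓN : ¬ ℓ ∣ N) (b : R2.XP N 0) :
    redZ N m (R2.TXP N 0 ℓ hℓN b) = R2.TXP N m ℓ hℓN (redZ N m b) := by
  apply Subtype.ext
  show (castZ m).toAddMonoidHom.comp
      (heckeHomT N ℓ hℓN (b : Additive (Gamma0 N) →+ ZMod 0)) =
    heckeHomT N ℓ hℓN ((castZ m).toAddMonoidHom.comp (b : Additive (Gamma0 N) →+ ZMod 0))
  exact (heckeHomT_comp ℓ hℓN _ _).symm

theorem castZ_eq_zero_iff (m : ℕ) (v : ZMod 0) :
    castZ m v = 0 ↔ ∃ w : ZMod 0, v = m • w := by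
  rw [castZ_eq, ZMod.intCast_zmod_eq_zero_iff_dvd]
  constructor
  · rintro ⟨w, hw⟩
    refine ⟨(id w : ZMod 0), ?_⟩
    show (id v : ℤ) = m • (id w : ℤ)
    rw [nsmul_eq_mul]
    exact hw
  · rintro ⟨w, hw⟩
    refine ⟨(id w : ℤ), ?_⟩
    have : (id v : ℤ) = m • (id w : ℤ) := hw
    rw [this, nsmul_eq_mul]

theorem redZ_eq_zero_iff (m : ℕ) (hm : m ≠ 0) (b : R2.XP N 0) :
    redZ N m b = 0 ↔ ∃ b' : R2.XP N 0, b = m • b' := by
  constructor
  · intro h
    have hdvd : ∀ x : Additive (Gamma0 N),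
        ∃ w : ZMod 0, (b : Additive (Gamma0 N) →+ ZMod 0) x = m • w := by
      intro x
      have h1 := congrArg (fun φ : R2.XP N m =>
        (φ : Additive (Gamma0 N) →+ ZMod m) x) h
      have h2 : castZ m ((b : Additive (Gamma0 N) →+ ZMod 0) x) = 0 := h1
      exact (castZ_eq_zero_iff m _).1 h2
    choose w hw using hdvd
    have hinj : ∀ u v : ZMod 0, m • u = m • v → u = v := by
      intro u v huv
      have h1 : (m : ℤ) * (id u : ℤ) = (m : ℤ) * (id v : ℤ) := by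
        have : m • (id u : ℤ) = m • (id v : ℤ) := huv
        rwa [nsmul_eq_mul, nsmul_eq_mul] at this
      have h2 : (id u : ℤ) = (id v : ℤ) := mul_left_cancel₀ (Int.natCast_ne_zero.2 hm) h1
      exact h2
    let b0 : Additive (Gamma0 N) →+ ZMod 0 :=
      AddMonoidHom.mk' w (fun x y => by
        apply hinj
        rw [← hw, map_add, hw x, hw y]
        exact (nsmul_add _ _ _).symm)
    have hb0 : b0 ∈ R2.XP N 0 := by
      intro γ hγ
      show w (Additive.ofMul γ) = 0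
      apply hinj
      rw [← hw, b.2 γ hγ]
      exact (nsmul_zero _).symm
    refine ⟨⟨b0, hb0⟩, ?_⟩
    apply Subtype.ext
    refine AddMonoidHom.ext fun x => ?_
    exact hw x
  · rintro ⟨b', rfl⟩
    apply Subtype.ext
    refine AddMonoidHom.ext fun x => ?_
    show castZ m ((m • (b' : Additive (Gamma0 N) →+ ZMod 0)) x) = 0
    rw [castZ_eq_zero_iff]
    exact ⟨(b' : Additive (Gamma0 N) →+ ZMod 0) x, rfl⟩

variable (p : ℕ) [NeZero p]

theorem redXP_redZ (n : ℕ) (b : R2.XP N 0) :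
    redXP N p n (redZ N (p ^ (n + 1)) b) = redZ N (p ^ n) b := by
  apply Subtype.ext
  refine AddMonoidHom.ext fun x => ?_
  rw [redXP_apply, redZ_apply, redZ_apply]
  exact congrArg (fun f : ZMod 0 →+* ZMod (p ^ n) => f ((b : Additive (Gamma0 N) →+ ZMod 0) x))
    (RingHom.ext_zmod ((castN p n).comp (castZ (p ^ (n + 1)))) (castZ (p ^ n)))

/-- `J₀(N)[p^n]` is finite if `J₀(N)[p]` is. -/
theorem finite_torsP_pow (hfin : Finite (torsP N p)) (n : ℕ) : Finite (torsP N (p ^ n)) := by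
  have key : ∀ n, {x : JZero N | p ^ n • x = 0}.Finite := by
    intro n
    induction n with
    | zero =>
      refine (Set.finite_singleton (0 : JZero N)).subset ?_
      intro x hx
      simpa using hx
    | succ n ih =>
      have h1 : {x : JZero N | p ^ (n + 1) • x = 0} =
          (fun x : JZero N => p • x) ⁻¹' {x : JZero N | p ^ n • x = 0} := by
        ext x
        show p ^ (n + 1) • x = 0 ↔ p ^ n • (p • x) = 0
        rw [← mul_nsmul', ← pow_succ]
      rw [h1]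
      refine Set.Finite.preimage' ih ?_
      intro y _
      by_cases hy : ∃ x₀ : JZero N, p • x₀ = y
      · obtain ⟨x₀, hx₀⟩ := hy
        have h1fin : {x : JZero N | p • x = 0}.Finite := by
          have : {x : JZero N | p • x = 0} = Set.range (fun x : torsP N p => (x : JZero N)) := by
            ext x
            constructor
            · intro hx
              exact ⟨⟨x, (mem_torsP_iff N p x).2 hx⟩, rfl⟩
            · rintro ⟨x, rfl⟩
              exact (mem_torsP_iff N p _).1 x.2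
          rw [this]
          exact Set.finite_range _
        refine (h1fin.image (fun d => x₀ + d)).subset ?_
        intro x hx
        refine ⟨x - x₀, ?_, add_sub_cancel x₀ x⟩
        show p • (x - x₀) = 0
        have hx' : p • x = y := hx
        rw [nsmul_sub, hx', hx₀, sub_self]
      · refine Set.finite_empty.subset ?_
        intro x hx
        exact (hy ⟨x, hx⟩).elim
  have h2 : Function.Injective (fun x : torsP N (p ^ n) => (⟨(x : JZero N),
      (mem_torsP_iff N (p ^ n) _).1 x.2⟩ : {x : JZero N | p ^ n • x = 0})) := by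
    intro x y h
    exact Subtype.ext (congrArg Subtype.val h)
  haveI := (key n).to_subtype
  exact Finite.of_injective _ h2

/-- **compatible dictionaries on the lattice** `L = XP N 0`. -/
theorem exists_compatible_lattice (hD : DictM.DictStatementM) (hfin : Finite (torsP N p)) :
    ∃ Φ : ℕ → (R2.XP N 0 →ₗ[ℤ] JZero N),
      (∀ n b, p ^ n • Φ n b = 0) ∧
      (∀ n b, p • Φ (n + 1) b = Φ n b) ∧
      (∀ n b, Φ n b = 0 ↔ ∃ b' : R2.XP N 0, b = p ^ n • b') ∧
      ∀ n (ℓ : ℕ) [Fact ℓ.Prime] (hℓN : ¬ ℓ ∣ N), ¬ ℓ ∣ N * p → ∀ b : R2.XP N 0,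
        Φ n (R2.TXP N 0 ℓ hℓN b) = heckeOperatorBar N ⟨ℓ, Fact.out⟩ (Φ n b) := by
  haveI : ∀ n, Finite (torsP N (p ^ n)) := fun n => finite_torsP_pow N p hfin n
  obtain ⟨Φc, hdict, hcompat⟩ := exists_compatible N p hD
  let Φ : ℕ → (R2.XP N 0 →ₗ[ℤ] JZero N) := fun n =>
    (((torsP N (p ^ n)).subtype.toAddMonoidHom.comp (Φc n)).comp
      (redZ N (p ^ n))).toIntLinearMap
  have hΦ : ∀ n b, Φ n b = ((Φc n (redZ N (p ^ n) b) : torsP N (p ^ n)) : JZero N) :=
    fun n b => rfl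
  refine ⟨Φ, ?_, ?_, ?_, ?_⟩
  · intro n b
    rw [hΦ]
    exact (mem_torsP_iff N (p ^ n) _).1 (Φc n (redZ N (p ^ n) b)).2
  · intro n b
    rw [hΦ, hΦ, ← hcompat n, redXP_redZ]
  · intro n b
    rw [hΦ, ← redZ_eq_zero_iff N (p ^ n) (NeZero.ne _)]
    constructor
    · intro h
      have h0 : Φc n (redZ N (p ^ n) b) = 0 := Subtype.ext h
      exact (injective_iff_map_eq_zero (Φc n)).1 (hdict n).1 _ h0
    · intro h
      rw [h, map_zero]
      rfl
  · intro n ℓ _ hℓN hℓNp b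
    rw [hΦ, hΦ, redZ_TXP, (hdict n).2 ℓ hℓN hℓNp, coe_heckeTors]


/-- **the input of ASM-4** in the shape of `Asm4.nontrivial_eig`: `Φ 0 = 0`, `p • Φ (n+1) = Φ n`,
`T_ℓ ∘ Φ n = Φ n ∘ T_ℓ` (as linear maps, `ℓ ∉ S`, `p ∈ S`), `ker Φ n ⊆ p^n L`. -/
theorem exists_asm4_input (hp : p.Prime) (S : Finset ℕ) (hpS : p ∈ S)
    (hD : DictM.DictStatementM) (hfin : Finite (torsP N p)) :
    ∃ Φ : ℕ → (R2.XP N 0 →ₗ[ℤ] JZero N),
      Φ 0 = 0 ∧
      (∀ n, p • Φ (n + 1) = Φ n) ∧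
      (∀ (ℓ : ℕ) (hℓ : ℓ.Prime) (hℓN : ¬ ℓ ∣ N), ℓ ∉ (↑S : Set ℕ) → ∀ n,
        (heckeOperatorBar N ⟨ℓ, hℓ⟩).comp (Φ n) =
          (Φ n).comp (haveI : Fact ℓ.Prime := ⟨hℓ⟩; R2.TXP N 0 ℓ hℓN)) ∧
      (∀ n x, Φ n x = 0 → ∃ x' : R2.XP N 0, x = p ^ n • x') := by
  obtain ⟨Φ, h1, h2, h3, h4⟩ := exists_compatible_lattice N p hD hfin
  refine ⟨Φ, ?_, ?_, ?_, ?_⟩
  · refine LinearMap.ext fun b => ?_
    have := h1 0 b
    rw [pow_zero, one_smul] at this
    rw [this]
    rfl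
  · intro n
    refine LinearMap.ext fun b => ?_
    rw [LinearMap.smul_apply]
    exact h2 n b
  · intro ℓ hℓ hℓN hℓS n
    haveI : Fact ℓ.Prime := ⟨hℓ⟩
    have hℓNp : ¬ ℓ ∣ N * p := by
      intro h
      rcases (Nat.Prime.dvd_mul hℓ).1 h with h' | h'
      · exact hℓN h'
      · have hp1 : ℓ = p := (Nat.prime_dvd_prime_iff_eq hℓ hp).1 h'
        exact hℓS (by rw [hp1]; exact hpS)
    refine LinearMap.ext fun b => ?_
    rw [LinearMap.comp_apply, LinearMap.comp_apply]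
    exact (h4 n ℓ hℓN hℓNp b).symm
  · intro n x hx
    exact (h3 n x).1 hx

end Fermat.Agent.S30.CompatL
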