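/-
S30 (item 92), block (E2) (helper8), Mathlib only.

A character `χ : R → K` (`K` a field of characteristic `0`) of a commutative ring `R` acting
faithfully on `ℤ^r` by integer matrices occurs in `K^r`.
-/
import Mathlib

set_option autoImplicit false

open scoped TensorProduct

namespace Fermat.Agent.S30.EigenAbs

/-- In a finite-dimensional commutative algebra `B` over a field `K`, for every `K`-algebra
homomorphism `χ : B → K` there is a nonzero element killed by `ker χ`. -/
theorem exists_ne_zero_ker_mul_eq_zero {K B : Type*} [Field K] [CommRing B] [Algebra K B]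
    [Module.Finite K B] (χ : B →ₐ[K] K) :
    ∃ b₀ : B, b₀ ≠ 0 ∧ ∀ m : B, χ m = 0 → m * b₀ = 0 := by
  classical
  have : IsArtinianRing B := IsArtinianRing.of_finite K B
  set 𝔪 : Ideal B := RingHom.ker (χ : B →+* K) with h𝔪
  have hmem : ∀ m : B, m ∈ 𝔪 ↔ χ m = 0 := fun m => RingHom.mem_ker
  -- the chain of powers stabilizes
  obtain ⟨n, hn⟩ : ∃ n : ℕ, 𝔪 ^ n = 𝔪 ^ (n + 1) := by
    obtain ⟨n, hn⟩ := IsArtinian.monotone_stabilizes (R := B) (M := B)
      ⟨fun n => OrderDual.toDual (𝔪 ^ n), fun a b hab => Ideal.pow_le_pow_right hab⟩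
    exact ⟨n, congrArg OrderDual.ofDual (hn (n + 1) (Nat.le_succ n))⟩
  -- Nakayama
  obtain ⟨e, he1, he⟩ := Submodule.exists_sub_one_mem_and_smul_eq_zero_of_fg_of_le_smul 𝔪
    (𝔪 ^ n) (IsNoetherian.noetherian _) (by
      have : 𝔪 • (𝔪 ^ n) = 𝔪 ^ (n + 1) := by rw [smul_eq_mul, pow_succ']
      rw [this, ← hn])
  have hχe : χ e = 1 := by
    have h1 : χ (e - 1) = 0 := (hmem _).1 he1
    rw [map_sub, map_one, sub_eq_zero] at h1
    exact h1
  -- the least `j` with `e * 𝔪^j = 0`
  have hex : ∃ j : ℕ, ∀ x ∈ 𝔪 ^ j, e * x = 0 := ⟨n, fun x hx => he x hx⟩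
  set j := Nat.find hex with hj
  have hjspec : ∀ x ∈ 𝔪 ^ j, e * x = 0 := Nat.find_spec hex
  have hj0 : j ≠ 0 := by
    intro h0
    have h1 : e * 1 = 0 := hjspec 1 (by rw [h0, pow_zero, Ideal.one_eq_top]; exact Submodule.mem_top)
    rw [mul_one] at h1
    rw [h1, map_zero] at hχe
    exact zero_ne_one hχe
  obtain ⟨j', hj'⟩ := Nat.exists_eq_succ_of_ne_zero hj0
  have hmin : ¬ ∀ x ∈ 𝔪 ^ j', e * x = 0 := Nat.find_min hex (by rw [← hj, hj']; exact Nat.lt_succ_self j')
  push Not at hmin
  obtain ⟨x, hx, hex0⟩ := hmin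
  refine ⟨e * x, hex0, fun m hm => ?_⟩
  have h1 : m * x ∈ 𝔪 ^ j := by
    rw [hj', Nat.succ_eq_add_one, pow_succ']
    exact Ideal.mul_mem_mul ((hmem m).2 hm) hx
  have h2 := hjspec _ h1
  rw [← h2]
  ring

/-- linear independence over `ℤ` of integer vectors persists over a field of characteristic `0` -/
theorem linearIndependent_intCast {ι J : Type*} [Fintype ι] (K : Type*) [Field K] [CharZero K]
    {w : J → ι → ℤ} (hw : LinearIndependent ℤ w) :
    LinearIndependent K (fun j => fun i => ((w j i : ℤ) : K)) := by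
  classical
  have h1 : LinearIndependent K (fun j => (1 : K) ⊗ₜ[ℤ] w j) :=
    Module.Flat.linearIndependent_one_tmul (S := K) hw
  have h2 := h1.map' (TensorProduct.piScalarRight ℤ K K ι).toLinearMap
    (LinearEquiv.ker _)
  have e : (fun j => fun i => ((w j i : ℤ) : K)) =
      (⇑(TensorProduct.piScalarRight ℤ K K ι).toLinearMap ∘ fun j => (1 : K) ⊗ₜ[ℤ] w j) := by
    funext j i
    simp [TensorProduct.piScalarRight_apply, TensorProduct.piScalarRightHom_tmul]
  rw [e]
  exact h2

section Main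

variable {R : Type*} [CommRing R] [Module.Finite ℤ R] [IsAddTorsionFree R]
  {K : Type*} [Field K] [CharZero K] {n : Type*} [Fintype n] [DecidableEq n]

/-- **(E2)**: a character of a commutative ring acting faithfully on `ℤ^n` occurs in `K^n`. -/
theorem exists_eigenvector (ρ : R →+* Matrix n n ℤ) (hρ : Function.Injective ρ) (χ : R →+* K) :
    ∃ v : n → K, v ≠ 0 ∧ ∀ t : R,
      ((ρ t).map (Int.cast : ℤ → K)).mulVec v = χ t • v := by
  classical
  -- the algebra `B = K ⊗ R`
  let φ : R →ₐ[ℤ] Matrix n n K := ((Int.castRingHom K).mapMatrix.comp ρ).toIntAlgHom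
  have hφ : ∀ t, φ t = (ρ t).map (Int.cast : ℤ → K) := fun t => rfl
  let Ψ : K ⊗[ℤ] R →ₐ[K] Matrix n n K :=
    Algebra.TensorProduct.lift (Algebra.ofId K (Matrix n n K)) φ
      (fun a t => by
        have : Algebra.ofId K (Matrix n n K) a = algebraMap K (Matrix n n K) a := rfl
        rw [this]
        exact Algebra.commutes a (φ t))
  let χB : K ⊗[ℤ] R →ₐ[K] K :=
    Algebra.TensorProduct.lift (AlgHom.id K K) χ.toIntAlgHom (fun _ _ => Commute.all _ _)
  have hΨt : ∀ t : R, Ψ ((1 : K) ⊗ₜ[ℤ] t) = φ t := by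
    intro t
    simp [Ψ]
  have hχt : ∀ t : R, χB ((1 : K) ⊗ₜ[ℤ] t) = χ t := by
    intro t
    simp [χB]
  -- injectivity of `Ψ`
  have : Module.Free ℤ R := Module.free_of_finite_type_torsion_free'
  let e := Module.Free.chooseBasis ℤ R
  have hli : LinearIndependent ℤ (fun j => fun x : n × n => ρ (e j) x.1 x.2) := by
    have h0 : LinearIndependent ℤ (fun j => e j) := e.linearIndependent
    let F : R →ₗ[ℤ] (n × n → ℤ) :=
      { toFun := fun t x => ρ t x.1 x.2
        map_add' := fun s t => by funext x; simp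
        map_smul' := fun c t => by
          funext x
          show ρ (c • t) x.1 x.2 = c • (ρ t x.1 x.2)
          rw [map_zsmul]
          rfl }
    have hF : LinearMap.ker F = ⊥ := by
      rw [LinearMap.ker_eq_bot']
      intro t ht
      apply hρ
      rw [map_zero]
      ext i j
      exact congrFun ht (i, j)
    exact h0.map' F hF
  have hliK := linearIndependent_intCast K hli
  have hΨinj : Function.Injective Ψ := by
    rw [injective_iff_map_eq_zero]
    intro z hz
    let eK := Algebra.TensorProduct.basis K e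
    have hz1 : z = ∑ j, eK.repr z j • eK j := (eK.sum_repr z).symm
    have hΨe : ∀ j, Ψ (eK j) = φ (e j) := by
      intro j
      rw [Algebra.TensorProduct.basis_apply, hΨt]
    have hz2 : ∑ j, eK.repr z j • (fun x : n × n => ((ρ (e j) x.1 x.2 : ℤ) : K)) = 0 := by
      have h3 := congrArg Ψ hz1
      rw [hz, map_sum] at h3
      funext x
      have h4 : (∑ j, Ψ (eK.repr z j • eK j)) x.1 x.2 = 0 := by
        rw [← h3]
        rfl
      rw [Matrix.sum_apply] at h4
      rw [Finset.sum_apply, Pi.zero_apply, ← h4]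
      refine Finset.sum_congr rfl fun j _ => ?_
      rw [map_smul, hΨe, hφ]
      rfl
    have h5 := (Fintype.linearIndependent_iff.1 hliK) (fun j => eK.repr z j) hz2
    rw [hz1]
    exact Finset.sum_eq_zero fun j _ => by rw [h5 j, zero_smul]
  -- the socle element
  obtain ⟨b₀, hb₀, hker⟩ := exists_ne_zero_ker_mul_eq_zero χB
  have hΨb : Ψ b₀ ≠ 0 := fun h => hb₀ (hΨinj (h.trans (map_zero Ψ).symm))
  obtain ⟨u, hu⟩ : ∃ u : n → K, (Ψ b₀).mulVec u ≠ 0 := by
    by_contra hcon
    push Not at hcon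
    apply hΨb
    ext i j
    have := congrFun (hcon (Pi.single j 1)) i
    simpa using this
  refine ⟨(Ψ b₀).mulVec u, hu, fun t => ?_⟩
  have h1 : χB ((1 : K) ⊗ₜ[ℤ] t - algebraMap K _ (χ t)) = 0 := by
    rw [map_sub, hχt, AlgHom.commutes]
    simp
  have h2 := hker _ h1
  have h3 : (1 : K) ⊗ₜ[ℤ] t * b₀ = algebraMap K _ (χ t) * b₀ := by
    rw [sub_mul, sub_eq_zero] at h2
    exact h2
  have h4 := congrArg Ψ h3
  rw [map_mul, map_mul, hΨt, hφ, AlgHom.commutes] at h4
  rw [Matrix.mulVec_mulVec, h4, ← Matrix.mulVec_mulVec]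
  rw [Matrix.algebraMap_eq_diagonal]
  funext i
  simp [Matrix.mulVec_diagonal]

end Main


end Fermat.Agent.S30.EigenAbs
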