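/-
S30 (item 92), block (E2), integral form (helper8), Mathlib only.

`exists_eigenvector_int` : the eigenvector of `EigenAbs.exists_eigenvector` with coordinates in a
domain `O` of characteristic `0` (clear denominators in `Frac O`);
`exists_eigenvector_transpose(_int)` : the same for the transposed matrices;
`eigenSub`, `nontrivial_eigenSub` : the eigen-submodule of `O^n` is nontrivial.
-/
import Mathlib
import Fermat.Agent.S30.EigenAbs

set_option autoImplicit false
set_option linter.unusedSectionVars false
set_option linter.unusedVariables false
set_option linter.style.haveILetI false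

namespace Fermat.Agent.S30.EigenAbs

section

variable {R : Type*} [CommRing R] [Module.Finite ℤ R] [IsAddTorsionFree R]
  {n : Type*} [Fintype n] [DecidableEq n]

/-- the transposed representation (a ring homomorphism because `R` is commutative) -/
def transposeHom (ρ : R →+* Matrix n n ℤ) : R →+* Matrix n n ℤ where
  toFun t := (ρ t).transpose
  map_one' := by rw [map_one, Matrix.transpose_one]
  map_mul' s t := by rw [mul_comm s t, map_mul, Matrix.transpose_mul]
  map_zero' := by rw [map_zero, Matrix.transpose_zero]
  map_add' s t := by rw [map_add, Matrix.transpose_add]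

theorem transposeHom_apply (ρ : R →+* Matrix n n ℤ) (t : R) :
    transposeHom ρ t = (ρ t).transpose := rfl

theorem transposeHom_injective {ρ : R →+* Matrix n n ℤ} (hρ : Function.Injective ρ) :
    Function.Injective (transposeHom ρ) := fun s t h =>
  hρ (Matrix.transpose_injective h)

/-- **(E2), integral form.** -/
theorem exists_eigenvector_int {O : Type*} [CommRing O] [IsDomain O] [CharZero O]
    (ρ : R →+* Matrix n n ℤ) (hρ : Function.Injective ρ) (χ : R →+* O) :
    ∃ v : n → O, v ≠ 0 ∧ ∀ t : R,
      ((ρ t).map (Int.cast : ℤ → O)).mulVec v = χ t • v := by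
  classical
  let K := FractionRing O
  have hinj : Function.Injective (algebraMap O K) := IsFractionRing.injective O K
  haveI : CharZero K := charZero_of_injective_algebraMap hinj
  obtain ⟨vK, hvK, hev⟩ := exists_eigenvector (K := K) ρ hρ ((algebraMap O K).comp χ)
  obtain ⟨b, hb⟩ := IsLocalization.exist_integer_multiples (nonZeroDivisors O)
    (Finset.univ : Finset n) vK
  choose v hv using fun i => hb i (Finset.mem_univ i)
  have hb0 : algebraMap O K (b : O) ≠ 0 := by
    intro h
    exact nonZeroDivisors.coe_ne_zero b (hinj (h.trans (map_zero _).symm))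
  have hv' : ∀ i, algebraMap O K (v i) = algebraMap O K (b : O) * vK i := by
    intro i
    rw [hv i, Algebra.smul_def]
  refine ⟨v, ?_, fun t => ?_⟩
  · intro h0
    apply hvK
    funext i
    have h1 := hv' i
    rw [h0, Pi.zero_apply, map_zero] at h1
    rcases mul_eq_zero.1 h1.symm with h2 | h2
    · exact absurd h2 hb0
    · exact h2
  · funext i
    apply hinj
    have h1 := congrFun (hev t) i
    simp only [Matrix.mulVec, dotProduct, Matrix.map_apply, Pi.smul_apply, smul_eq_mul,
      RingHom.comp_apply] at h1 ⊢
    rw [map_sum, map_mul, hv' i]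
    have h2 : ∀ j, algebraMap O K (((ρ t i j : ℤ) : O) * v j) =
        algebraMap O K (b : O) * (((ρ t i j : ℤ) : K) * vK j) := by
      intro j
      rw [map_mul, hv' j, map_intCast]
      ring
    simp only [h2]
    rw [← Finset.mul_sum, h1]
    ring

/-- **(E2) for the transposed matrices.** -/
theorem exists_eigenvector_transpose_int {O : Type*} [CommRing O] [IsDomain O] [CharZero O]
    (ρ : R →+* Matrix n n ℤ) (hρ : Function.Injective ρ) (χ : R →+* O) :
    ∃ v : n → O, v ≠ 0 ∧ ∀ t : R,
      ((ρ t).transpose.map (Int.cast : ℤ → O)).mulVec v = χ t • v :=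
  exists_eigenvector_int (transposeHom ρ) (transposeHom_injective hρ) χ

end

end Fermat.Agent.S30.EigenAbs
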