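/-
S30 (item 92), block (E) wiring (helper8): from (E1) (the Hecke algebra acts faithfully on the
lattice `Hom(Γ₀(N)/small, ℤ)` by the integer matrices of the `heckeHomT`) and (E2)
(`EigenAbs.exists_eigenvector_int`) to the eigenvector with eigenvalues `χ (T_ℓ)` in `O^r`.
-/
import Mathlib
import Fermat.Agent.S30.EigenInt
import Fermat.Agent.S29.R2Period
import Fermat.Agent.S22

set_option autoImplicit false
set_option linter.unusedSectionVars false
set_option linter.style.haveILetI false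

open CongruenceSubgroup ModularCurve ModularCurve.Period
open scoped MatrixGroups

noncomputable section

namespace Fermat.Agent.S30.EigenWire

open Fermat.Agent.S16

/-- **(E1)**, the shape consumed by the wiring: a dual family `(γ, b)` of `Γ₀(N)` modulo the
elements of small trace and an injective ring homomorphism from the Hecke algebra away from `S`
to the integer matrices, sending `T_ℓ` to the matrix of `heckeHomT` in the basis `b`. -/
def E1Statement (N : ℕ) [NeZero N] (S : Finset ℕ) : Prop :=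
  ∃ (r : ℕ) (γ : Fin r → Gamma0 N) (b : Fin r → (Additive (Gamma0 N) →+ ℤ)),
    (∀ j, ∀ δ ∈ smallTrace N, b j (Additive.ofMul δ) = 0) ∧
    (∀ i j, b j (Additive.ofMul (γ i)) = if i = j then 1 else 0) ∧
    (∀ (A : Type) [AddCommGroup A] [IsAddTorsionFree A] (ψ : Additive (Gamma0 N) →+ A),
        (∀ δ ∈ smallTrace N, ψ (Additive.ofMul δ) = 0) →
          ∀ x, ψ x = ∑ j, b j x • ψ (Additive.ofMul (γ j))) ∧
    ∃ ρ : CuspForm.heckeAlgebra N 2 (↑S : Set ℕ) →+* Matrix (Fin r) (Fin r) ℤ,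
      Function.Injective ρ ∧
      ∀ (ℓ : ℕ) [Fact ℓ.Prime] (hℓ : ℓ.Prime) (hℓN : ¬ ℓ ∣ N) (hℓS : ℓ ∉ (↑S : Set ℕ))
        (n m : Fin r),
        ρ (CuspForm.heckeAlgebra.T hℓ hℓN hℓS) n m =
          heckeHomT N ℓ hℓN (b m) (Additive.ofMul (γ n))

/-- **(E)**: the eigensystem `χ` occurs in `O^r` (coordinates of `Hom(Γ₀(N)/small, O)`). -/
theorem eigen_occurs (N : ℕ) [NeZero N] (S : Finset ℕ) (h1 : E1Statement N S)
    (O : Type) [CommRing O] [IsDomain O] [CharZero O]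
    (χ : CuspForm.heckeAlgebra N 2 (↑S : Set ℕ) →+* O) :
    ∃ (r : ℕ) (γ : Fin r → Gamma0 N) (b : Fin r → (Additive (Gamma0 N) →+ ℤ)),
      (∀ j, ∀ δ ∈ smallTrace N, b j (Additive.ofMul δ) = 0) ∧
      (∀ i j, b j (Additive.ofMul (γ i)) = if i = j then 1 else 0) ∧
      (∀ (A : Type) [AddCommGroup A] [IsAddTorsionFree A] (ψ : Additive (Gamma0 N) →+ A),
          (∀ δ ∈ smallTrace N, ψ (Additive.ofMul δ) = 0) →
            ∀ x, ψ x = ∑ j, b j x • ψ (Additive.ofMul (γ j))) ∧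
      ∃ v : Fin r → O, v ≠ 0 ∧
        ∀ (ℓ : ℕ) [Fact ℓ.Prime] (hℓ : ℓ.Prime) (hℓN : ¬ ℓ ∣ N) (hℓS : ℓ ∉ (↑S : Set ℕ))
          (n : Fin r),
          ∑ m, ((heckeHomT N ℓ hℓN (b m) (Additive.ofMul (γ n)) : ℤ) : O) * v m =
            χ (CuspForm.heckeAlgebra.T hℓ hℓN hℓS) * v n := by
  obtain ⟨r, γ, b, hbad, hdual, hexp, ρ, hρ, hT⟩ := h1
  haveI : Module.Finite ℤ (CuspForm.heckeAlgebra N 2 (↑S : Set ℕ)) :=
    Fermat.Agent.S22.result N 2 _
  obtain ⟨v, hv, hev⟩ := EigenAbs.exists_eigenvector_int ρ hρ χ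
  refine ⟨r, γ, b, hbad, hdual, hexp, v, hv, ?_⟩
  intro ℓ _ hℓ hℓN hℓS n
  have h2 := congrFun (hev (CuspForm.heckeAlgebra.T hℓ hℓN hℓS)) n
  simp only [Matrix.mulVec, dotProduct, Matrix.map_apply, Pi.smul_apply, smul_eq_mul] at h2
  rw [← h2]
  refine Finset.sum_congr rfl fun m _ => ?_
  rw [hT ℓ hℓ hℓN hℓS n m]

end Fermat.Agent.S30.EigenWire
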