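/-
S30 (item 92), block (E) in the ASM-4 shape (helper8): the eigensystem `χ` occurs in
`O ⊗[ℤ] L`, `L := R2.XP N 0 = Hom(Γ₀(N)/small, ℤ)` (`ZMod 0 = ℤ`), with the Hecke operators
`R2.TXP N 0 ℓ hℓN`.
-/
import Mathlib
import Fermat.Agent.S30.EigenWire
import Fermat.Agent.S29.R2

set_option autoImplicit false
set_option linter.unusedSectionVars false
set_option linter.unusedVariables false
set_option linter.style.haveILetI false

open CongruenceSubgroup ModularCurve ModularCurve.Period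
open scoped MatrixGroups TensorProduct

noncomputable section

namespace Fermat.Agent.S30.EigenWire

open Fermat.Agent.S16 Fermat.Agent.S29

variable {N : ℕ} [NeZero N]

/-- evaluation at `γ` on the lattice `L = XP N 0` -/
def evL (γ : Gamma0 N) : R2.XP N 0 →ₗ[ℤ] ℤ where
  toFun ψ := (ψ : Additive (Gamma0 N) →+ ZMod 0) (Additive.ofMul γ)
  map_add' ψ ψ' := rfl
  map_smul' c ψ := rfl

theorem evL_redX (γ : Gamma0 N) (b : Additive (Gamma0 N) →+ ℤ)
    (hb : ∀ δ ∈ smallTrace N, b (Additive.ofMul δ) = 0) :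
    evL γ (R2.redX (p := 0) b hb) = b (Additive.ofMul γ) := by
  show ((b (Additive.ofMul γ) : ℤ) : ZMod 0) = b (Additive.ofMul γ)
  exact Int.cast_id

/-- **(E), ASM-4 shape**: a nonzero eigenvector in `O ⊗ L`. -/
theorem eigen_occurs_XZ (S : Finset ℕ) (h1 : E1Statement N S)
    (O : Type) [CommRing O] [IsDomain O] [CharZero O]
    (χ : CuspForm.heckeAlgebra N 2 (↑S : Set ℕ) →+* O) :
    ∃ y₀ : O ⊗[ℤ] R2.XP N 0, y₀ ≠ 0 ∧
      ∀ (ℓ : ℕ) [Fact ℓ.Prime] (hℓ : ℓ.Prime) (hℓN : ¬ ℓ ∣ N) (hℓS : ℓ ∉ (↑S : Set ℕ)),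
        (R2.TXP N 0 ℓ hℓN).baseChange O y₀ = χ (CuspForm.heckeAlgebra.T hℓ hℓN hℓS) • y₀ := by
  classical
  obtain ⟨r, γ, b, hbad, hdual, hexp, v, hv, hev⟩ := eigen_occurs N S h1 O χ
  refine ⟨∑ j, v j ⊗ₜ[ℤ] R2.redX (p := 0) (b j) (hbad j), ?_, ?_⟩
  · intro h0
    apply hv
    funext n
    have h2 := congrArg (fun y => TensorProduct.rid ℤ O ((evL (γ n)).baseChange O y)) h0
    simp only [map_sum, LinearMap.baseChange_tmul, map_zero, TensorProduct.rid_tmul,
      evL_redX, hdual] at h2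
    rw [Finset.sum_eq_single n] at h2
    · simpa using h2
    · intro j _ hjn
      rw [if_neg (Ne.symm hjn)]
      simp
    · intro h
      exact absurd (Finset.mem_univ n) h
  · intro ℓ _ hℓ hℓN hℓS
    have hT : ∀ j, R2.TXP N 0 ℓ hℓN (R2.redX (b j) (hbad j)) =
        ∑ n, heckeHomT N ℓ hℓN (b j) (Additive.ofMul (γ n)) • R2.redX (p := 0) (b n) (hbad n) := by
      intro j
      apply Subtype.ext
      apply AddMonoidHom.ext
      intro x
      rw [R2.coe_TXP]
      have h1 : ((R2.redX (b j) (hbad j) : R2.XP N 0) : Additive (Gamma0 N) →+ ZMod 0) =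
          (Int.castAddHom (ZMod 0)).comp (b j) := rfl
      rw [h1, heckeHomT_comp, AddMonoidHom.comp_apply,
        hexp ℤ (heckeHomT N ℓ hℓN (b j)) (R2.heckeHomT_smallTrace ℓ hℓN (hbad j)) x]
      rw [Submodule.coe_sum, AddMonoidHom.finsetSum_apply, map_sum]
      refine Finset.sum_congr rfl fun n _ => ?_
      rw [Submodule.coe_smul, AddMonoidHom.smul_apply, R2.redX_apply]
      simp only [Int.coe_castAddHom, smul_eq_mul, zsmul_eq_mul, Int.cast_mul]
      ring
    rw [map_sum]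
    simp only [LinearMap.baseChange_tmul, hT, TensorProduct.tmul_sum, TensorProduct.tmul_smul]
    rw [Finset.sum_comm, Finset.smul_sum]
    refine Finset.sum_congr rfl fun n _ => ?_
    rw [TensorProduct.smul_tmul', smul_eq_mul, ← hev ℓ hℓ hℓN hℓS n, TensorProduct.sum_tmul]
    refine Finset.sum_congr rfl fun j _ => ?_
    rw [TensorProduct.smul_tmul', zsmul_eq_mul]

end Fermat.Agent.S30.EigenWire
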