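/-
S30 (item 92), block (E1) (helper8): the Hecke algebra away from `S` (all primes of `N` in `S`)
acts faithfully on the lattice `Hom(Γ₀(N)/small, ℤ)` by the integer matrices of the `heckeHomT`:
an injective ring homomorphism `heckeAlgebra N 2 S →+* Matrix (Fin r) (Fin r) ℤ`.

Route: for `t ∈ End(S₂)` say that the integer matrix `Z` is a matrix of `t` if
`P (t g, t h) (γ_n) = ∑_m Z n m * P (g, h) (γ_m)` (`P = periodHomPair`, Eichler–Shimura).
A matrix is unique (`P` is onto the parabolic homomorphisms), exists for the generators `T_ℓ`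
(`periodHomPair_heckeT`), for integers, sums and products; `t = 0` if its matrix is `0`
(`P` is injective).
-/
import Mathlib
import Fermat.Agent.S30.EigenWire
import Fermat.Agent.S29.R2Period
import Fermat.Agent.S29.R2
import Fermat.Agent.S16.HeckePeriodPair

set_option autoImplicit false
set_option linter.unusedSectionVars false
set_option linter.unusedVariables false
set_option linter.style.haveILetI false

open CongruenceSubgroup ModularCurve ModularCurve.Period
open scoped MatrixGroups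

noncomputable section

namespace Fermat.Agent.S30.HeckeMat

open Fermat.Agent.S16 Fermat.Agent.S29

variable {N : ℕ} [NeZero N]

/-- `t × t` on pairs -/
def pairEnd (t : Module.End ℂ (CuspForm (Gamma0 N) 2))
    (w : CuspForm (Gamma0 N) 2 × CuspForm (Gamma0 N) 2) :
    CuspForm (Gamma0 N) 2 × CuspForm (Gamma0 N) 2 := (t w.1, t w.2)

section Mat

variable {r : ℕ} (γ : Fin r → Gamma0 N) (b : Fin r → (Additive (Gamma0 N) →+ ℤ))

/-- `Z` is a matrix of `t` -/
def HasMat (t : Module.End ℂ (CuspForm (Gamma0 N) 2)) (Z : Matrix (Fin r) (Fin r) ℤ) : Prop :=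
  ∀ (w : CuspForm (Gamma0 N) 2 × CuspForm (Gamma0 N) 2) (n : Fin r),
    periodHomPair N (pairEnd t w) (Additive.ofMul (γ n)) =
      ∑ m, ((Z n m : ℤ) : ℂ) * periodHomPair N w (Additive.ofMul (γ m))

variable {γ b}
variable (hbad : ∀ j, ∀ δ ∈ smallTrace N, b j (Additive.ofMul δ) = 0)
  (hdual : ∀ i j, b j (Additive.ofMul (γ i)) = if i = j then 1 else 0)
  (hexp : ∀ (A : Type) [AddCommGroup A] [IsAddTorsionFree A] (ψ : Additive (Gamma0 N) →+ A),
    (∀ δ ∈ smallTrace N, ψ (Additive.ofMul δ) = 0) →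
      ∀ x, ψ x = ∑ j, b j x • ψ (Additive.ofMul (γ j)))

include hbad in
/-- the complexified basis element is a period class -/
theorem exists_pair (m : Fin r) :
    ∃ w : CuspForm (Gamma0 N) 2 × CuspForm (Gamma0 N) 2,
      ∀ x, periodHomPair N w x = ((b m x : ℤ) : ℂ) := by
  have h1 : (Int.castAddHom ℂ).comp (b m) ∈ parabolicHoms ℂ (Gamma0 N) ℂ := by
    intro δ hδ
    show ((b m (Additive.ofMul δ) : ℤ) : ℂ) = 0
    rw [R2.isParabolicHom_of_smallTrace (hbad m) δ hδ, Int.cast_zero]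
  rw [← (R2.eichlerShimura N).2] at h1
  obtain ⟨w, hw⟩ := h1
  exact ⟨w, fun x => by rw [hw]; rfl⟩

include hbad hdual in
theorem hasMat_unique {t : Module.End ℂ (CuspForm (Gamma0 N) 2)}
    {Z Z' : Matrix (Fin r) (Fin r) ℤ} (h : HasMat γ t Z) (h' : HasMat γ t Z') : Z = Z' := by
  classical
  ext n m
  obtain ⟨w, hw⟩ := exists_pair hbad m
  have key : ∀ Y : Matrix (Fin r) (Fin r) ℤ, HasMat γ t Y →
      periodHomPair N (pairEnd t w) (Additive.ofMul (γ n)) = ((Y n m : ℤ) : ℂ) := by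
    intro Y hY
    rw [hY w n, Finset.sum_eq_single m]
    · rw [hw, hdual, if_pos rfl, Int.cast_one, mul_one]
    · intro k _ hkm
      rw [hw, hdual, if_neg hkm, Int.cast_zero, mul_zero]
    · intro h0
      exact absurd (Finset.mem_univ m) h0
  have h1 := (key Z h).symm.trans (key Z' h')
  exact_mod_cast h1

theorem hasMat_one : HasMat γ (1 : Module.End ℂ (CuspForm (Gamma0 N) 2)) 1 := by
  classical
  intro w n
  rw [Finset.sum_eq_single n]
  · rw [Matrix.one_apply_eq, Int.cast_one, one_mul]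
    rfl
  · intro k _ hkn
    rw [Matrix.one_apply_ne (Ne.symm hkn), Int.cast_zero, zero_mul]
  · intro h0
    exact absurd (Finset.mem_univ n) h0

theorem hasMat_add {s t : Module.End ℂ (CuspForm (Gamma0 N) 2)}
    {Y Z : Matrix (Fin r) (Fin r) ℤ} (hs : HasMat γ s Y) (ht : HasMat γ t Z) :
    HasMat γ (s + t) (Y + Z) := by
  intro w n
  have h1 : pairEnd (s + t) w = pairEnd s w + pairEnd t w := rfl
  rw [h1, map_add, AddMonoidHom.add_apply, hs w n, ht w n, ← Finset.sum_add_distrib]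
  refine Finset.sum_congr rfl fun m _ => ?_
  rw [Matrix.add_apply, Int.cast_add, add_mul]

theorem hasMat_mul {s t : Module.End ℂ (CuspForm (Gamma0 N) 2)}
    {Y Z : Matrix (Fin r) (Fin r) ℤ} (hs : HasMat γ s Y) (ht : HasMat γ t Z) :
    HasMat γ (s * t) (Y * Z) := by
  intro w n
  have h1 : pairEnd (s * t) w = pairEnd s (pairEnd t w) := rfl
  rw [h1, hs (pairEnd t w) n]
  simp only [ht w, Matrix.mul_apply, Int.cast_sum, Int.cast_mul, Finset.mul_sum, Finset.sum_mul]
  rw [Finset.sum_comm]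
  refine Finset.sum_congr rfl fun m _ => Finset.sum_congr rfl fun k _ => ?_
  ring

theorem hasMat_algebraMap (c : ℤ) :
    HasMat γ (algebraMap ℤ (Module.End ℂ (CuspForm (Gamma0 N) 2)) c)
      (algebraMap ℤ (Matrix (Fin r) (Fin r) ℤ) c) := by
  classical
  intro w n
  have h1 : pairEnd (algebraMap ℤ (Module.End ℂ (CuspForm (Gamma0 N) 2)) c) w = (c : ℂ) • w := by
    ext <;> simp [pairEnd]
  rw [h1, map_smul, Finset.sum_eq_single n]
  · rw [Matrix.algebraMap_matrix_apply, if_pos rfl]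
    simp
  · intro k _ hkn
    rw [Matrix.algebraMap_matrix_apply, if_neg (Ne.symm hkn), Int.cast_zero, zero_mul]
  · intro h0
    exact absurd (Finset.mem_univ n) h0

include hexp in
/-- the generators `T_ℓ` -/
theorem hasMat_heckeT (ℓ : ℕ) [Fact ℓ.Prime] (hℓ : ℓ.Prime) (hℓN : ¬ ℓ ∣ N) :
    HasMat γ (CuspForm.heckeTLin 2 hℓ hℓN)
      (Matrix.of fun n m => heckeHomT N ℓ hℓN (b m) (Additive.ofMul (γ n))) := by
  intro w n
  have h1 : pairEnd (CuspForm.heckeTLin 2 hℓ hℓN) w =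
      (CuspForm.heckeTLin 2 hℓ hℓN w.1, CuspForm.heckeTLin 2 hℓ hℓN w.2) := rfl
  rw [h1, periodHomPair_heckeT ℓ hℓ hℓN w, heckeHomT_apply]
  have hpar : IsParabolicHom (Gamma0 N) (periodHomPair N w) := by
    have h2 : periodHomPair N w ∈ LinearMap.range (periodHomPair N) := ⟨w, rfl⟩
    rw [(R2.eichlerShimura N).2] at h2
    exact h2
  have hsm : ∀ δ ∈ smallTrace N, periodHomPair N w (Additive.ofMul δ) = 0 :=
    fun δ hδ => IsParabolicHom.eq_zero_of_trace_sq_le hpar δ hδ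
  simp only [Matrix.of_apply, heckeHomT_apply, Int.cast_sum, Finset.sum_mul]
  rw [Finset.sum_comm]
  refine Finset.sum_congr rfl fun x _ => ?_
  rw [hexp ℂ (periodHomPair N w) hsm]
  refine Finset.sum_congr rfl fun m _ => ?_
  rw [zsmul_eq_mul]

end Mat

section Hom

variable {r : ℕ} {γ : Fin r → Gamma0 N} {b : Fin r → (Additive (Gamma0 N) →+ ℤ)}
variable (hbad : ∀ j, ∀ δ ∈ smallTrace N, b j (Additive.ofMul δ) = 0)
  (hdual : ∀ i j, b j (Additive.ofMul (γ i)) = if i = j then 1 else 0)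
  (hexp : ∀ (A : Type) [AddCommGroup A] [IsAddTorsionFree A] (ψ : Additive (Gamma0 N) →+ A),
    (∀ δ ∈ smallTrace N, ψ (Additive.ofMul δ) = 0) →
      ∀ x, ψ x = ∑ j, b j x • ψ (Additive.ofMul (γ j)))
  (S : Finset ℕ) (hNS : ∀ q : ℕ, q.Prime → q ∣ N → q ∈ S)

include hexp hNS in
/-- every element of the Hecke algebra away from `S` has a matrix -/
theorem exists_hasMat (t : Module.End ℂ (CuspForm (Gamma0 N) 2))
    (ht : t ∈ CuspForm.heckeAlgebra N 2 (↑S : Set ℕ)) :
    ∃ Z : Matrix (Fin r) (Fin r) ℤ, HasMat γ t Z := by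
  unfold CuspForm.heckeAlgebra at ht
  induction ht using Algebra.adjoin_induction with
  | mem x hx =>
    rcases hx with ⟨ℓ, hℓ, hℓN, hℓS, rfl⟩ | ⟨q, hqN, hq, hqS, rfl⟩
    · haveI : Fact ℓ.Prime := ⟨hℓ⟩
      exact ⟨_, hasMat_heckeT hexp ℓ hℓ hℓN⟩
    · exact absurd (Finset.mem_coe.2 (hNS q hq hqN)) hqS
  | algebraMap c => exact ⟨_, hasMat_algebraMap c⟩
  | add x y _ _ hx hy =>
    obtain ⟨Y, hY⟩ := hx
    obtain ⟨Z, hZ⟩ := hy
    exact ⟨_, hasMat_add hY hZ⟩
  | mul x y _ _ hx hy =>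
    obtain ⟨Y, hY⟩ := hx
    obtain ⟨Z, hZ⟩ := hy
    exact ⟨_, hasMat_mul hY hZ⟩

/-- the matrix of an element of the Hecke algebra -/
def mat (hexp : ∀ (A : Type) [AddCommGroup A] [IsAddTorsionFree A]
      (ψ : Additive (Gamma0 N) →+ A),
      (∀ δ ∈ smallTrace N, ψ (Additive.ofMul δ) = 0) →
        ∀ x, ψ x = ∑ j, b j x • ψ (Additive.ofMul (γ j)))
    (S : Finset ℕ) (hNS : ∀ q : ℕ, q.Prime → q ∣ N → q ∈ S)
    (t : CuspForm.heckeAlgebra N 2 (↑S : Set ℕ)) : Matrix (Fin r) (Fin r) ℤ :=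
  (exists_hasMat hexp S hNS t.1 t.2).choose

theorem hasMat_mat (t : CuspForm.heckeAlgebra N 2 (↑S : Set ℕ)) :
    HasMat γ (t : Module.End ℂ (CuspForm (Gamma0 N) 2)) (mat hexp S hNS t) :=
  (exists_hasMat hexp S hNS t.1 t.2).choose_spec

/-- **the matrix representation of the Hecke algebra on the lattice** -/
def rho (hbad : ∀ j, ∀ δ ∈ smallTrace N, b j (Additive.ofMul δ) = 0)
    (hdual : ∀ i j, b j (Additive.ofMul (γ i)) = if i = j then 1 else 0)
    (hexp : ∀ (A : Type) [AddCommGroup A] [IsAddTorsionFree A]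
      (ψ : Additive (Gamma0 N) →+ A),
      (∀ δ ∈ smallTrace N, ψ (Additive.ofMul δ) = 0) →
        ∀ x, ψ x = ∑ j, b j x • ψ (Additive.ofMul (γ j)))
    (S : Finset ℕ) (hNS : ∀ q : ℕ, q.Prime → q ∣ N → q ∈ S) :
    CuspForm.heckeAlgebra N 2 (↑S : Set ℕ) →+* Matrix (Fin r) (Fin r) ℤ where
  toFun := mat hexp S hNS
  map_one' := hasMat_unique hbad hdual (hasMat_mat hexp S hNS 1) hasMat_one
  map_mul' s t := hasMat_unique hbad hdual (hasMat_mat hexp S hNS (s * t))
    (hasMat_mul (hasMat_mat hexp S hNS s) (hasMat_mat hexp S hNS t))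
  map_zero' := by
    have h0 : HasMat γ (0 : Module.End ℂ (CuspForm (Gamma0 N) 2))
        (0 : Matrix (Fin r) (Fin r) ℤ) := by
      have := hasMat_algebraMap (γ := γ) (0 : ℤ)
      rwa [map_zero, map_zero] at this
    exact hasMat_unique hbad hdual (hasMat_mat hexp S hNS 0) h0
  map_add' s t := hasMat_unique hbad hdual (hasMat_mat hexp S hNS (s + t))
    (hasMat_add (hasMat_mat hexp S hNS s) (hasMat_mat hexp S hNS t))

theorem rho_apply (t : CuspForm.heckeAlgebra N 2 (↑S : Set ℕ)) :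
    rho hbad hdual hexp S hNS t = mat hexp S hNS t := rfl

theorem rho_injective : Function.Injective (rho hbad hdual hexp S hNS) := by
  rw [injective_iff_map_eq_zero]
  intro t ht
  have h1 := hasMat_mat hexp S hNS t
  rw [← rho_apply hbad hdual, ht] at h1
  apply Subtype.ext
  apply LinearMap.ext
  intro g
  have h2 : periodHomPair N (pairEnd (t : Module.End ℂ (CuspForm (Gamma0 N) 2)) (g, 0)) = 0 := by
    have hpar : IsParabolicHom (Gamma0 N)
        (periodHomPair N (pairEnd (t : Module.End ℂ (CuspForm (Gamma0 N) 2)) (g, 0))) := by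
      have h3 : periodHomPair N (pairEnd (t : Module.End ℂ (CuspForm (Gamma0 N) 2)) (g, 0)) ∈
          LinearMap.range (periodHomPair N) := ⟨_, rfl⟩
      rw [(R2.eichlerShimura N).2] at h3
      exact h3
    apply AddMonoidHom.ext
    intro x
    rw [hexp ℂ _ (fun δ hδ => IsParabolicHom.eq_zero_of_trace_sq_le hpar δ hδ) x]
    refine Finset.sum_eq_zero fun j _ => ?_
    rw [h1 (g, 0) j]
    simp
  have h4 := (R2.eichlerShimura N).1 (h2.trans (map_zero (periodHomPair N)).symm)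
  exact congrArg Prod.fst h4

theorem rho_T (ℓ : ℕ) [Fact ℓ.Prime] (hℓ : ℓ.Prime) (hℓN : ¬ ℓ ∣ N)
    (hℓS : ℓ ∉ (↑S : Set ℕ)) (n m : Fin r) :
    rho hbad hdual hexp S hNS (CuspForm.heckeAlgebra.T hℓ hℓN hℓS) n m =
      heckeHomT N ℓ hℓN (b m) (Additive.ofMul (γ n)) := by
  have h1 := hasMat_unique hbad hdual
    (hasMat_mat hexp S hNS (CuspForm.heckeAlgebra.T hℓ hℓN hℓS))
    (hasMat_heckeT hexp ℓ hℓ hℓN)
  rw [rho_apply, h1]
  rfl

end Hom

/-- **(E1)**. -/
theorem e1Statement (N : ℕ) [NeZero N] (S : Finset ℕ)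
    (hNS : ∀ q : ℕ, q.Prime → q ∣ N → q ∈ S) : EigenWire.E1Statement N S := by
  obtain ⟨r, γ, b, hbad, hdual, hexp⟩ := R2.exists_gamma_dual N
  exact ⟨r, γ, b, hbad, hdual, hexp, rho hbad hdual hexp S hNS,
    rho_injective hbad hdual hexp S hNS,
    fun ℓ _ hℓ hℓN hℓS n m => rho_T hbad hdual hexp S hNS ℓ hℓ hℓN hℓS n m⟩

end Fermat.Agent.S30.HeckeMat
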