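/-
S30 (item 92), block (E) COMPLETE (helper8): the eigensystem `χ` of the Hecke algebra away from
`S` (all primes of `N` in `S`) occurs in `O ⊗[ℤ] L`, `L = R2.XP N 0 = Hom(Γ₀(N)/small, ℤ)`,
for every domain `O` of characteristic `0`.
-/
import Mathlib
import Fermat.Agent.S30.EigenXZ
import Fermat.Agent.S30.HeckeMat

set_option autoImplicit false

open CongruenceSubgroup
open scoped TensorProduct

noncomputable section

namespace Fermat.Agent.S30.EigenFinal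

open Fermat.Agent.S16 Fermat.Agent.S29

/-- **(E)**, coordinates: an eigenvector `v ∈ O^r` for the matrices of the `heckeHomT`. -/
theorem eigen_coord (N : ℕ) [NeZero N] (S : Finset ℕ)
    (hNS : ∀ q : ℕ, q.Prime → q ∣ N → q ∈ S)
    (O : Type) [CommRing O] [IsDomain O] [CharZero O]
    (χ : CuspForm.heckeAlgebra N 2 (↑S : Set ℕ) →+* O) :
    ∃ (r : ℕ) (γ : Fin r → Gamma0 N) (b : Fin r → (Additive (Gamma0 N) →+ ℤ)),
      (∀ j, ∀ δ ∈ smallTrace N, b j (Additive.ofMul δ) = 0) ∧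
      (∀ i j, b j (Additive.ofMul (γ i)) = if i = j then 1 else 0) ∧
      (∀ (A : Type) [AddCommGroup A] [IsAddTorsionFree A] (ψ : Additive (Gamma0 N) →+ A),
          (∀ δ ∈ smallTrace N, ψ (Additive.ofMul δ) = 0) →
            ∀ x, ψ x = ∑ j, b j x • ψ (Additive.ofMul (γ j))) ∧
      ∃ v : Fin r → O, v ≠ 0 ∧
        ∀ (ℓ : ℕ) [Fact ℓ.Prime] (hℓ : ℓ.Prime) (hℓN : ¬ ℓ ∣ N) (hℓS : ℓ ∉ (↑S : Set ℕ))
          (n : Fin r),
          ∑ m, ((heckeHomT N ℓ hℓN (b m) (Additive.ofMul (γ n)) : ℤ) : O) * v m =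
            χ (CuspForm.heckeAlgebra.T hℓ hℓN hℓS) * v n :=
  EigenWire.eigen_occurs N S (HeckeMat.e1Statement N S hNS) O χ

/-- **(E)**, ASM-4 shape: a nonzero eigenvector in `O ⊗[ℤ] XP N 0`. -/
theorem eigen_XZ (N : ℕ) [NeZero N] (S : Finset ℕ)
    (hNS : ∀ q : ℕ, q.Prime → q ∣ N → q ∈ S)
    (O : Type) [CommRing O] [IsDomain O] [CharZero O]
    (χ : CuspForm.heckeAlgebra N 2 (↑S : Set ℕ) →+* O) :
    ∃ y₀ : O ⊗[ℤ] R2.XP N 0, y₀ ≠ 0 ∧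
      ∀ (ℓ : ℕ) [Fact ℓ.Prime] (hℓ : ℓ.Prime) (hℓN : ¬ ℓ ∣ N) (hℓS : ℓ ∉ (↑S : Set ℕ)),
        (R2.TXP N 0 ℓ hℓN).baseChange O y₀ = χ (CuspForm.heckeAlgebra.T hℓ hℓN hℓS) • y₀ :=
  EigenWire.eigen_occurs_XZ S (HeckeMat.e1Statement N S hNS) O χ

end Fermat.Agent.S30.EigenFinal
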