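/-
S30 (item 92), W1 helper (lead): `R2.XP N 0 = Hom(Γ₀(N)/small, ℤ)` is a finite free `ℤ`-module.
-/
import Fermat.Agent.S29.XPFinite
import Fermat.Agent.S29.R2

set_option autoImplicit false

open ModularCurve CongruenceSubgroup

noncomputable section

namespace Fermat.Agent.S30.XPFree

open Fermat.Agent.S29

/-- additive homomorphisms from a finitely generated group to `ℤ`: a finite `ℤ`-module. -/
theorem finite_hom_int (G : Type*) [Group G] (hG : Group.FG G) :
    Module.Finite ℤ (Additive G →+ ℤ) := by
  obtain ⟨S, hS⟩ := Group.fg_def.1 hG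
  have hcl : AddSubgroup.closure (Additive.toMul ⁻¹' (S : Set G)) = ⊤ := by
    rw [← Subgroup.toAddSubgroup_closure, hS]
    rfl
  let res : (Additive G →+ ℤ) →ₗ[ℤ] (S → ℤ) :=
    { toFun := fun ψ s => ψ (Additive.ofMul (s : G))
      map_add' := fun _ _ => rfl
      map_smul' := fun _ _ => rfl }
  have hinj : Function.Injective res := by
    intro ψ φ h
    apply AddMonoidHom.eq_of_eqOn_dense hcl
    intro x hx
    have := congrFun h ⟨Additive.toMul x, hx⟩
    exact this
  exact Module.Finite.of_injective res hinj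

theorem finite_XP0 (N : ℕ) [NeZero N] : Module.Finite ℤ (R2.XP N 0) := by
  haveI : Module.Finite ℤ (Additive ↥(Gamma0 N) →+ ZMod 0) :=
    finite_hom_int _ (XPF.gamma0_fg' N)
  exact Module.Finite.of_injective (R2.XP N 0).subtype Subtype.val_injective

theorem free_XP0 (N : ℕ) [NeZero N] : Module.Free ℤ (R2.XP N 0) := by
  have hfin := finite_XP0 N
  have htf : Module.IsTorsionFree ℤ (R2.XP N 0) := by
    refine Module.IsTorsionFree.of_smul_eq_zero (fun c ψ h => ?_)
    by_cases hc : c = 0
    · exact Or.inl hc
    · right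
      apply Subtype.ext
      refine AddMonoidHom.ext fun x => ?_
      have h1 := congrArg (fun φ : R2.XP N 0 => (φ : Additive ↥(Gamma0 N) →+ ZMod 0) x) h
      have h2 : c • ((ψ : Additive ↥(Gamma0 N) →+ ZMod 0) x) = (0 : ZMod 0) := h1
      have h3 : ∀ v : ℤ, c • v = 0 → v = 0 := by
        intro v hv
        rw [smul_eq_mul] at hv
        rcases mul_eq_zero.mp hv with h4 | h4
        · exact absurd h4 hc
        · exact h4
      exact h3 _ h2
  exact Module.free_of_finite_type_torsion_free'

end Fermat.Agent.S30.XPFree
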