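/-
S30 (item 92), W1 (lead): the eigen-part of the Tate module is nonzero.
`Asm4.nontrivial_eig` (helper7) fed by `CompatL.exists_asm4_input` (helper1, (C)),
`EigenFinal.eigen_XZ` (helper8/helper3, (E)), `FinTors.finite_torsion` (helper5, (F)),
`AsmHaus` (helper2), `XPFree.free_XP0` (lead).
-/
import Fermat.Agent.S30.AsmJ
import Fermat.Agent.S30.Asm4
import Fermat.Agent.S30.AsmHaus
import Fermat.Agent.S30.CompatL
import Fermat.Agent.S30.EigenFinal
import Fermat.Agent.S30.FinTors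
import Fermat.Agent.S30.XPFree

set_option autoImplicit false
set_option maxHeartbeats 2000000

open ModularCurve AlgebraicCurve
open scoped TensorProduct

noncomputable section

namespace Fermat.Agent.S30.Hnt

open Fermat.Agent.S29 Fermat.Agent.S30.AsmJ

/-- the Hecke operators on the lattice, at the good primes. -/
def TLat (N : ℕ) [NeZero N] (S : Finset ℕ) (i : GoodPrime N S) : Module.End ℤ (R2.XP N 0) :=
  haveI : Fact i.1.Prime := ⟨i.2.1⟩
  R2.TXP N 0 i.1 i.2.2.1

/-- **W1**: `M` is nontrivial. -/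
theorem nontrivial_MJ (p : ℕ) [Fact p.Prime] (N : ℕ) [NeZero N] (S : Finset ℕ)
    (hpS : p ∈ S) (hNS : ∀ q : ℕ, q.Prime → q ∣ N → q ∈ S)
    (O' : Type) [CommRing O'] [IsDomain O'] [IsDiscreteValuationRing O']
    [IsAdicComplete (IsLocalRing.maximalIdeal O') O'] [CharZero O']
    (hpO' : (p : O') ∈ IsLocalRing.maximalIdeal O')
    (χ : CuspForm.heckeAlgebra N 2 (↑S : Set ℕ) →+* O') :
    Nontrivial (MJ p N S O' χ) := by
  have hp : p.Prime := Fact.out
  haveI : NeZero p := ⟨hp.ne_zero⟩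
  have hfin : Finite (torsP N p) := by
    have h := FinTors.finite_torsion N p hp.ne_zero
    have hset : {x : JZero N | p • x = 0} = ((torsP N p : Submodule ℤ (JZero N)) : Set (JZero N)) := by
      ext x
      exact (mem_torsP_iff N p x).symm
    rw [hset] at h
    exact h
  obtain ⟨Φ, hΦ0, hΦp, hT, hker⟩ :=
    CompatL.exists_asm4_input N p hp S hpS DictM.dictStatementM hfin
  obtain ⟨y₀, hy0, hy⟩ := EigenFinal.eigen_XZ N S hNS O' χ
  haveI : Module.Free ℤ (R2.XP N 0) := XPFree.free_XP0 N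
  haveI : Module.Flat ℤ O' := AsmHaus.flat_int O'
  exact Asm4.nontrivial_eig p O' (JZero N) (TJ N S) (aJ N S χ) (R2.XP N 0) (TLat N S) Φ
    (AsmHaus.hHaus_nat O' p hpO') hΦ0 hΦp
    (fun i n => hT i.1 i.2.1 i.2.2.1 i.2.2.2 n)
    hker y₀
    (fun i => by
      haveI : Fact i.1.Prime := ⟨i.2.1⟩
      exact hy i.1 i.2.1 i.2.2.1 i.2.2.2)
    hy0

end Fermat.Agent.S30.Hnt
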