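/-
S30 (item 92): `AsmStatement` (lead) = `AsmJ.nonempty_LInput` + (F) `FinTors.finite_torsion`
+ (W1) `Hnt.nontrivial_MJ`.
-/
import Fermat.Agent.S30.AsmJ
import Fermat.Agent.S30.Hnt
import Fermat.Agent.S30.FinTors

set_option autoImplicit false
set_option maxHeartbeats 2000000

noncomputable section

namespace Fermat.Agent.S30.AsmFinal

/-- blocks (F) + (C) + (R) + (E): the module exists. -/
theorem asmStatement_all : AsmStatement := by
  intro p _ N _ S hpS hNS O' _ _ _ _ _ _ hpO' χ
  exact AsmJ.nonempty_LInput p N S O' χ hpS hpO'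
    (fun k => FinTors.finite_torsion N (p ^ k) (pow_ne_zero k (Fact.out : p.Prime).ne_zero))
    (Hnt.nontrivial_MJ p N S hpS hNS O' hpO' χ)

end Fermat.Agent.S30.AsmFinal
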