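/-
S30 (item 92), CONTRACT (architect helper4; lead's split of 11:35Z/11:45Z).
Only definitions of shapes (`Prop`s and one structure); no proofs.  Branch origin/helper4.

* `LInput`      : what the assembly of (F), (C), (R), (E) delivers to (L);
* `S30Concl`    : the conclusion of S30 for given data;
* `LStatement`  : block (L) = `LInput → S30Concl`;
* `L1Out`, `L1Statement` : relation for ALL `g`, p-adic `ε`, complex conjugation;
* `L2Out`, `L2Statement` : a `G`-stable rank 2 piece over `K = Frac O'`;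
* `AsmStatement`: blocks (F)+(C)+(R)+(E) = existence of an `LInput`.
-/
import Mathlib
import Fermat.Prelude.Def_CuspForm_HeckeGaloisRepDatum

set_option autoImplicit false
set_option linter.unusedSectionVars false

open Polynomial

noncomputable section

namespace Fermat.Agent.S30

/-- the absolute Galois group of `ℚ`. -/
abbrev GQ : Type := AlgebraicClosure ℚ ≃ₐ[ℚ] AlgebraicClosure ℚ

section Data

variable (p : ℕ) (N : ℕ) [NeZero N] (S : Finset ℕ)
  (O' : Type) [CommRing O'] [IsDomain O'] [IsDiscreteValuationRing O']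
  (χ : CuspForm.heckeAlgebra N 2 (↑S : Set ℕ) →+* O')

/-- **input of (L)**: a nonzero finite free `O'`-module with an adically continuous Galois action
on which every Frobenius at `ℓ ∉ S`, `ℓ ∤ N` satisfies `X² − χ(T_ℓ) X + ℓ`, unramified at the
primes `q ∤ N`, `q ≠ p`. -/
structure LInput where
  M : Type
  [instACG : AddCommGroup M]
  [instMod : Module O' M]
  [instFree : Module.Free O' M]
  [instFin : Module.Finite O' M]
  [instNt : Nontrivial M]
  ρ : GQ →* Module.End O' M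
  cont : GaloisActionIsAdicContinuous O' ρ
  es : ∀ (ℓ : ℕ) (hℓ : ℓ.Prime) (hℓN : ¬ ℓ ∣ N) (hℓS : ℓ ∉ (↑S : Set ℕ)),
    ∀ A : ValuationSubring (AlgebraicClosure ℚ), A.LiesOverPrime ℓ →
      ∀ σ : GQ, A.IsFrobeniusAt σ ℓ →
        ρ σ * ρ σ - χ (CuspForm.heckeAlgebra.T hℓ hℓN hℓS) • ρ σ + (ℓ : O') • 1 = 0
  ur : ∀ q : ℕ, q.Prime → ¬ q ∣ N → q ≠ p →
    ∀ P : ValuationSubring (AlgebraicClosure ℚ), P.LiesOverPrime q →
      ∀ σ ∈ P.inertiaSubgroupIn ℚ, ρ σ = 1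

attribute [instance] LInput.instACG LInput.instMod LInput.instFree LInput.instFin LInput.instNt

/-- **conclusion of S30** with `O'' = O'`. -/
def S30ConclSame : Prop :=
  ∃ ρ : GaloisRepAdic O',
    (∀ (ℓ : ℕ) (hℓ : ℓ.Prime) (hℓN : ¬ ℓ ∣ N) (hℓS : ℓ ∉ (↑S : Set ℕ)),
      ∀ A : ValuationSubring (AlgebraicClosure ℚ), A.LiesOverPrime ℓ →
        ∀ σ : GQ, A.IsFrobeniusAt σ ℓ →
          LinearMap.charpoly (ρ.ρ σ) =
            X ^ 2 - C (χ (CuspForm.heckeAlgebra.T hℓ hℓN hℓS)) * X + C ((ℓ : O'))) ∧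
    (∀ q : ℕ, q.Prime → ¬ q ∣ N → q ≠ p → ρ.IsUnramifiedAt q)

variable {p N S O' χ}

/-- **output of L1**: the quadratic relation for ALL `g`, with the `p`-adic cyclotomic character
`ε` and a trace function `t`; complex conjugation. -/
structure L1Out (I : LInput p N S O' χ) : Prop where
  rel : ∃ (ε : GQ →* O'ˣ) (t : GQ → O'),
    (∀ g : GQ, I.ρ g * I.ρ g - t g • I.ρ g + ((ε g : O'ˣ) : O') • 1 = 0) ∧
    (∀ (ℓ : ℕ) (hℓ : ℓ.Prime) (hℓN : ¬ ℓ ∣ N) (hℓS : ℓ ∉ (↑S : Set ℕ)),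
      ∀ A : ValuationSubring (AlgebraicClosure ℚ), A.LiesOverPrime ℓ →
        ∀ σ : GQ, A.IsFrobeniusAt σ ℓ →
          ((ε σ : O'ˣ) : O') = (ℓ : O') ∧ t σ = χ (CuspForm.heckeAlgebra.T hℓ hℓN hℓS)) ∧
    (∀ n : ℕ, ∃ L : IntermediateField ℚ (AlgebraicClosure ℚ), FiniteDimensional ℚ L ∧
      ∀ σ : GQ, (∀ x ∈ L, σ x = x) →
        ((ε σ : O'ˣ) : O') - 1 ∈ IsLocalRing.maximalIdeal O' ^ n) ∧
    (∃ c : GQ, c * c = 1 ∧ ((ε c : O'ˣ) : O') = -1)

end Data

/-- block (L1). -/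
def L1Statement : Prop :=
  ∀ (p : ℕ) [Fact p.Prime] (N : ℕ) [NeZero N] (S : Finset ℕ) (_hpS : p ∈ S)
    (O' : Type) [CommRing O'] [IsDomain O'] [IsDiscreteValuationRing O']
    [IsAdicComplete (IsLocalRing.maximalIdeal O') O'] [Finite (IsLocalRing.ResidueField O')]
    [CharZero O'] (_hpO' : (p : O') ∈ IsLocalRing.maximalIdeal O')
    (χ : CuspForm.heckeAlgebra N 2 (↑S : Set ℕ) →+* O') (I : LInput p N S O' χ), L1Out I

/-- block (L) = L1 + L2 + L3. -/
def LStatement : Prop :=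
  ∀ (p : ℕ) [Fact p.Prime] (N : ℕ) [NeZero N] (S : Finset ℕ) (_hpS : p ∈ S)
    (_hNS : ∀ q : ℕ, q.Prime → q ∣ N → q ∈ S)
    (O' : Type) [CommRing O'] [IsDomain O'] [IsDiscreteValuationRing O']
    [IsAdicComplete (IsLocalRing.maximalIdeal O') O'] [Finite (IsLocalRing.ResidueField O')]
    [CharZero O'] (_hpO' : (p : O') ∈ IsLocalRing.maximalIdeal O')
    (χ : CuspForm.heckeAlgebra N 2 (↑S : Set ℕ) →+* O'),
    LInput p N S O' χ → S30ConclSame p N S O' χ

/-- blocks (F) + (C) + (R) + (E): the module exists. -/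
def AsmStatement : Prop :=
  ∀ (p : ℕ) [Fact p.Prime] (N : ℕ) [NeZero N] (S : Finset ℕ) (_hpS : p ∈ S)
    (_hNS : ∀ q : ℕ, q.Prime → q ∣ N → q ∈ S)
    (O' : Type) [CommRing O'] [IsDomain O'] [IsDiscreteValuationRing O']
    [IsAdicComplete (IsLocalRing.maximalIdeal O') O'] [Finite (IsLocalRing.ResidueField O')]
    [CharZero O'] (_hpO' : (p : O') ∈ IsLocalRing.maximalIdeal O')
    (χ : CuspForm.heckeAlgebra N 2 (↑S : Set ℕ) →+* O'),
    Nonempty (LInput p N S O' χ)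

end Fermat.Agent.S30
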