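/-
S30 (item 92), block (L1), core (helper4): from a character `ε` with `ε(Frob_ℓ) = ℓ`, adically
continuous, the quadratic relation for ALL `g` with a trace function `t`.
Branch origin/helper4.
-/
import Mathlib
import Fermat.Agent.S30.Contract
import Fermat.Agent.S29.FrobDens

set_option autoImplicit false
set_option linter.unusedSectionVars false
set_option linter.style.haveILetI false

open Polynomial IsLocalRing

noncomputable section

namespace Fermat.Agent.S30.L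

/-! ### Lucas over a commutative ring -/

/-- the Lucas sequence `s_j = α^j + β^j` over a commutative ring. -/
def lucasR {k : Type} [CommRing k] (t d : k) : ℕ → k
  | 0 => 2
  | 1 => t
  | (n + 2) => t * lucasR t d (n + 1) - d * lucasR t d n

theorem lucasR_comm {A : Type} [CommRing A] (r t d : A) (h : r * r - t * r + d = 0)
    (s : ℕ → A) (h0 : s 0 = 2) (h1 : s 1 = t)
    (hs : ∀ n, s (n + 2) = t * s (n + 1) - d * s n) (j : ℕ) :
    r ^ j * r ^ j - s j * r ^ j + d ^ j = 0 := by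
  have hy : r * (t - r) = d := by linear_combination -h
  have key : ∀ j, r ^ j + (t - r) ^ j = s j := by
    intro j
    induction j using Nat.twoStepInduction with
    | zero => rw [h0]; ring
    | one => rw [h1]; ring
    | more n ih0 ih1 =>
      rw [hs, ← ih0, ← ih1]
      have e : r ^ (n + 2) + (t - r) ^ (n + 2) =
          t * (r ^ (n + 1) + (t - r) ^ (n + 1)) - (r * (t - r)) * (r ^ n + (t - r) ^ n) := by
        ring
      rw [e, hy]
  have hp : r ^ j * (t - r) ^ j = d ^ j := by rw [← mul_pow, hy]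
  rw [← key j]
  linear_combination -hp

theorem lucasR_dvd {k : Type} [CommRing k] (t d : k) (j : ℕ) :
    (X ^ 2 - C t * X + C d : k[X]) ∣
      X ^ j * X ^ j - C (lucasR t d j) * X ^ j + C (d ^ j) := by
  set P : k[X] := X ^ 2 - C t * X + C d with hP
  rw [← AdjoinRoot.mk_eq_zero (f := P)]
  have hroot : AdjoinRoot.mk P P = 0 := AdjoinRoot.mk_self
  have h : AdjoinRoot.root P * AdjoinRoot.root P - AdjoinRoot.of P t * AdjoinRoot.root P +
      AdjoinRoot.of P d = 0 := by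
    have := hroot
    rw [hP] at this
    simpa [pow_two, AdjoinRoot.mk_X, AdjoinRoot.mk_C] using this
  have := lucasR_comm (AdjoinRoot.root P) (AdjoinRoot.of P t) (AdjoinRoot.of P d) h
    (fun n => AdjoinRoot.of P (lucasR t d n))
    (by show AdjoinRoot.of P (2 : k) = 2; exact map_ofNat _ 2) (by simp [lucasR])
    (fun n => by simp [lucasR]) j
  simpa [AdjoinRoot.mk_X, AdjoinRoot.mk_C] using this

/-- **Lucas** in any algebra over a commutative ring. -/
theorem lucasR_alg {k R : Type} [CommRing k] [Ring R] [Algebra k R] (x : R) (t d : k)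
    (h : x * x - t • x + d • (1 : R) = 0) (j : ℕ) :
    x ^ j * x ^ j - lucasR t d j • x ^ j + (d ^ j) • (1 : R) = 0 := by
  obtain ⟨Q, hQ⟩ := lucasR_dvd t d j
  have h1 := congrArg (Polynomial.aeval x) hQ
  have h2 : Polynomial.aeval x (X ^ 2 - C t * X + C d : k[X]) = 0 := by
    simp only [map_add, map_sub, map_mul, map_pow, aeval_X, aeval_C]
    rw [pow_two, ← Algebra.smul_def, Algebra.algebraMap_eq_smul_one]
    exact h
  rw [map_mul, h2, zero_mul] at h1
  simp only [map_add, map_sub, map_mul, aeval_C] at h1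
  simp only [map_pow, aeval_X] at h1
  rw [← Algebra.smul_def, ← map_pow, Algebra.algebraMap_eq_smul_one] at h1
  exact h1

/-! ### small endomorphisms -/

section Small

variable {O : Type} [CommRing O] {M : Type} [AddCommGroup M] [Module O M]

/-- endomorphisms with image in `I M`. -/
def Sm (I : Ideal O) (f : Module.End O M) : Prop := ∀ x, f x ∈ I • (⊤ : Submodule O M)

theorem Sm.add {I : Ideal O} {f g : Module.End O M} (hf : Sm I f) (hg : Sm I g) :
    Sm I (f + g) := fun x => Submodule.add_mem _ (hf x) (hg x)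

theorem Sm.sub {I : Ideal O} {f g : Module.End O M} (hf : Sm I f) (hg : Sm I g) :
    Sm I (f - g) := fun x => Submodule.sub_mem _ (hf x) (hg x)

theorem Sm.smul {I : Ideal O} {f : Module.End O M} (a : O) (hf : Sm I f) :
    Sm I (a • f) := fun x => Submodule.smul_mem _ a (hf x)

theorem Sm.mul_right {I : Ideal O} {f : Module.End O M} (hf : Sm I f) (g : Module.End O M) :
    Sm I (f * g) := fun x => hf (g x)

theorem Sm.mul_left {I : Ideal O} {f : Module.End O M} (hf : Sm I f) (g : Module.End O M) :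
    Sm I (g * f) := fun x => by
  have h1 : (I • (⊤ : Submodule O M)).map g ≤ I • ⊤ := by
    rw [Submodule.map_smul'']
    exact Submodule.smul_mono le_rfl le_top
  exact h1 (Submodule.mem_map_of_mem (hf x))

theorem Sm.of_mem {I : Ideal O} {a : O} (ha : a ∈ I) (f : Module.End O M) :
    Sm I (a • f) := fun x => Submodule.smul_mem_smul ha Submodule.mem_top

theorem coord_mem {ι : Type} (b : Module.Basis ι O M) (i : ι) {I : Ideal O} {x : M}
    (hx : x ∈ I • (⊤ : Submodule O M)) : b.repr x i ∈ I := by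
  refine Submodule.smul_induction_on hx ?_ ?_
  · intro r hr n _
    rw [map_smul, Finsupp.smul_apply, smul_eq_mul]
    exact I.mul_mem_right _ hr
  · intro x y hx hy
    rw [map_add, Finsupp.add_apply]
    exact I.add_mem hx hy

end Small

/-! ### the trace function -/

section Main

variable {p : ℕ} {N : ℕ} [NeZero N] {S : Finset ℕ}
  {O' : Type} [CommRing O'] [IsDomain O'] [IsDiscreteValuationRing O']
  {χ : CuspForm.heckeAlgebra N 2 (↑S : Set ℕ) →+* O'}

/-- Krull: an endomorphism small for every `n` vanishes. -/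
theorem eq_zero_of_sm (I : LInput p N S O' χ) (f : Module.End O' I.M)
    (h : ∀ n : ℕ, Sm (maximalIdeal O' ^ n) f) : f = 0 := by
  ext x
  have h1 : f x ∈ (⨅ i : ℕ, (maximalIdeal O') ^ i • ⊤ : Submodule O' I.M) := by
    rw [Submodule.mem_iInf]
    exact fun n => h n x
  rw [Ideal.iInf_pow_smul_eq_bot_of_isLocalRing (maximalIdeal O')
    (Ideal.IsPrime.ne_top inferInstance)] at h1
  simpa using h1

/-- the endomorphism `ρ g + ε g ρ g⁻¹`. -/
def U (I : LInput p N S O' χ) (ε : GQ →* O'ˣ) (g : GQ) : Module.End O' I.M :=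
  I.ρ g + ((ε g : O'ˣ) : O') • I.ρ g⁻¹

theorem rho_mul_inv (I : LInput p N S O' χ) (g : GQ) : I.ρ g * I.ρ g⁻¹ = 1 := by
  rw [← map_mul, mul_inv_cancel, map_one]

theorem rho_inv_mul (I : LInput p N S O' χ) (g : GQ) : I.ρ g⁻¹ * I.ρ g = 1 := by
  rw [← map_mul, inv_mul_cancel, map_one]

/-- from the quadratic relation to `U`. -/
theorem U_eq_of_rel (I : LInput p N S O' χ) (ε : GQ →* O'ˣ) (g : GQ) (t : O')
    (h : I.ρ g * I.ρ g - t • I.ρ g + ((ε g : O'ˣ) : O') • 1 = 0) :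
    U I ε g = t • 1 := by
  have h1 := congrArg (fun z => z * I.ρ g⁻¹) h
  simp only [zero_mul, add_mul, sub_mul, mul_assoc, smul_mul_assoc, one_mul,
    rho_mul_inv, mul_one] at h1
  unfold U
  rw [← sub_eq_zero, ← h1]
  abel

/-- from `U` to the quadratic relation. -/
theorem rel_of_U_eq (I : LInput p N S O' χ) (ε : GQ →* O'ˣ) (g : GQ) (t : O')
    (h : U I ε g = t • 1) :
    I.ρ g * I.ρ g - t • I.ρ g + ((ε g : O'ˣ) : O') • 1 = 0 := by
  have h1 : I.ρ g * (U I ε g - t • 1) = 0 := by rw [h, sub_self, mul_zero]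
  unfold U at h1
  rw [mul_sub, mul_add, mul_smul_comm, mul_smul_comm, rho_mul_inv, mul_one] at h1
  rw [sub_add_eq_add_sub]
  exact h1

/-- `U` of a power of a Frobenius element is a scalar. -/
theorem U_pow_frob (I : LInput p N S O' χ) (ε : GQ →* O'ˣ) (τ : GQ) (a : O') (ℓ : ℕ)
    (hε : ((ε τ : O'ˣ) : O') = (ℓ : O'))
    (h : I.ρ τ * I.ρ τ - a • I.ρ τ + (ℓ : O') • 1 = 0) (j : ℕ) :
    U I ε (τ ^ j) = lucasR a (ℓ : O') j • 1 := by
  apply U_eq_of_rel
  have := lucasR_alg (I.ρ τ) a (ℓ : O') h j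
  rw [map_pow, map_pow, Units.val_pow_eq_pow_val, hε]
  exact this

/-- **congruence**: if `κ = g⁻¹ h` acts trivially modulo `J` and `ε κ ≡ 1`, then
`U g ≡ U h` modulo `J`. -/
theorem U_congr (I : LInput p N S O' χ) (ε : GQ →* O'ˣ) (J : Ideal O') (g h : GQ)
    (h1 : ∀ v : I.M, I.ρ (g⁻¹ * h) v - v ∈ J • (⊤ : Submodule O' I.M))
    (h2 : ∀ v : I.M, I.ρ (g⁻¹ * h)⁻¹ v - v ∈ J • (⊤ : Submodule O' I.M))
    (h3 : ((ε (g⁻¹ * h) : O'ˣ) : O') - 1 ∈ J) :
    Sm J (U I ε g - U I ε h) := by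
  set κ := g⁻¹ * h with hκ
  have hh : h = g * κ := by rw [hκ, mul_inv_cancel_left]
  have hhi : h⁻¹ = κ⁻¹ * g⁻¹ := by rw [hh, mul_inv_rev]
  have s1 : Sm J (I.ρ κ - 1) := fun v => h1 v
  have s2 : Sm J (I.ρ κ⁻¹ - 1) := fun v => h2 v
  have e : U I ε g - U I ε h =
      - (I.ρ g * (I.ρ κ - 1)) - ((ε g : O'ˣ) : O') • ((I.ρ κ⁻¹ - 1) * I.ρ g⁻¹)
        - (((ε g : O'ˣ) : O') * (((ε κ : O'ˣ) : O') - 1)) • I.ρ h⁻¹ := by
    unfold U
    rw [hhi, hh, map_mul, map_mul, map_mul, Units.val_mul]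
    simp only [mul_sub, sub_mul, mul_one, one_mul, smul_sub, sub_smul, mul_smul, one_smul,
      smul_mul_assoc]
    rw [← hhi]
    simp only [hh, mul_inv_rev, map_mul]
    abel
  rw [e]
  refine Sm.sub (Sm.sub ?_ ?_) ?_
  · intro x
    have := (s1.mul_left (I.ρ g)) x
    rw [LinearMap.neg_apply]
    exact Submodule.neg_mem _ this
  · exact Sm.smul _ (s2.mul_right _)
  · exact Sm.of_mem (J.mul_mem_left _ h3) _

/-- **L1 core**: given the character `ε`, the trace function exists. -/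
theorem exists_trace (hpS : p ∈ S) (I : LInput p N S O' χ) (ε : GQ →* O'ˣ)
    (hεF : ∀ (ℓ : ℕ), ℓ.Prime → ℓ ≠ p →
      ∀ A : ValuationSubring (AlgebraicClosure ℚ), A.LiesOverPrime ℓ →
        ∀ σ : GQ, A.IsFrobeniusAt σ ℓ → ((ε σ : O'ˣ) : O') = (ℓ : O'))
    (hεc : ∀ n : ℕ, ∃ L : IntermediateField ℚ (AlgebraicClosure ℚ), FiniteDimensional ℚ L ∧
      ∀ σ : GQ, (∀ x ∈ L, σ x = x) →
        ((ε σ : O'ˣ) : O') - 1 ∈ IsLocalRing.maximalIdeal O' ^ n) :
    ∃ t : GQ → O',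
      (∀ g : GQ, I.ρ g * I.ρ g - t g • I.ρ g + ((ε g : O'ˣ) : O') • 1 = 0) ∧
      (∀ (ℓ : ℕ) (hℓ : ℓ.Prime) (hℓN : ¬ ℓ ∣ N) (hℓS : ℓ ∉ (↑S : Set ℕ)),
        ∀ A : ValuationSubring (AlgebraicClosure ℚ), A.LiesOverPrime ℓ →
          ∀ σ : GQ, A.IsFrobeniusAt σ ℓ →
            t σ = χ (CuspForm.heckeAlgebra.T hℓ hℓN hℓS)) := by
  classical
  -- a coordinate functional
  let b := Module.Free.chooseBasis O' I.M
  haveI : Nonempty (Module.Free.ChooseBasisIndex O' I.M) := by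
    by_contra hne
    rw [not_nonempty_iff] at hne
    obtain ⟨x, y, hxy⟩ := exists_pair_ne I.M
    exact hxy (b.repr.injective (Subsingleton.elim _ _))
  let i₀ : Module.Free.ChooseBasisIndex O' I.M := Classical.arbitrary _
  let coef : Module.End O' I.M → O' := fun f => b.repr (f (b i₀)) i₀
  have coef_smul_one : ∀ s : O', coef (s • 1) = s := by
    intro s
    show b.repr ((s • (1 : Module.End O' I.M)) (b i₀)) i₀ = s
    rw [LinearMap.smul_apply, Module.End.one_apply, map_smul, Finsupp.smul_apply,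
      Module.Basis.repr_self, Finsupp.single_eq_same, smul_eq_mul, mul_one]
  have coef_sub : ∀ f g : Module.End O' I.M, coef (f - g) = coef f - coef g := by
    intro f g
    show b.repr ((f - g) (b i₀)) i₀ = _
    rw [LinearMap.sub_apply, map_sub, Finsupp.sub_apply]
  have coef_mem : ∀ (J : Ideal O') (f : Module.End O' I.M), Sm J f → coef f ∈ J :=
    fun J f hf => coord_mem b i₀ (hf (b i₀))
  -- the scalar approximation
  have hA : ∀ (g : GQ) (n : ℕ), ∃ s : O', Sm (maximalIdeal O' ^ n) (U I ε g - s • 1) := by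
    intro g n
    obtain ⟨L₁, hL₁, h₁⟩ := I.cont n
    obtain ⟨L₂, hL₂, h₂⟩ := hεc n
    haveI := hL₁
    haveI := hL₂
    have hfd : FiniteDimensional ℚ ↥(L₁ ⊔ L₂) := IntermediateField.finiteDimensional_sup L₁ L₂
    obtain ⟨ℓ, hℓ, hℓS', A, hAℓ, τ, hτ, j, hj⟩ :=
      Fermat.Agent.S29.FD.frobDensityStatement (L₁ ⊔ L₂) hfd (S ∪ N.primeFactors) g
    have hℓS : ℓ ∉ (↑S : Set ℕ) := fun h => hℓS' (Finset.mem_union_left _ h)
    have hℓN : ¬ ℓ ∣ N := fun h =>
      hℓS' (Finset.mem_union_right _ (Nat.mem_primeFactors.2 ⟨hℓ, h, NeZero.ne N⟩))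
    have hℓp : ℓ ≠ p := fun h => hℓS (h ▸ hpS)
    have hfix : ∀ y ∈ L₁ ⊔ L₂, (g⁻¹ * τ ^ j) y = y := by
      intro y hy
      show g⁻¹ ((τ ^ j) y) = y
      rw [hj y hy]
      exact g.symm_apply_apply y
    have hfix' : ∀ y ∈ L₁ ⊔ L₂, (g⁻¹ * τ ^ j)⁻¹ y = y := by
      intro y hy
      have := hfix y hy
      conv_lhs => rw [← this]
      exact (g⁻¹ * τ ^ j).symm_apply_apply y
    have hU := U_pow_frob I ε τ (χ (CuspForm.heckeAlgebra.T hℓ hℓN hℓS)) ℓ
      (hεF ℓ hℓ hℓp A hAℓ τ hτ) (I.es ℓ hℓ hℓN hℓS A hAℓ τ hτ) j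
    refine ⟨lucasR (χ (CuspForm.heckeAlgebra.T hℓ hℓN hℓS)) (ℓ : O') j, ?_⟩
    rw [← hU]
    exact U_congr I ε _ g (τ ^ j)
      (h₁ _ fun y hy => hfix y ((le_sup_left : L₁ ≤ L₁ ⊔ L₂) hy))
      (h₁ _ fun y hy => hfix' y ((le_sup_left : L₁ ≤ L₁ ⊔ L₂) hy))
      (h₂ _ fun y hy => hfix y ((le_sup_right : L₂ ≤ L₁ ⊔ L₂) hy))
  have hUt : ∀ g : GQ, U I ε g = coef (U I ε g) • 1 := by
    intro g
    rw [← sub_eq_zero]
    apply eq_zero_of_sm I
    intro n
    obtain ⟨s, hs⟩ := hA g n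
    have h1 : coef (U I ε g) - s ∈ maximalIdeal O' ^ n := by
      have := coef_mem _ _ hs
      rwa [coef_sub, coef_smul_one] at this
    have e : U I ε g - coef (U I ε g) • 1 =
        (U I ε g - s • 1) - (coef (U I ε g) - s) • (1 : Module.End O' I.M) := by
      rw [sub_smul]; abel
    rw [e]
    exact hs.sub (Sm.of_mem h1 _)
  refine ⟨fun g => coef (U I ε g), fun g => rel_of_U_eq I ε g _ (hUt g), ?_⟩
  intro ℓ hℓ hℓN hℓS A hAℓ σ hσ
  have hℓp : ℓ ≠ p := fun h => hℓS (h ▸ hpS)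
  have h1 := U_eq_of_rel I ε σ (χ (CuspForm.heckeAlgebra.T hℓ hℓN hℓS)) (by
    rw [hεF ℓ hℓ hℓp A hAℓ σ hσ]
    exact I.es ℓ hℓ hℓN hℓS A hAℓ σ hσ)
  show coef (U I ε σ) = _
  rw [h1, coef_smul_one]

end Main

end Fermat.Agent.S30.L
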