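/-
S30 (item 92), block (L1), the character (helper4): the `p`-adic cyclotomic character with values
in a complete discrete valuation ring `O'` of residue characteristic `p`.
Branch origin/helper4.
-/
import Mathlib
import Fermat.Agent.S30.Contract
import Fermat.Agent.S29.Cyclo
import Fermat.Prelude.Def_GaloisRep_ComplexConjugation

set_option autoImplicit false
set_option linter.unusedSectionVars false
set_option linter.style.haveILetI false

open IsLocalRing

noncomputable section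

namespace Fermat.Agent.S30.L

/-! ### the ring homomorphism `ℤ_p → O'` -/

section Phi

variable (p : ℕ) [Fact p.Prime] (O' : Type) [CommRing O'] [IsLocalRing O']
  [IsAdicComplete (maximalIdeal O') O'] (hp : (p : O') ∈ maximalIdeal O')

include hp in
theorem ringChar_dvd_pow (n : ℕ) : ringChar (O' ⧸ maximalIdeal O' ^ n) ∣ p ^ n := by
  apply ringChar.dvd
  rw [Nat.cast_pow, ← map_natCast (Ideal.Quotient.mk (maximalIdeal O' ^ n)), ← map_pow,
    Ideal.Quotient.eq_zero_iff_mem]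
  exact Ideal.pow_mem_pow hp n

/-- level `n`. -/
def phiAux (n : ℕ) : ℤ_[p] →+* O' ⧸ maximalIdeal O' ^ n :=
  (ZMod.castHom (ringChar_dvd_pow p O' hp n) (O' ⧸ maximalIdeal O' ^ n)).comp
    (PadicInt.toZModPow n)

theorem phiAux_compat {m n : ℕ} (hle : m ≤ n) :
    (Ideal.Quotient.factorPow (maximalIdeal O') hle).comp (phiAux p O' hp n) =
      phiAux p O' hp m := by
  unfold phiAux
  rw [← PadicInt.zmod_cast_comp_toZModPow m n hle, ← RingHom.comp_assoc, ← RingHom.comp_assoc]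
  congr 1
  exact Subsingleton.elim _ _

/-- the ring homomorphism `ℤ_p → O'`. -/
def phi : ℤ_[p] →+* O' :=
  IsAdicComplete.liftRingHom (maximalIdeal O') (phiAux p O' hp)
    (fun hle => phiAux_compat p O' hp hle)

theorem mk_phi (n : ℕ) (x : ℤ_[p]) :
    Ideal.Quotient.mk (maximalIdeal O' ^ n) (phi p O' hp x) = phiAux p O' hp n x :=
  IsAdicComplete.mk_liftRingHom _ _ _ n x

theorem phi_sub_one_mem (n : ℕ) (x : ℤ_[p]) (hx : PadicInt.toZModPow n x = 1) :
    phi p O' hp x - 1 ∈ maximalIdeal O' ^ n := by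
  rw [← Ideal.Quotient.eq_zero_iff_mem, map_sub, map_one, mk_phi]
  show (ZMod.castHom (ringChar_dvd_pow p O' hp n) (O' ⧸ maximalIdeal O' ^ n))
    (PadicInt.toZModPow n x) - 1 = 0
  rw [hx, map_one, sub_self]

end Phi

/-! ### roots of unity of `p`-power order in a valuation ring -/

section Val

open Fermat.Agent.S29

variable {L : Type*} [Field L] (A : ValuationSubring L)

theorem pow_sub_one_mem {η : L} (hηA : η ∈ A) (h1 : η - 1 ∈ A.nonunits) (i : ℕ) :
    η ^ i - 1 ∈ A.nonunits := by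
  rw [← geom_sum_mul, A.mem_nonunits_iff, map_mul]
  have hS : (∑ j ∈ Finset.range i, η ^ j) ∈ A := sum_mem fun j _ => pow_mem hηA j
  have hS' : A.valuation (∑ j ∈ Finset.range i, η ^ j) ≤ 1 := (A.valuation_le_one_iff _).2 hS
  have h1' : A.valuation (η - 1) < 1 := A.mem_nonunits_iff.1 h1
  calc A.valuation (∑ j ∈ Finset.range i, η ^ j) * A.valuation (η - 1)
      ≤ 1 * A.valuation (η - 1) := mul_le_mul_left hS' _
    _ = A.valuation (η - 1) := one_mul _
    _ < 1 := h1'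

theorem eq_one_of_sub_one_mem_pow {p ℓ : ℕ} (hp : p.Prime) (hℓp : Nat.Coprime p ℓ)
    (hℓ : (ℓ : L) ∈ A.nonunits) : ∀ (n : ℕ) {η : L}, η ^ p ^ n = 1 → η - 1 ∈ A.nonunits → η = 1
  | 0, η, h, _ => by simpa using h
  | n + 1, η, h, h1 => by
    have hηA : η ∈ A := Cyc.mem_of_pow_eq_one A (pow_ne_zero _ hp.ne_zero) h
    have h2 : η ^ p - 1 ∈ A.nonunits := pow_sub_one_mem A hηA h1 p
    have h3 : η ^ p = 1 :=
      eq_one_of_sub_one_mem_pow hp hℓp hℓ n (by rw [← pow_mul, ← pow_succ']; exact h) h2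
    exact Cyc.eq_one_of_sub_one_mem A hp hℓp hℓ h3 h1

theorem eq_of_sub_mem_pow {p ℓ : ℕ} (hp : p.Prime) (hℓp : Nat.Coprime p ℓ)
    (hℓ : (ℓ : L) ∈ A.nonunits) (n : ℕ) {η η' : L} (hη : η ^ p ^ n = 1) (hη' : η' ^ p ^ n = 1)
    (h1 : η - η' ∈ A.nonunits) : η = η' := by
  have hpn : p ^ n ≠ 0 := pow_ne_zero _ hp.ne_zero
  have hη'0 : η' ≠ 0 := by
    rintro rfl
    rw [zero_pow hpn] at hη'
    exact zero_ne_one hη'
  have hinvA : η'⁻¹ ∈ A := Cyc.mem_of_pow_eq_one A hpn (by rw [inv_pow, hη', inv_one])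
  have h2 : η * η'⁻¹ - 1 ∈ A.nonunits := by
    have h3 : η * η'⁻¹ - 1 = η'⁻¹ * (η - η') := by field_simp
    rw [h3, A.mem_nonunits_iff, map_mul]
    calc A.valuation η'⁻¹ * A.valuation (η - η')
        ≤ 1 * A.valuation (η - η') := mul_le_mul_left ((A.valuation_le_one_iff _).2 hinvA) _
      _ = A.valuation (η - η') := one_mul _
      _ < 1 := A.mem_nonunits_iff.1 h1
  have h4 := eq_one_of_sub_one_mem_pow A hp hℓp hℓ n
    (by rw [mul_pow, inv_pow, hη, hη', inv_one, mul_one]) h2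
  field_simp at h4
  exact h4

end Val

section Dec

open Fermat.Agent.S29

variable (A : ValuationSubring (AlgebraicClosure ℚ))
variable {p ℓ : ℕ} (hp : p.Prime) (hℓp : Nat.Coprime p ℓ) (hA : A.LiesOverPrime ℓ)

include hp hℓp hA in
/-- a Frobenius element at `ℓ ≠ p` raises the `p^n`-th roots of unity to the power `ℓ`. -/
theorem frobenius_pow_pow {σ : AlgebraicClosure ℚ ≃ₐ[ℚ] AlgebraicClosure ℚ}
    (hσ : A.IsFrobeniusAt σ ℓ) (n : ℕ) {t : AlgebraicClosure ℚ} (ht : t ^ p ^ n = 1) :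
    σ t = t ^ ℓ := by
  obtain ⟨hd, hF⟩ := hσ
  have hpn : p ^ n ≠ 0 := pow_ne_zero _ hp.ne_zero
  have htA : t ∈ A := Cyc.mem_of_pow_eq_one A hpn ht
  have h0 : (⟨σ, hd⟩ : A.decompositionSubgroup ℚ) • residue A ⟨t, htA⟩ =
      residue A (⟨t, htA⟩ ^ ℓ) := by
    rw [hF, map_pow]
  have h1 := Cyc.smul_sub_mem_of_residue_eq A ⟨σ, hd⟩ ⟨t, htA⟩ (⟨t, htA⟩ ^ ℓ) h0
  exact eq_of_sub_mem_pow A hp hℓp hA n (by rw [← map_pow, ht, map_one])
    (by rw [← pow_mul, mul_comm, pow_mul, ht, one_pow]) h1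

end Dec

/-! ### the `p`-adic cyclotomic character of `G_ℚ` -/

section Eps

variable (p : ℕ) [Fact p.Prime]

/-- the `p`-adic cyclotomic character of `G_ℚ`. -/
def chiP : GQ →* ℤ_[p]ˣ :=
  (cyclotomicCharacter (AlgebraicClosure ℚ) p).comp
    (MulSemiringAction.toRingAut GQ (AlgebraicClosure ℚ))

theorem pow_val_natCast_gen {t : (AlgebraicClosure ℚ)ˣ} {m : ℕ} (ht : t ^ m = 1) (a : ℕ) :
    t ^ ((a : ZMod m)).val = t ^ a := by
  rw [ZMod.val_natCast]
  conv_rhs => rw [← Nat.mod_add_div a m]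
  rw [pow_add, pow_mul, ht, one_pow, mul_one]

theorem toZModPow_chiP_eq (g : GQ) (n : ℕ) (a : ℕ)
    (h : ∀ t : AlgebraicClosure ℚ, t ^ p ^ n = 1 → g t = t ^ a) :
    PadicInt.toZModPow n ((chiP p g : ℤ_[p]ˣ) : ℤ_[p]) = (a : ZMod (p ^ n)) := by
  haveI : NeZero (p ^ n) := ⟨pow_ne_zero _ (Fact.out : p.Prime).ne_zero⟩
  show PadicInt.toZModPow n ((cyclotomicCharacter (AlgebraicClosure ℚ) p
    (MulSemiringAction.toRingAut GQ (AlgebraicClosure ℚ) g)).val) = _
  rw [cyclotomicCharacter.toZModPow]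
  symm
  refine modularCyclotomicCharacter.unique (AlgebraicClosure ℚ)
    (HasEnoughRootsOfUnity.natCard_rootsOfUnity (AlgebraicClosure ℚ) (p ^ n)) _ ?_
  intro t ht
  have ht' : t ^ (p ^ n) = 1 := (mem_rootsOfUnity _ _).1 ht
  have ht'' : (t : AlgebraicClosure ℚ) ^ (p ^ n) = 1 := by
    rw [← Units.val_pow_eq_pow_val, ht', Units.val_one]
  have h1 := h (t : AlgebraicClosure ℚ) ht''
  rw [← Units.val_pow_eq_pow_val, pow_val_natCast_gen ht' a, Units.val_pow_eq_pow_val]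
  exact h1

theorem chiP_frob (ℓ : ℕ) (hℓ : ℓ.Prime) (hℓp : ℓ ≠ p)
    (A : ValuationSubring (AlgebraicClosure ℚ)) (hA : A.LiesOverPrime ℓ)
    (σ : GQ) (hσ : A.IsFrobeniusAt σ ℓ) :
    ((chiP p σ : ℤ_[p]ˣ) : ℤ_[p]) = (ℓ : ℤ_[p]) := by
  have hp : p.Prime := Fact.out
  have hcop : Nat.Coprime p ℓ := (Nat.coprime_primes hp hℓ).2 (Ne.symm hℓp)
  rw [← PadicInt.ext_of_toZModPow]
  intro n
  rw [toZModPow_chiP_eq p σ n ℓ (fun t ht => frobenius_pow_pow A hp hcop hA hσ n ht),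
    map_natCast]

theorem finiteDimensional_adjoin_roots_gen (m : ℕ) [NeZero m] :
    FiniteDimensional ℚ (IntermediateField.adjoin ℚ
      {t : AlgebraicClosure ℚ | t ^ m = 1}) := by
  have hfin : Set.Finite {t : AlgebraicClosure ℚ | t ^ m = 1} := by
    have hsub : {t : AlgebraicClosure ℚ | t ^ m = 1} ⊆
        ((Polynomial.nthRootsFinset m (1 : AlgebraicClosure ℚ) : Finset (AlgebraicClosure ℚ)) :
          Set (AlgebraicClosure ℚ)) := by
      intro t ht
      rw [Finset.mem_coe, Polynomial.mem_nthRootsFinset (NeZero.pos m)]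
      exact ht
    exact (Finset.finite_toSet _).subset hsub
  haveI : Finite {t : AlgebraicClosure ℚ | t ^ m = 1} := hfin
  refine IntermediateField.finiteDimensional_adjoin (fun x hx => ?_)
  have hx' : x ^ m = 1 := hx
  exact IsIntegral.of_pow (NeZero.pos m) (by rw [hx']; exact isIntegral_one)

theorem chiP_fix (n : ℕ) (σ : GQ)
    (hσ : ∀ x ∈ IntermediateField.adjoin ℚ {t : AlgebraicClosure ℚ | t ^ p ^ n = 1}, σ x = x) :
    PadicInt.toZModPow n ((chiP p σ : ℤ_[p]ˣ) : ℤ_[p]) = 1 := by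
  rw [toZModPow_chiP_eq p σ n 1 (fun t ht => by
    rw [pow_one]
    exact hσ t (IntermediateField.subset_adjoin ℚ _ ht)), Nat.cast_one]

/-- complex conjugation inverts the roots of unity. -/
theorem complexConjugation_mul_root {m : ℕ} (hm : m ≠ 0) {t : AlgebraicClosure ℚ}
    (ht : t ^ m = 1) : complexConjugation t * t = 1 := by
  apply complexEmbedding.toRingHom.injective
  show complexEmbedding (complexConjugation t * t) = complexEmbedding 1
  rw [map_mul, complexEmbedding_complexConjugation, map_one]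
  have h1 : (complexEmbedding t) ^ m = 1 := by rw [← map_pow, ht, map_one]
  have h2 : ‖complexEmbedding t‖ = 1 := Complex.norm_eq_one_of_pow_eq_one h1 hm
  rw [Complex.conj_mul', h2]
  simp

theorem chiP_conj : ((chiP p complexConjugation : ℤ_[p]ˣ) : ℤ_[p]) = -1 := by
  have hp : p.Prime := Fact.out
  rw [← PadicInt.ext_of_toZModPow]
  intro n
  have hpn : p ^ n ≠ 0 := pow_ne_zero _ hp.ne_zero
  rw [toZModPow_chiP_eq p complexConjugation n (p ^ n - 1) (fun t ht => by
    have h1 := complexConjugation_mul_root hpn ht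
    have h2 : t * t ^ (p ^ n - 1) = 1 := by
      rw [← pow_succ', Nat.sub_add_cancel (Nat.one_le_iff_ne_zero.2 hpn), ht]
    calc complexConjugation t = complexConjugation t * (t * t ^ (p ^ n - 1)) := by
          rw [h2, mul_one]
      _ = t ^ (p ^ n - 1) := by rw [← mul_assoc, h1, one_mul])]
  rw [map_neg, map_one, Nat.cast_sub (Nat.one_le_iff_ne_zero.2 hpn), Nat.cast_one,
    ZMod.natCast_self, zero_sub]

end Eps

end Fermat.Agent.S30.L
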