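/-
S30 (item 92), block (L1) (helper4): `l1Statement : L1Statement`.
The quadratic relation for ALL `g`, with the `p`-adic cyclotomic character `ε`, a trace function
`t`, and complex conjugation.  Branch origin/helper4.
-/
import Mathlib
import Fermat.Agent.S30.Contract
import Fermat.Agent.S30.L1Core
import Fermat.Agent.S30.L1Eps

set_option autoImplicit false
set_option linter.unusedSectionVars false
set_option linter.style.haveILetI false

open IsLocalRing

noncomputable section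

namespace Fermat.Agent.S30.L

section EpsO

variable (p : ℕ) [Fact p.Prime] (O' : Type) [CommRing O'] [IsLocalRing O']
  [IsAdicComplete (maximalIdeal O') O'] (hp : (p : O') ∈ maximalIdeal O')

/-- the cyclotomic character with values in `O'`. -/
def epsO : GQ →* O'ˣ :=
  (Units.map ((phi p O' hp : ℤ_[p] →+* O') : ℤ_[p] →* O')).comp (chiP p)

theorem coe_epsO (g : GQ) :
    ((epsO p O' hp g : O'ˣ) : O') = phi p O' hp ((chiP p g : ℤ_[p]ˣ) : ℤ_[p]) := rfl

theorem epsO_frob (ℓ : ℕ) (hℓ : ℓ.Prime) (hℓp : ℓ ≠ p)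
    (A : ValuationSubring (AlgebraicClosure ℚ)) (hA : A.LiesOverPrime ℓ)
    (σ : GQ) (hσ : A.IsFrobeniusAt σ ℓ) :
    ((epsO p O' hp σ : O'ˣ) : O') = (ℓ : O') := by
  rw [coe_epsO, chiP_frob p ℓ hℓ hℓp A hA σ hσ, map_natCast]

theorem epsO_cont (n : ℕ) :
    ∃ L : IntermediateField ℚ (AlgebraicClosure ℚ), FiniteDimensional ℚ L ∧
      ∀ σ : GQ, (∀ x ∈ L, σ x = x) →
        ((epsO p O' hp σ : O'ˣ) : O') - 1 ∈ IsLocalRing.maximalIdeal O' ^ n := by
  haveI : NeZero (p ^ n) := ⟨pow_ne_zero _ (Fact.out : p.Prime).ne_zero⟩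
  refine ⟨IntermediateField.adjoin ℚ {t : AlgebraicClosure ℚ | t ^ p ^ n = 1},
    finiteDimensional_adjoin_roots_gen (p ^ n), ?_⟩
  intro σ hσ
  rw [coe_epsO]
  exact phi_sub_one_mem p O' hp n _ (chiP_fix p n σ hσ)

theorem epsO_conj : ((epsO p O' hp complexConjugation : O'ˣ) : O') = -1 := by
  rw [coe_epsO, chiP_conj, map_neg, map_one]

end EpsO

/-- **block (L1)**. -/
theorem l1Statement : L1Statement := by
  intro p _ N _ S hpS O' _ _ _ _ _ _ hpO' χ I
  obtain ⟨t, ht1, ht2⟩ := exists_trace hpS I (epsO p O' hpO')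
    (fun ℓ hℓ hℓp A hA σ hσ => epsO_frob p O' hpO' ℓ hℓ hℓp A hA σ hσ)
    (epsO_cont p O' hpO')
  refine ⟨⟨epsO p O' hpO', t, ht1, ?_, epsO_cont p O' hpO',
    ⟨complexConjugation, complexConjugation_mul_self, epsO_conj p O' hpO'⟩⟩⟩
  intro ℓ hℓ hℓN hℓS A hA σ hσ
  have hℓp : ℓ ≠ p := fun h => hℓS (h ▸ hpS)
  exact ⟨epsO_frob p O' hpO' ℓ hℓ hℓp A hA σ hσ, ht2 ℓ hℓ hℓN hℓS A hA σ hσ⟩

end Fermat.Agent.S30.L
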