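/-
S30 (item 92), block (L2) (lead): the rank 2 piece, over ANY field of characteristic `≠ 2`.

`ρ : G →* End_K V`, `V ≠ 0` finite dimensional, every `g` satisfies
`ρ(g)² - t(g) ρ(g) + χ(g) = 0`, and `c ∈ G` with `c² = 1`, `χ(c) = -1` ("complex conjugation").
Then a minimal nonzero `G`-stable subspace `W` has dimension `≤ 2`
(`star_identity` with `h = c`: `(1 ± ρ c)` maps `W` into a line), and
* if `dim W = 2` the characteristic polynomial of `ρ(g)|W` is `X² - t(g) X + χ(g)`;
* if `dim W = 1` then `G` acts on `W` by a character `η` with `t = η + χ / η`.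
No algebraic closure and no extension of scalars is needed.
-/
import Fermat.Agent.S29.QuadRep

set_option autoImplicit false

open Polynomial Module

noncomputable section

namespace Fermat.Agent.S30.L2

open Fermat.Agent.S29.QuadRep

section CTrick

variable {K : Type*} [Field K] {G : Type*} [Group G] {W : Type*} [AddCommGroup W] [Module K W]

theorem rho_conj_sq (ρ : G →* Module.End K W) {c : G} (hc : c * c = 1) : ρ c * ρ c = 1 := by
  rw [← map_mul, hc, map_one]

/-- `t(c) = 0` for an involution `c` with `χ(c) = -1`. -/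
theorem t_conj_eq_zero [Nontrivial W] {ρ : G →* Module.End K W} {χ : G →* Kˣ} {c : G} {tc : K}
    (hc : c * c = 1) (hχ : ((χ c : Kˣ) : K) = -1) (H : QuadRel ρ χ c tc) : tc = 0 := by
  by_contra h
  have hcc : ρ c * ρ c = 1 := rho_conj_sq ρ hc
  unfold QuadRel at H
  rw [hcc, hχ] at H
  have h1 : tc • ρ c = 0 := by
    have e : (1 : Module.End K W) - tc • ρ c + (-1 : K) • (1 : Module.End K W)
        = - (tc • ρ c) := by
      rw [neg_one_smul]; abel
    rw [e] at H
    exact neg_eq_zero.mp H
  have h2 : ρ c = 0 := by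
    rcases smul_eq_zero.mp h1 with h' | h'
    · exact absurd h' h
    · exact h'
  rw [h2, mul_zero] at hcc
  obtain ⟨x, hx⟩ := exists_ne (0 : W)
  have := congrArg (fun f : Module.End K W => f x) hcc
  simp only [LinearMap.zero_apply, Module.End.one_apply] at this
  exact hx this.symm

/-- the anticommutator with `c`. -/
theorem anticomm_conj [Nontrivial W] {ρ : G →* Module.End K W} {χ : G →* Kˣ}
    (t : G → K) (H : ∀ g, QuadRel ρ χ g (t g))
    {c : G} (hc : c * c = 1) (hχ : ((χ c : Kˣ) : K) = -1) (h : G) :
    ρ h * ρ c + ρ c * ρ h = t (h * c) • (1 : Module.End K W) + t h • ρ c := by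
  have h0 : t c = 0 := t_conj_eq_zero hc hχ (H c)
  have := star_identity (H h) (H c) (H (h * c))
  rw [h0, mul_zero, sub_zero, zero_smul, add_zero] at this
  exact this

/-- **the c-trick**: if `ρ c v = s v` (`s = ±1`), `v ≠ 0`, then `1 + s ρ(c)` maps `W` into `K v`. -/
theorem range_le_span [Nontrivial W] {ρ : G →* Module.End K W} {χ : G →* Kˣ}
    (hs : IsSimpleRep ρ) (t : G → K) (H : ∀ g, QuadRel ρ χ g (t g))
    {c : G} (hc : c * c = 1) (hχ : ((χ c : Kˣ) : K) = -1) {s : K} (hs2 : s * s = 1)
    {v : W} (hv : v ≠ 0) (hcv : ρ c v = s • v) :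
    LinearMap.range ((1 : Module.End K W) + s • ρ c) ≤ Submodule.span K {v} := by
  rintro _ ⟨w, rfl⟩
  have hw : w ∈ orbitSpan ρ v := by
    rw [orbitSpan_eq_top hs hv]; exact Submodule.mem_top
  unfold orbitSpan at hw
  induction hw using Submodule.span_induction with
  | mem x hx =>
    obtain ⟨h, rfl⟩ := hx
    have e := congrArg (fun f : Module.End K W => f v) (anticomm_conj t H hc hχ h)
    simp only [LinearMap.add_apply, Module.End.mul_apply, LinearMap.smul_apply,
      Module.End.one_apply, hcv, map_smul] at e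
    -- e : s • ρ h v + ρ c (ρ h v) = t (h * c) • v + t h • s • v
    have e2 : ((1 : Module.End K W) + s • ρ c) (ρ h v)
        = (s * (t (h * c) + t h * s)) • v := by
      simp only [LinearMap.add_apply, Module.End.one_apply, LinearMap.smul_apply]
      have e3 : ρ c (ρ h v) = t (h * c) • v + t h • s • v - s • ρ h v := by
        rw [← e]; abel
      have hs2a : s • s • ρ h v = ρ h v := by rw [smul_smul, hs2, one_smul]
      rw [e3, smul_sub, hs2a]
      module
    show ((1 : Module.End K W) + s • ρ c) (ρ h v) ∈ Submodule.span K {v}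
    rw [e2]
    exact Submodule.smul_mem _ _ (Submodule.mem_span_singleton_self v)
  | zero => rw [map_zero]; exact Submodule.zero_mem _
  | add x y _ _ hx hy => rw [map_add]; exact Submodule.add_mem _ hx hy
  | smul a x _ hx => rw [map_smul]; exact Submodule.smul_mem _ a hx

theorem finrank_range_le_one [Nontrivial W] [FiniteDimensional K W] {ρ : G →* Module.End K W}
    {χ : G →* Kˣ}
    (hs : IsSimpleRep ρ) (t : G → K) (H : ∀ g, QuadRel ρ χ g (t g))
    {c : G} (hc : c * c = 1) (hχ : ((χ c : Kˣ) : K) = -1) {s : K} (hs2 : s * s = 1) :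
    finrank K (LinearMap.range ((1 : Module.End K W) + s • ρ c)) ≤ 1 := by
  by_cases hz : ∀ w : W, ((1 : Module.End K W) + s • ρ c) w = 0
  · have : LinearMap.range ((1 : Module.End K W) + s • ρ c) = ⊥ := by
      rw [eq_bot_iff]
      rintro _ ⟨w, rfl⟩
      rw [hz w]; exact Submodule.zero_mem _
    rw [this, finrank_bot]
    exact Nat.zero_le 1
  · obtain ⟨w₀, hw₀⟩ := not_forall.mp hz
    have hcc : ρ c * ρ c = 1 := rho_conj_sq ρ hc
    have hcc' : ∀ x : W, ρ c (ρ c x) = x := fun x => by
      have := congrArg (fun f : Module.End K W => f x) hcc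
      simpa using this
    have hcv : ρ c (((1 : Module.End K W) + s • ρ c) w₀)
        = s • (((1 : Module.End K W) + s • ρ c) w₀) := by
      simp only [LinearMap.add_apply, Module.End.one_apply, LinearMap.smul_apply, map_add,
        map_smul, hcc', smul_add, smul_smul, hs2, one_smul]
      abel
    have hle := range_le_span hs t H hc hχ hs2 hw₀ hcv
    calc finrank K (LinearMap.range ((1 : Module.End K W) + s • ρ c))
        ≤ finrank K (Submodule.span K {((1 : Module.End K W) + s • ρ c) w₀}) :=
          Submodule.finrank_mono hle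
      _ ≤ 1 := finrank_span_singleton hw₀ |>.le

/-- **dimension `≤ 2`** over any field of characteristic `≠ 2`. -/
theorem finrank_le_two_of_conj [Nontrivial W] [FiniteDimensional K W] (h2 : (2 : K) ≠ 0)
    {ρ : G →* Module.End K W} {χ : G →* Kˣ}
    (hs : IsSimpleRep ρ) (t : G → K) (H : ∀ g, QuadRel ρ χ g (t g))
    {c : G} (hc : c * c = 1) (hχ : ((χ c : Kˣ) : K) = -1) :
    finrank K W ≤ 2 := by
  have hA := finrank_range_le_one hs t H hc hχ (s := (1 : K)) (by norm_num)
  have hB := finrank_range_le_one hs t H hc hχ (s := (-1 : K)) (by norm_num)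
  have htop : (⊤ : Submodule K W) ≤
      LinearMap.range ((1 : Module.End K W) + (1 : K) • ρ c) ⊔
        LinearMap.range ((1 : Module.End K W) + (-1 : K) • ρ c) := by
    intro w _
    have e0 : (((1 : Module.End K W) + (1 : K) • ρ c) w)
        + (((1 : Module.End K W) + (-1 : K) • ρ c) w) = (2 : K) • w := by
      simp only [LinearMap.add_apply, Module.End.one_apply, LinearMap.neg_apply, one_smul,
        neg_smul]
      rw [two_smul]; abel
    have e : w = (2 : K)⁻¹ • (((1 : Module.End K W) + (1 : K) • ρ c) w)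
        + (2 : K)⁻¹ • (((1 : Module.End K W) + (-1 : K) • ρ c) w) := by
      rw [← smul_add, e0, smul_smul, inv_mul_cancel₀ h2, one_smul]
    rw [e]
    exact Submodule.add_mem_sup
      (Submodule.smul_mem _ _ (LinearMap.mem_range_self _ w))
      (Submodule.smul_mem _ _ (LinearMap.mem_range_self _ w))
  calc finrank K W = finrank K (⊤ : Submodule K W) := (finrank_top K W).symm
    _ ≤ finrank K ↥(LinearMap.range ((1 : Module.End K W) + (1 : K) • ρ c) ⊔
        LinearMap.range ((1 : Module.End K W) + (-1 : K) • ρ c)) := Submodule.finrank_mono htop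
    _ ≤ finrank K (LinearMap.range ((1 : Module.End K W) + (1 : K) • ρ c)) +
        finrank K (LinearMap.range ((1 : Module.End K W) + (-1 : K) • ρ c)) :=
          Submodule.finrank_add_le_finrank_add_finrank _ _
    _ ≤ 2 := by omega

end CTrick

section Sub

variable {K : Type*} [Field K] {G : Type*} [Group G] {V : Type*} [AddCommGroup V] [Module K V]

/-- restriction of a representation to a stable subspace. -/
def subRep (ρ : G →* Module.End K V) (W : Submodule K V) (hW : ∀ g : G, ∀ w ∈ W, ρ g w ∈ W) :
    G →* Module.End K W where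
  toFun g := (ρ g).restrict (hW g)
  map_one' := by
    ext w
    simp only [LinearMap.restrict_apply, map_one, Module.End.one_apply]
  map_mul' g h := by
    ext w
    simp only [LinearMap.restrict_apply, map_mul, Module.End.mul_apply]

theorem subRep_apply (ρ : G →* Module.End K V) (W : Submodule K V)
    (hW : ∀ g : G, ∀ w ∈ W, ρ g w ∈ W) (g : G) :
    subRep ρ W hW g = (ρ g).restrict (hW g) := rfl

theorem subRep_coe (ρ : G →* Module.End K V) (W : Submodule K V)
    (hW : ∀ g : G, ∀ w ∈ W, ρ g w ∈ W) (g : G) (w : W) :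
    ((subRep ρ W hW g w : W) : V) = ρ g (w : V) := rfl

theorem subRep_quadRel {ρ : G →* Module.End K V} {χ : G →* Kˣ} (W : Submodule K V)
    (hW : ∀ g : G, ∀ w ∈ W, ρ g w ∈ W) {g : G} {t : K} (H : QuadRel ρ χ g t) :
    QuadRel (subRep ρ W hW) χ g t := by
  unfold QuadRel at H ⊢
  ext w
  have := congrArg (fun f : Module.End K V => f (w : V)) H
  simp only [LinearMap.add_apply, LinearMap.sub_apply, Module.End.mul_apply,
    LinearMap.smul_apply, Module.End.one_apply, LinearMap.zero_apply] at this
  simp only [LinearMap.add_apply, LinearMap.sub_apply, Module.End.mul_apply,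
    LinearMap.smul_apply, Module.End.one_apply, LinearMap.zero_apply, Submodule.coe_add,
    Submodule.coe_sub, Submodule.coe_smul, subRep_coe, Submodule.coe_zero]
  exact this

/-- a minimal nonzero stable subspace is a simple representation. -/
theorem exists_simple_sub [FiniteDimensional K V] [Nontrivial V] (ρ : G →* Module.End K V) :
    ∃ (W : Submodule K V) (hW : ∀ g : G, ∀ w ∈ W, ρ g w ∈ W),
      W ≠ ⊥ ∧ IsSimpleRep (subRep ρ W hW) := by
  let S : Set (Submodule K V) := {W | W ≠ ⊥ ∧ ∀ g : G, ∀ w ∈ W, ρ g w ∈ W}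
  have hS : S.Nonempty := ⟨⊤, top_ne_bot, fun _ _ _ => Submodule.mem_top⟩
  obtain ⟨W, ⟨hW0, hW⟩, hmin⟩ := (wellFounded_lt (α := Submodule K V)).has_min S hS
  refine ⟨W, hW, hW0, ?_⟩
  intro U hU
  by_cases hU0 : U = ⊥
  · exact Or.inl hU0
  right
  have hmapS : U.map W.subtype ∈ S := by
    refine ⟨?_, ?_⟩
    · intro h
      apply hU0
      rw [eq_bot_iff]
      intro u hu
      have : (W.subtype u) ∈ U.map W.subtype := Submodule.mem_map_of_mem hu
      rw [h, Submodule.mem_bot] at this
      rw [Submodule.mem_bot]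
      exact Subtype.ext this
    · rintro g _ ⟨u, hu, rfl⟩
      exact ⟨subRep ρ W hW g u, hU g u hu, rfl⟩
  have hle : U.map W.subtype ≤ W := by
    rintro _ ⟨u, _, rfl⟩
    exact u.2
  have heq : U.map W.subtype = W := by
    rcases lt_or_eq_of_le hle with h | h
    · exact absurd h (hmin _ hmapS)
    · exact h
  rw [eq_top_iff]
  intro w _
  have : (w : V) ∈ U.map W.subtype := by rw [heq]; exact w.2
  obtain ⟨u, hu, huw⟩ := this
  have : u = w := Subtype.ext huw
  rw [← this]; exact hu

/-- **block (L2)**: a stable piece of dimension `2` with the right characteristic polynomials,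
or a stable line with character `η`, `t = η + χ / η`. -/
theorem exists_piece [FiniteDimensional K V] [Nontrivial V] (h2 : (2 : K) ≠ 0)
    (ρ : G →* Module.End K V) (χ : G →* Kˣ) (t : G → K) (H : ∀ g : G, QuadRel ρ χ g (t g))
    (c : G) (hc : c * c = 1) (hχ : ((χ c : Kˣ) : K) = -1) :
    ∃ (W : Submodule K V) (hW : ∀ g : G, ∀ w ∈ W, ρ g w ∈ W),
      (finrank K W = 2 ∧ ∀ g : G, LinearMap.charpoly ((ρ g).restrict (hW g)) =
          X ^ 2 - C (t g) * X + C ((χ g : Kˣ) : K)) ∨
      (finrank K W = 1 ∧ ∃ η : G →* Kˣ, (∀ g : G, ∀ w ∈ W, ρ g w = ((η g : Kˣ) : K) • w) ∧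
          ∀ g : G, t g = ((η g : Kˣ) : K) + ((χ g : Kˣ) : K) / ((η g : Kˣ) : K)) := by
  obtain ⟨W, hW, hW0, hs⟩ := exists_simple_sub ρ
  have HW : ∀ g : G, QuadRel (subRep ρ W hW) χ g (t g) := fun g => subRep_quadRel W hW (H g)
  have : Nontrivial W := Submodule.nontrivial_iff_ne_bot.mpr hW0
  have hle : finrank K W ≤ 2 := finrank_le_two_of_conj h2 hs t HW hc hχ
  have hpos : 0 < finrank K W := Module.finrank_pos
  refine ⟨W, hW, ?_⟩
  have h12 : finrank K W = 2 ∨ finrank K W = 1 := by omega
  rcases h12 with h | h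
  · left
    refine ⟨h, fun g => ?_⟩
    have := charpoly_eq hs t HW h g
    rw [subRep_apply] at this
    exact this
  · right
    refine ⟨h, ?_⟩
    obtain ⟨v, hv0, hv⟩ := finrank_eq_one_iff'.mp h
    -- the character
    have hex : ∀ g : G, ∃ a : K, a • v = subRep ρ W hW g v := fun g => hv _
    choose η₀ hη₀ using hex
    have hinj : ∀ a b : K, a • v = b • v → a = b := fun a b hab =>
      smul_left_injective K hv0 hab
    have hact : ∀ g : G, ∀ w : W, subRep ρ W hW g w = η₀ g • w := by
      intro g w
      obtain ⟨a, rfl⟩ := hv w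
      rw [map_smul, ← hη₀ g, smul_comm]
    have h1 : η₀ 1 = 1 := by
      apply hinj
      rw [hη₀, map_one, Module.End.one_apply, one_smul]
    have hmul : ∀ g h : G, η₀ (g * h) = η₀ g * η₀ h := by
      intro g h
      apply hinj
      rw [hη₀, map_mul, Module.End.mul_apply, hact h v, map_smul, hact g v, smul_smul,
        mul_comm]
    let η₁ : G →* K := { toFun := η₀, map_one' := h1, map_mul' := hmul }
    let η : G →* Kˣ := η₁.toHomUnits
    have hη : ∀ g : G, ((η g : Kˣ) : K) = η₀ g := fun g => rfl
    refine ⟨η, ?_, ?_⟩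
    · intro g w hw
      have := congrArg (fun x : W => (x : V)) (hact g ⟨w, hw⟩)
      simp only [subRep_coe, Submodule.coe_smul] at this
      rw [hη]; exact this
    · intro g
      have hq := HW g
      unfold QuadRel at hq
      have := congrArg (fun f : Module.End K W => f v) hq
      simp only [LinearMap.add_apply, LinearMap.sub_apply, Module.End.mul_apply,
        LinearMap.smul_apply, Module.End.one_apply, LinearMap.zero_apply, hact, smul_smul] at this
      rw [← sub_smul, ← add_smul] at this
      have hz : η₀ g * η₀ g - t g * η₀ g + ((χ g : Kˣ) : K) = 0 := by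
        rcases smul_eq_zero.mp this with h' | h'
        · exact h'
        · exact absurd h' hv0
      have hne : η₀ g ≠ 0 := by
        rw [← hη]; exact Units.ne_zero _
      rw [hη]
      field_simp
      linear_combination -hz

end Sub

end Fermat.Agent.S30.L2
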