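import Mathlib
import Fermat.Prelude.Def_GaloisRep_Adic

/-!
# S30 long shot (item 92), block (L3): lattice + packaging (helper9)

`O` a discrete valuation ring with fraction field `K`, `M` a finite free `O`-module with a
Galois action `ρ` (adic-continuous), `ι : M → V` an `O`-lattice in a `K`-vector space `V` with
a compatible `K`-linear action `ρK`, `W ⊆ V` a Galois-stable `K`-subspace of dimension `2`.
Then `M' := W ∩ M` is a Galois-stable saturated `O`-lattice of rank `2` in `W`, and
`(M', ρ|M')` is a `GaloisRepAdic O`; it is trivial wherever `ρ` is, and its characteristic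
polynomials are those of `ρK` on `W`.
-/

set_option autoImplicit false
set_option linter.unusedSectionVars false
set_option linter.style.haveILetI false

open Polynomial Module

noncomputable section

namespace Fermat.Agent.S30.L

local notation "GQ" => (AlgebraicClosure ℚ ≃ₐ[ℚ] AlgebraicClosure ℚ)

section Lattice

variable {O K : Type*} [CommRing O] [IsDomain O] [Field K] [Algebra O K] [IsFractionRing O K]
variable {M V : Type*} [AddCommGroup M] [Module O M] [AddCommGroup V] [Module K V] [Module O V]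
  [IsScalarTower O K V]

/-- the lattice `W ∩ M`. -/
def latt (ι : M →ₗ[O] V) (W : Submodule K V) : Submodule O M :=
  (W.restrictScalars O).comap ι

theorem mem_latt {ι : M →ₗ[O] V} {W : Submodule K V} {x : M} :
    x ∈ latt ι W ↔ ι x ∈ W := Iff.rfl

/-- `W ∩ M` is saturated in `M`. -/
theorem latt_saturated (ι : M →ₗ[O] V) (W : Submodule K V) {a : O} (ha : a ≠ 0) {x : M}
    (h : a • x ∈ latt ι W) : x ∈ latt ι W := by
  rw [mem_latt, map_smul] at h
  rw [mem_latt]
  have ha' : algebraMap O K a ≠ 0 := by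
    rw [Ne, IsFractionRing.to_map_eq_zero_iff (K := K)]
    exact ha
  have h2 : (algebraMap O K a)⁻¹ • (a • ι x) ∈ W := W.smul_mem _ h
  rwa [← algebraMap_smul K a (ι x), smul_smul, inv_mul_cancel₀ ha', one_smul] at h2

/-- the map `W ∩ M → W`. -/
def lattMap (ι : M →ₗ[O] V) (W : Submodule K V) : ↥(latt ι W) →ₗ[O] ↥W where
  toFun x := ⟨ι x, x.2⟩
  map_add' x y := Subtype.ext (map_add ι _ _)
  map_smul' a x := Subtype.ext (map_smul ι _ _)

@[simp] theorem coe_lattMap (ι : M →ₗ[O] V) (W : Submodule K V) (x : ↥(latt ι W)) :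
    ((lattMap ι W x : ↥W) : V) = ι x := rfl

theorem lattMap_injective {ι : M →ₗ[O] V} (hι : Function.Injective ι) (W : Submodule K V) :
    Function.Injective (lattMap ι W) := by
  intro x y h
  apply Subtype.ext
  apply hι
  exact congrArg Subtype.val h

/-- every element of `W` has a nonzero multiple in the image of `W ∩ M`. -/
theorem exists_smul_eq_lattMap {ι : M →ₗ[O] V}
    (hspan : ∀ v : V, ∃ a : O, a ≠ 0 ∧ a • v ∈ LinearMap.range ι) (W : Submodule K V)
    (w : ↥W) : ∃ (a : O) (x : ↥(latt ι W)), a ≠ 0 ∧ a • w = lattMap ι W x := by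
  obtain ⟨a, ha, m, hm⟩ := hspan (w : V)
  have hmW : m ∈ latt ι W := by
    rw [mem_latt, hm]
    exact (W.restrictScalars O).smul_mem a w.2
  exact ⟨a, ⟨m, hmW⟩, ha, Subtype.ext hm.symm⟩

section Basis

variable {ι : M →ₗ[O] V} (W : Submodule K V) {n : Type*} [Fintype n]
  (b : Basis n O ↥(latt ι W))

theorem linearIndependent_lattMap (hι : Function.Injective ι) :
    LinearIndependent K (fun i => lattMap ι W (b i)) := by
  rw [← LinearIndependent.iff_fractionRing O K]
  exact b.linearIndependent.map' (lattMap ι W) (LinearMap.ker_eq_bot.2 (lattMap_injective hι W))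

theorem span_lattMap (hspan : ∀ v : V, ∃ a : O, a ≠ 0 ∧ a • v ∈ LinearMap.range ι) :
    ⊤ ≤ Submodule.span K (Set.range fun i => lattMap ι W (b i)) := by
  intro w _
  obtain ⟨a, x, ha, hx⟩ := exists_smul_eq_lattMap hspan W w
  have ha' : algebraMap O K a ≠ 0 := by
    rw [Ne, IsFractionRing.to_map_eq_zero_iff (K := K)]
    exact ha
  have h1 : lattMap ι W x ∈ Submodule.span K (Set.range fun i => lattMap ι W (b i)) := by
    rw [← b.sum_repr x, map_sum]
    refine Submodule.sum_mem _ fun i _ => ?_
    rw [map_smul, ← algebraMap_smul K (b.repr x i) (lattMap ι W (b i))]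
    exact Submodule.smul_mem _ _ (Submodule.subset_span ⟨i, rfl⟩)
  have h2 : w = (algebraMap O K a)⁻¹ • (lattMap ι W x) := by
    rw [← hx, ← algebraMap_smul K a w, smul_smul, inv_mul_cancel₀ ha', one_smul]
  rw [h2]
  exact Submodule.smul_mem _ _ h1

/-- the `K`-basis of `W` given by an `O`-basis of `W ∩ M`. -/
def lattBasis (hι : Function.Injective ι)
    (hspan : ∀ v : V, ∃ a : O, a ≠ 0 ∧ a • v ∈ LinearMap.range ι) : Basis n K ↥W :=
  Basis.mk (linearIndependent_lattMap W b hι) (span_lattMap W b hspan)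

theorem lattBasis_apply (hι : Function.Injective ι)
    (hspan : ∀ v : V, ∃ a : O, a ≠ 0 ∧ a • v ∈ LinearMap.range ι) (i : n) :
    lattBasis W b hι hspan i = lattMap ι W (b i) := by
  rw [lattBasis, Basis.mk_apply]

theorem lattBasis_repr (hι : Function.Injective ι)
    (hspan : ∀ v : V, ∃ a : O, a ≠ 0 ∧ a • v ∈ LinearMap.range ι) (x : ↥(latt ι W)) (i : n) :
    (lattBasis W b hι hspan).repr (lattMap ι W x) i = algebraMap O K (b.repr x i) := by
  have hx : lattMap ι W x =
      ∑ j, (algebraMap O K (b.repr x j)) • lattBasis W b hι hspan j := by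
    conv_lhs => rw [← b.sum_repr x]
    rw [map_sum]
    refine Finset.sum_congr rfl fun j _ => ?_
    rw [map_smul, lattBasis_apply, algebraMap_smul]
  rw [hx, Basis.repr_sum_self]

include b in
theorem finrank_latt (hι : Function.Injective ι)
    (hspan : ∀ v : V, ∃ a : O, a ≠ 0 ∧ a • v ∈ LinearMap.range ι) :
    Module.finrank K ↥W = Fintype.card n :=
  Module.finrank_eq_card_basis (lattBasis W b hι hspan)

include b in
/-- characteristic polynomials on `W ∩ M` and on `W`. -/
theorem charpoly_latt [DecidableEq n] [Module.Finite O ↥(latt ι W)] [Module.Free O ↥(latt ι W)]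
    [FiniteDimensional K ↥W] (hι : Function.Injective ι)
    (hspan : ∀ v : V, ∃ a : O, a ≠ 0 ∧ a • v ∈ LinearMap.range ι)
    (f : ↥(latt ι W) →ₗ[O] ↥(latt ι W)) (fK : ↥W →ₗ[K] ↥W)
    (hf : ∀ x, fK (lattMap ι W x) = lattMap ι W (f x)) :
    fK.charpoly = f.charpoly.map (algebraMap O K) := by
  have hmat : LinearMap.toMatrix (lattBasis W b hι hspan) (lattBasis W b hι hspan) fK =
      (LinearMap.toMatrix b b f).map (algebraMap O K) := by
    ext i j
    rw [LinearMap.toMatrix_apply, Matrix.map_apply, LinearMap.toMatrix_apply, lattBasis_apply,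
      hf, lattBasis_repr]
  rw [← LinearMap.charpoly_toMatrix fK (lattBasis W b hι hspan), hmat, Matrix.charpoly_map,
    LinearMap.charpoly_toMatrix]

end Basis

end Lattice

section Main

variable {O : Type} [CommRing O] [IsDomain O] [IsDiscreteValuationRing O]
variable {K : Type*} [Field K] [Algebra O K] [IsFractionRing O K]
variable {M : Type} [AddCommGroup M] [Module O M] [Module.Finite O M] [Module.Free O M]
variable {V : Type*} [AddCommGroup V] [Module K V] [Module O V] [IsScalarTower O K V]
  [FiniteDimensional K V]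

/-- adic continuity passes to a saturated submodule. -/
theorem cont_latt (ι : M →ₗ[O] V) (W : Submodule K V)
    (ρ : GQ →* Module.End O M) (cont : GaloisActionIsAdicContinuous O ρ)
    (ρ' : GQ →* Module.End O ↥(latt ι W)) (hρ' : ∀ g x, ((ρ' g x : ↥(latt ι W)) : M) = ρ g x) :
    GaloisActionIsAdicContinuous O ρ' := by
  intro k
  obtain ⟨L, hL, h⟩ := cont k
  refine ⟨L, hL, fun σ hσ v => ?_⟩
  obtain ⟨ϖ, hϖ⟩ := IsDiscreteValuationRing.exists_irreducible O
  have hm : IsLocalRing.maximalIdeal O ^ k = Ideal.span {ϖ ^ k} := by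
    rw [hϖ.maximalIdeal_eq, Ideal.span_singleton_pow]
  have h1 := h σ hσ (v : M)
  rw [hm, Submodule.ideal_span_singleton_smul] at h1 ⊢
  obtain ⟨y, -, hy⟩ := h1
  have hy' : ϖ ^ k • y = ρ σ (v : M) - (v : M) := hy
  have hyW : y ∈ latt ι W := by
    refine latt_saturated ι W (pow_ne_zero k hϖ.ne_zero) ?_
    rw [hy', ← hρ']
    exact (latt ι W).sub_mem (ρ' σ v).2 v.2
  refine ⟨⟨y, hyW⟩, Submodule.mem_top, Subtype.ext ?_⟩
  show ϖ ^ k • y = ((ρ' σ v - v : ↥(latt ι W)) : M)
  rw [hy', Submodule.coe_sub, hρ']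

/-- **(L3)**: lattice + packaging. -/
theorem exists_galoisRepAdic (ι : M →ₗ[O] V) (hι : Function.Injective ι)
    (hspan : ∀ v : V, ∃ a : O, a ≠ 0 ∧ a • v ∈ LinearMap.range ι)
    (ρ : GQ →* Module.End O M) (cont : GaloisActionIsAdicContinuous O ρ)
    (ρK : GQ → Module.End K V) (hρ : ∀ g x, ρK g (ι x) = ι (ρ g x))
    (W : Submodule K V) (hW : ∀ g, ∀ w ∈ W, ρK g w ∈ W) (hdim : Module.finrank K W = 2) :
    ∃ r : GaloisRepAdic O, (∀ g, ρ g = 1 → r.ρ g = 1) ∧
      ∀ g (t d : O),
        LinearMap.charpoly ((ρK g).restrict (hW g)) =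
          X ^ 2 - C (algebraMap O K t) * X + C (algebraMap O K d) →
        LinearMap.charpoly (r.ρ g) = X ^ 2 - C t * X + C d := by
  classical
  have hstab : ∀ g, ∀ x ∈ latt ι W, ρ g x ∈ latt ι W := by
    intro g x hx
    rw [mem_latt] at hx ⊢
    rw [← hρ]
    exact hW g _ hx
  haveI : IsNoetherian O M := inferInstance
  haveI : Module.Finite O ↥(latt ι W) := inferInstance
  haveI : Module.Free O ↥(latt ι W) := inferInstance
  let ρ' : GQ →* Module.End O ↥(latt ι W) :=
    { toFun := fun g => (ρ g).restrict (hstab g)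
      map_one' := by
        ext x
        simp [map_one]
      map_mul' := fun g h => by
        ext x
        simp [map_mul] }
  have hρ' : ∀ g x, ((ρ' g x : ↥(latt ι W)) : M) = ρ g x := fun g x => rfl
  let b := Module.finBasis O ↥(latt ι W)
  have hrank : Module.finrank O ↥(latt ι W) = 2 := by
    have h := finrank_latt W b hι hspan
    rw [hdim, Fintype.card_fin] at h
    exact h.symm
  refine ⟨{ V := ↥(latt ι W), finrank_eq := hrank, ρ := ρ',
            isAdicContinuous := cont_latt ι W ρ cont ρ' hρ' }, ?_, ?_⟩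
  · intro g hg
    ext x
    show ρ g (x : M) = x
    rw [hg]
    rfl
  · intro g t d h
    have hc := charpoly_latt W b hι hspan (ρ' g) ((ρK g).restrict (hW g)) (by
      intro x
      apply Subtype.ext
      show ρK g (ι x) = ι (ρ g x)
      exact hρ g x)
    rw [hc] at h
    apply Polynomial.map_injective (algebraMap O K) (IsFractionRing.injective O K)
    rw [h]
    simp

end Main

end Fermat.Agent.S30.L
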