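import Mathlib
import Fermat.Agent.S30.L3

/-!
# S30 long shot (item 92), block (L3), LINE case (helper9)

from a Galois-stable line with character `η` (and `t = η + ε / η`) to the representation
`diag(η, ε / η)` on `O²`.
-/

set_option autoImplicit false
set_option linter.unusedSectionVars false
set_option linter.style.haveILetI false

open Polynomial Module

noncomputable section

namespace Fermat.Agent.S30.L

local notation "GQ" => (AlgebraicClosure ℚ ≃ₐ[ℚ] AlgebraicClosure ℚ)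

section Diag

variable {O : Type} [CommRing O] [IsDomain O] [IsDiscreteValuationRing O]

/-- adic continuity of a character. -/
def CharCont (χ : GQ →* Oˣ) : Prop :=
  ∀ n : ℕ, ∃ L : IntermediateField ℚ (AlgebraicClosure ℚ), FiniteDimensional ℚ L ∧
    ∀ σ : GQ, (∀ x ∈ L, σ x = x) → ((χ σ : Oˣ) : O) - 1 ∈ IsLocalRing.maximalIdeal O ^ n

theorem CharCont.div {χ ψ : GQ →* Oˣ} (h1 : CharCont χ) (h2 : CharCont ψ) :
    CharCont (χ / ψ) := by
  intro n
  obtain ⟨L1, hL1, H1⟩ := h1 n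
  obtain ⟨L2, hL2, H2⟩ := h2 n
  refine ⟨L1 ⊔ L2, IntermediateField.finiteDimensional_sup L1 L2, fun σ hσ => ?_⟩
  have e1 := H1 σ (fun x hx => hσ x ((le_sup_left : L1 ≤ L1 ⊔ L2) hx))
  have e2 := H2 σ (fun x hx => hσ x ((le_sup_right : L2 ≤ L1 ⊔ L2) hx))
  have : (((χ / ψ) σ : Oˣ) : O) - 1 =
      (((ψ σ)⁻¹ : Oˣ) : O) * ((((χ σ : Oˣ) : O) - 1) - (((ψ σ : Oˣ) : O) - 1)) := by
    rw [MonoidHom.div_apply, div_eq_mul_inv, Units.val_mul]
    have hu : (((ψ σ)⁻¹ : Oˣ) : O) * ((ψ σ : Oˣ) : O) = 1 := Units.inv_mul _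
    linear_combination (1 : O) * hu
  rw [this]
  exact Ideal.mul_mem_left _ _ (Ideal.sub_mem _ e1 e2)

/-- the diagonal. -/
def diagD (χ₁ χ₂ : GQ →* Oˣ) : GQ →* (Fin 2 → O) where
  toFun g := ![((χ₁ g : Oˣ) : O), ((χ₂ g : Oˣ) : O)]
  map_one' := by
    ext i
    fin_cases i <;> simp
  map_mul' g h := by
    ext i
    fin_cases i <;> simp

/-- the diagonal representation. -/
def diagRep (χ₁ χ₂ : GQ →* Oˣ) : GQ →* Module.End O (Fin 2 → O) :=
  (Algebra.lmul O (Fin 2 → O)).toRingHom.toMonoidHom.comp (diagD χ₁ χ₂)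

theorem diagRep_apply (χ₁ χ₂ : GQ →* Oˣ) (g : GQ) (v : Fin 2 → O) :
    diagRep χ₁ χ₂ g v = diagD χ₁ χ₂ g * v := rfl

theorem mem_smul_top_pi (I : Ideal O) (x : Fin 2 → O) (hx : ∀ i, x i ∈ I) :
    x ∈ I • (⊤ : Submodule O (Fin 2 → O)) := by
  rw [pi_eq_sum_univ x]
  exact Submodule.sum_mem _ fun i _ => Submodule.smul_mem_smul (hx i) Submodule.mem_top

theorem diagRep_cont {χ₁ χ₂ : GQ →* Oˣ} (h1 : CharCont χ₁) (h2 : CharCont χ₂) :
    GaloisActionIsAdicContinuous O (diagRep χ₁ χ₂) := by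
  intro n
  obtain ⟨L1, hL1, H1⟩ := h1 n
  obtain ⟨L2, hL2, H2⟩ := h2 n
  refine ⟨L1 ⊔ L2, IntermediateField.finiteDimensional_sup L1 L2, fun σ hσ v => ?_⟩
  have e1 := H1 σ (fun x hx => hσ x ((le_sup_left : L1 ≤ L1 ⊔ L2) hx))
  have e2 := H2 σ (fun x hx => hσ x ((le_sup_right : L2 ≤ L1 ⊔ L2) hx))
  apply mem_smul_top_pi
  intro i
  have : (diagRep χ₁ χ₂ σ v - v) i = (diagD χ₁ χ₂ σ i - 1) * v i := by
    rw [Pi.sub_apply, diagRep_apply, Pi.mul_apply]
    ring
  rw [this]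
  refine Ideal.mul_mem_right _ _ ?_
  fin_cases i
  · exact e1
  · exact e2

theorem diagRep_charpoly (χ₁ χ₂ : GQ →* Oˣ) (g : GQ) :
    LinearMap.charpoly (diagRep χ₁ χ₂ g) =
      X ^ 2 - C (((χ₁ g : Oˣ) : O) + ((χ₂ g : Oˣ) : O)) * X
        + C (((χ₁ g : Oˣ) : O) * ((χ₂ g : Oˣ) : O)) := by
  classical
  have hmat : LinearMap.toMatrix (Pi.basisFun O (Fin 2)) (Pi.basisFun O (Fin 2))
      (diagRep χ₁ χ₂ g) = !![((χ₁ g : Oˣ) : O), 0; 0, ((χ₂ g : Oˣ) : O)] := by
    ext i j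
    rw [LinearMap.toMatrix_apply, Pi.basisFun_apply, Pi.basisFun_repr, diagRep_apply,
      Pi.mul_apply]
    fin_cases i <;> fin_cases j <;> simp [diagD]
  rw [← LinearMap.charpoly_toMatrix (diagRep χ₁ χ₂ g) (Pi.basisFun O (Fin 2)), hmat,
    Matrix.charpoly_fin_two, Matrix.trace_fin_two, Matrix.det_fin_two]
  simp

/-- the diagonal representation as a `GaloisRepAdic`. -/
def diagGaloisRepAdic (χ₁ χ₂ : GQ →* Oˣ) (h1 : CharCont χ₁) (h2 : CharCont χ₂) :
    GaloisRepAdic O where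
  V := Fin 2 → O
  finrank_eq := by rw [Module.finrank_fin_fun]
  ρ := diagRep χ₁ χ₂
  isAdicContinuous := diagRep_cont h1 h2

theorem diagRep_eq_one {χ₁ χ₂ : GQ →* Oˣ} {g : GQ} (h1 : χ₁ g = 1) (h2 : χ₂ g = 1) :
    diagRep χ₁ χ₂ g = 1 := by
  refine LinearMap.ext fun v => funext fun i => ?_
  rw [diagRep_apply, Pi.mul_apply, Module.End.one_apply]
  fin_cases i <;> simp [diagD, h1, h2]

end Diag

section Line

variable {O : Type} [CommRing O] [IsDomain O] [IsDiscreteValuationRing O]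
variable {K : Type*} [Field K] [Algebra O K] [IsFractionRing O K]
variable {M : Type} [AddCommGroup M] [Module O M] [Module.Finite O M] [Module.Free O M]
variable {V : Type*} [AddCommGroup V] [Module K V] [Module O V] [IsScalarTower O K V]

/-- a character with an integral eigenvector is continuous, and trivial where `ρ` is. -/
theorem charCont_of_eigen (ρ : GQ →* Module.End O M) (cont : GaloisActionIsAdicContinuous O ρ)
    (m : M) (hm : m ≠ 0) (η₀ : GQ →* Oˣ) (hη : ∀ g, ρ g m = ((η₀ g : Oˣ) : O) • m) :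
    CharCont η₀ ∧ ∀ g, ρ g = 1 → η₀ g = 1 := by
  classical
  let b := Module.Free.chooseBasis O M
  have hex : ∃ i, b.repr m i ≠ 0 := by
    by_contra h
    push Not at h
    apply hm
    apply b.repr.injective
    ext i
    rw [h i]
    simp
  obtain ⟨i, hi⟩ := hex
  have hcoord : ∀ g, b.repr (ρ g m) i = ((η₀ g : Oˣ) : O) * b.repr m i := by
    intro g
    rw [hη, map_smul, Finsupp.smul_apply, smul_eq_mul]
  refine ⟨?_, ?_⟩
  · intro n
    obtain ⟨ϖ, hϖ⟩ := IsDiscreteValuationRing.exists_irreducible O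
    obtain ⟨k, hk⟩ := IsDiscreteValuationRing.associated_pow_irreducible hi hϖ
    obtain ⟨u, hu⟩ := hk
    obtain ⟨L, hL, h⟩ := cont (n + k)
    refine ⟨L, hL, fun σ hσ => ?_⟩
    have h1 := h σ hσ m
    have hm' : IsLocalRing.maximalIdeal O ^ (n + k) = Ideal.span {ϖ ^ (n + k)} := by
      rw [hϖ.maximalIdeal_eq, Ideal.span_singleton_pow]
    rw [hm', Submodule.ideal_span_singleton_smul] at h1
    obtain ⟨y, -, hy⟩ := h1
    have hy' : ϖ ^ (n + k) • y = ρ σ m - m := hy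
    have h2 : ϖ ^ (n + k) * b.repr y i = (((η₀ σ : Oˣ) : O) - 1) * b.repr m i := by
      have := congrArg (fun z => b.repr z i) hy'
      simp only [map_smul, Finsupp.smul_apply, smul_eq_mul, map_sub, Finsupp.sub_apply] at this
      rw [this, hcoord]
      ring
    have h3 : (((η₀ σ : Oˣ) : O) - 1) = ϖ ^ n * (b.repr y i * (u : O)) := by
      have hk0 : ϖ ^ k ≠ 0 := pow_ne_zero k hϖ.ne_zero
      apply mul_left_cancel₀ hk0
      linear_combination (-(u : O)) * h2 - (((η₀ σ : Oˣ) : O) - 1) * hu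
    rw [hϖ.maximalIdeal_eq, Ideal.span_singleton_pow, Ideal.mem_span_singleton]
    exact ⟨_, h3⟩
  · intro g hg
    have h := hcoord g
    rw [hg, Module.End.one_apply] at h
    have h4 : (((η₀ g : Oˣ) : O) - 1) * b.repr m i = 0 := by
      rw [sub_mul, one_mul, ← h, sub_self]
    rcases mul_eq_zero.1 h4 with h | h
    · exact Units.ext (sub_eq_zero.1 h)
    · exact absurd h hi

/-- **(L3), LINE case**: `diag(η, ε / η)`. -/
theorem exists_galoisRepAdic_of_line (ι : M →ₗ[O] V) (hι : Function.Injective ι)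
    (hspan : ∀ v : V, ∃ a : O, a ≠ 0 ∧ a • v ∈ LinearMap.range ι)
    (ρ : GQ →* Module.End O M) (cont : GaloisActionIsAdicContinuous O ρ)
    (ρK : GQ → Module.End K V) (hρ : ∀ g x, ρK g (ι x) = ι (ρ g x))
    (W : Submodule K V) (hdim : Module.finrank K W = 1)
    (η : GQ →* Kˣ) (hη : ∀ g, ∀ w ∈ W, ρK g w = ((η g : Kˣ) : K) • w)
    (t : GQ → O) (ε : GQ →* Oˣ)
    (ht : ∀ g, algebraMap O K (t g) =
      ((η g : Kˣ) : K) + algebraMap O K ((ε g : Oˣ) : O) / ((η g : Kˣ) : K))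
    (hεc : CharCont ε) :
    ∃ r : GaloisRepAdic O, (∀ g, ρ g = 1 → ε g = 1 → r.ρ g = 1) ∧
      ∀ g, LinearMap.charpoly (r.ρ g) = X ^ 2 - C (t g) * X + C ((ε g : Oˣ) : O) := by
  have hinj := IsFractionRing.injective O K
  -- integrality
  have hint : ∀ g, ∃ y : O, algebraMap O K y = ((η g : Kˣ) : K) := by
    intro g
    apply IsIntegrallyClosed.algebraMap_eq_of_integral
    refine ⟨X ^ 2 + (C (-(t g)) * X + C ((ε g : Oˣ) : O)),
      Polynomial.monic_X_pow_add (lt_of_le_of_lt (Polynomial.degree_linear_le) (by norm_num)), ?_⟩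
    have hne : ((η g : Kˣ) : K) ≠ 0 := (η g).ne_zero
    have h : algebraMap O K (t g) * ((η g : Kˣ) : K) =
        ((η g : Kˣ) : K) * ((η g : Kˣ) : K) + algebraMap O K ((ε g : Oˣ) : O) := by
      rw [ht g, add_mul, div_mul_cancel₀ _ hne]
    simp only [eval₂_add, eval₂_mul, eval₂_pow, eval₂_X, eval₂_C, map_neg, eval₂_neg]
    linear_combination (-1 : K) * h
  choose η₀f hη₀f using hint
  let η₀m : GQ →* O :=
    { toFun := η₀f
      map_one' := hinj (by rw [hη₀f, map_one, map_one]; rfl)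
      map_mul' := fun g h => hinj (by rw [hη₀f, map_mul, map_mul, hη₀f, hη₀f]; rfl) }
  let η₀ : GQ →* Oˣ := η₀m.toHomUnits
  have hη₀ : ∀ g, algebraMap O K ((η₀ g : Oˣ) : O) = ((η g : Kˣ) : K) := fun g => hη₀f g
  -- eigenvector
  haveI : Nontrivial ↥W := Module.nontrivial_of_finrank_pos (R := K) (by rw [hdim]; norm_num)
  obtain ⟨w, hw⟩ := exists_ne (0 : ↥W)
  obtain ⟨a, x, ha, hx⟩ := exists_smul_eq_lattMap hspan W w
  have hx0 : (x : M) ≠ 0 := by
    intro h0
    have ha' : algebraMap O K a ≠ 0 := by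
      rw [Ne, IsFractionRing.to_map_eq_zero_iff (K := K)]
      exact ha
    have h1 : lattMap ι W x = 0 := by
      apply Subtype.ext
      rw [coe_lattMap, h0, map_zero]
      rfl
    rw [← hx, ← algebraMap_smul K a w] at h1
    exact hw ((smul_eq_zero.1 h1).resolve_left ha')
  have heig : ∀ g, ρ g (x : M) = ((η₀ g : Oˣ) : O) • (x : M) := by
    intro g
    apply hι
    rw [← hρ, hη g _ (mem_latt.1 x.2), map_smul, ← hη₀, algebraMap_smul]
  obtain ⟨hc, h1⟩ := charCont_of_eigen ρ cont (x : M) hx0 η₀ heig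
  refine ⟨diagGaloisRepAdic η₀ (ε / η₀) hc (hεc.div hc), ?_, ?_⟩
  · intro g hg hε
    exact diagRep_eq_one (h1 g hg) (by rw [MonoidHom.div_apply, hε, h1 g hg, div_one])
  · intro g
    show LinearMap.charpoly (diagRep η₀ (ε / η₀) g) = _
    rw [diagRep_charpoly]
    have hdet : ((η₀ g : Oˣ) : O) * (((ε / η₀) g : Oˣ) : O) = ((ε g : Oˣ) : O) := by
      rw [← Units.val_mul, MonoidHom.div_apply, mul_div_cancel]
    have htr : ((η₀ g : Oˣ) : O) + (((ε / η₀) g : Oˣ) : O) = t g := by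
      apply hinj
      rw [map_add, ht g, hη₀]
      congr 1
      rw [eq_div_iff (η g).ne_zero, ← hη₀, ← map_mul, mul_comm, hdet]
    rw [hdet, htr]

end Line

end Fermat.Agent.S30.L
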