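import Mathlib
import Fermat.Agent.S30.Contract
import Fermat.Agent.S30.L2
import Fermat.Agent.S30.L3
import Fermat.Agent.S30.L3Line

/-!
# S30 long shot (item 92), block (L): ASSEMBLY of L1 + L2 + L3 (helper9)

`s30ConclSame_of_L1`: from an `LInput` with the output of (L1) (`ε`, `t`, the quadratic relation
for all `g`, values at Frobenius, continuity of `ε`, complex conjugation, `ε` unramified outside
`p`) to the conclusion of S30 with `O'' = O'`.
-/

set_option autoImplicit false
set_option linter.unusedSectionVars false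
set_option linter.style.haveILetI false

open Polynomial Module TensorProduct

noncomputable section

namespace Fermat.Agent.S30.LA

open Fermat.Agent.S30.L Fermat.Agent.S29.QuadRep

section BaseChange

variable {O : Type} [CommRing O] [IsDomain O]
variable (K : Type) [Field K] [Algebra O K] [IsFractionRing O K]
variable {M : Type} [AddCommGroup M] [Module O M] [Module.Finite O M] [Module.Free O M]

/-- the lattice map `M → K ⊗ M`. -/
def iotaK : M →ₗ[O] K ⊗[O] M := TensorProduct.mk O K M 1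

theorem iotaK_apply (x : M) : iotaK K x = (1 : K) ⊗ₜ[O] x := rfl

theorem iotaK_injective : Function.Injective (iotaK K (O := O) (M := M)) := by
  classical
  rw [injective_iff_map_eq_zero]
  intro x hx
  let b := Module.Free.chooseBasis O M
  apply b.repr.injective
  ext i
  have h := congrArg (fun z => (Algebra.TensorProduct.basis K b).repr z i) hx
  simp only [iotaK_apply, Algebra.TensorProduct.basis_repr_tmul, map_zero,
    Finsupp.zero_apply, one_smul] at h
  rw [map_zero, Finsupp.zero_apply]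
  exact (IsFractionRing.injective O K) (by rw [map_zero]; simpa using h)

theorem iotaK_span (v : K ⊗[O] M) :
    ∃ a : O, a ≠ 0 ∧ a • v ∈ LinearMap.range (iotaK K (O := O) (M := M)) := by
  induction v using TensorProduct.induction_on with
  | zero => exact ⟨1, one_ne_zero, by rw [smul_zero]; exact zero_mem _⟩
  | tmul k m =>
    obtain ⟨⟨n, d⟩, h⟩ := IsLocalization.surj (nonZeroDivisors O) k
    refine ⟨(d : O), nonZeroDivisors.ne_zero d.2, n • m, ?_⟩
    have h' : k * algebraMap O K (d : O) = algebraMap O K n := h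
    rw [iotaK_apply, TensorProduct.tmul_smul, TensorProduct.smul_tmul', TensorProduct.smul_tmul',
      Algebra.smul_def, mul_one, Algebra.smul_def, ← h', mul_comm]
  | add x y hx hy =>
    obtain ⟨a, ha, x', hx'⟩ := hx
    obtain ⟨b, hb, y', hy'⟩ := hy
    refine ⟨a * b, mul_ne_zero ha hb, b • x' + a • y', ?_⟩
    rw [map_add, map_smul, map_smul, hx', hy', smul_add, smul_smul, smul_smul, mul_comm b a]

/-- the base change of the action. -/
def rhoK (ρ : GQ →* Module.End O M) : GQ →* Module.End K (K ⊗[O] M) where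
  toFun g := (ρ g).baseChange K
  map_one' := by rw [map_one, LinearMap.baseChange_one]
  map_mul' g h := by rw [map_mul, LinearMap.baseChange_mul]

theorem rhoK_iotaK (ρ : GQ →* Module.End O M) (g : GQ) (x : M) :
    rhoK K ρ g (iotaK K x) = iotaK K (ρ g x) := by
  rw [iotaK_apply, iotaK_apply]
  exact LinearMap.baseChange_tmul _ _ _

theorem rhoK_quadRel (ρ : GQ →* Module.End O M) (ε : GQ →* Oˣ) (t : GQ → O) (g : GQ)
    (hrel : ρ g * ρ g - t g • ρ g + ((ε g : Oˣ) : O) • (1 : Module.End O M) = 0) :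
    QuadRel (rhoK K ρ) ((Units.map (algebraMap O K : O →* K)).comp ε) g (algebraMap O K (t g)) := by
  unfold QuadRel
  have h := congrArg (fun f : Module.End O M => f.baseChange K) hrel
  simp only [LinearMap.baseChange_add, LinearMap.baseChange_sub, LinearMap.baseChange_smul,
    LinearMap.baseChange_zero] at h
  have e1 : (ρ g * ρ g).baseChange K = rhoK K ρ g * rhoK K ρ g := LinearMap.baseChange_mul _ _
  have e2 : (ρ g).baseChange K = rhoK K ρ g := rfl
  have e3 : (1 : Module.End O M).baseChange K = (1 : Module.End K (K ⊗[O] M)) :=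
    LinearMap.baseChange_one _ _
  rw [e1, e2, e3] at h
  have e4 : algebraMap O K (t g) • rhoK K ρ g = t g • rhoK K ρ g := algebraMap_smul K _ _
  have e5 : ((((Units.map (algebraMap O K : O →* K)).comp ε) g : Kˣ) : K) •
      (1 : Module.End K (K ⊗[O] M)) = ((ε g : Oˣ) : O) • (1 : Module.End K (K ⊗[O] M)) :=
    algebraMap_smul K _ _
  rw [e4, e5]
  exact h

end BaseChange

section Main

variable {p : ℕ} {N : ℕ} [NeZero N] {S : Finset ℕ}
  {O' : Type} [CommRing O'] [IsDomain O'] [IsDiscreteValuationRing O'] [CharZero O']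
  {χ : CuspForm.heckeAlgebra N 2 (↑S : Set ℕ) →+* O'}

/-- **block (L)**, assembly: from the output of (L1) to the conclusion of S30. -/
theorem s30ConclSame_of_L1 (I : LInput p N S O' χ) (ε : GQ →* O'ˣ) (t : GQ → O')
    (hrel : ∀ g : GQ, I.ρ g * I.ρ g - t g • I.ρ g + ((ε g : O'ˣ) : O') • 1 = 0)
    (hfrob : ∀ (ℓ : ℕ) (hℓ : ℓ.Prime) (hℓN : ¬ ℓ ∣ N) (hℓS : ℓ ∉ (↑S : Set ℕ)),
      ∀ A : ValuationSubring (AlgebraicClosure ℚ), A.LiesOverPrime ℓ →
        ∀ σ : GQ, A.IsFrobeniusAt σ ℓ →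
          ((ε σ : O'ˣ) : O') = (ℓ : O') ∧ t σ = χ (CuspForm.heckeAlgebra.T hℓ hℓN hℓS))
    (hcont : ∀ n : ℕ, ∃ L : IntermediateField ℚ (AlgebraicClosure ℚ), FiniteDimensional ℚ L ∧
      ∀ σ : GQ, (∀ x ∈ L, σ x = x) →
        ((ε σ : O'ˣ) : O') - 1 ∈ IsLocalRing.maximalIdeal O' ^ n)
    (hc : ∃ c : GQ, c * c = 1 ∧ ((ε c : O'ˣ) : O') = -1)
    (hur : ∀ q : ℕ, q.Prime → ¬ q ∣ N → q ≠ p →
      ∀ P : ValuationSubring (AlgebraicClosure ℚ), P.LiesOverPrime q →
        ∀ σ ∈ P.inertiaSubgroupIn ℚ, ε σ = 1) :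
    S30ConclSame p N S O' χ := by
  classical
  let K := FractionRing O'
  haveI : CharZero K := charZero_of_injective_algebraMap (IsFractionRing.injective O' K)
  have h2 : (2 : K) ≠ 0 := two_ne_zero
  have hι := iotaK_injective (O := O') K (M := I.M)
  haveI : Nontrivial (K ⊗[O'] I.M) := by
    obtain ⟨x, hx⟩ := exists_ne (0 : I.M)
    exact ⟨⟨iotaK K x, 0, fun h => hx (hι (by rw [h, map_zero]))⟩⟩
  obtain ⟨c, hcc, hεc⟩ := hc
  have hχc : ((((Units.map (algebraMap O' K : O' →* K)).comp ε) c : Kˣ) : K) = -1 := by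
    show algebraMap O' K ((ε c : O'ˣ) : O') = -1
    rw [hεc, map_neg, map_one]
  obtain ⟨W, hW, hcase⟩ := Fermat.Agent.S30.L2.exists_piece h2 (rhoK K I.ρ)
    ((Units.map (algebraMap O' K : O' →* K)).comp ε) (fun g => algebraMap O' K (t g))
    (fun g => rhoK_quadRel K I.ρ ε t g (hrel g)) c hcc hχc
  have hfin : ∀ (r : GaloisRepAdic O'),
      (∀ g, I.ρ g = 1 → ε g = 1 → r.ρ g = 1) →
      (∀ g, LinearMap.charpoly (r.ρ g) = X ^ 2 - C (t g) * X + C ((ε g : O'ˣ) : O')) →
      S30ConclSame p N S O' χ := by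
    intro r h1 h2
    refine ⟨r, ?_, ?_⟩
    · intro ℓ hℓ hℓN hℓS A hA σ hσ
      obtain ⟨e1, e2⟩ := hfrob ℓ hℓ hℓN hℓS A hA σ hσ
      rw [h2 σ, e1, e2]
    · intro q hq hqN hqp P hP σ hσ
      exact h1 σ (I.ur q hq hqN hqp P hP σ hσ) (hur q hq hqN hqp P hP σ hσ)
  rcases hcase with ⟨hdim, hch⟩ | ⟨hdim, η, hη, ht⟩
  · obtain ⟨r, h1, h2⟩ := exists_galoisRepAdic (iotaK K) hι (iotaK_span K) I.ρ I.cont
      (fun g => rhoK K I.ρ g) (rhoK_iotaK K I.ρ) W hW hdim
    exact hfin r (fun g hg _ => h1 g hg) (fun g => h2 g (t g) ((ε g : O'ˣ) : O') (hch g))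
  · obtain ⟨r, h1, h2⟩ := exists_galoisRepAdic_of_line (iotaK K) hι (iotaK_span K) I.ρ I.cont
      (fun g => rhoK K I.ρ g) (rhoK_iotaK K I.ρ) W hdim η hη t ε ht hcont
    exact hfin r h1 h2

end Main

end Fermat.Agent.S30.LA
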