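import Mathlib
import Fermat.Agent.S30.L1
import Fermat.Agent.S30.LAsm
import Fermat.Agent.S30.LFinal

/-!
# S30 long shot (item 92): block (L) COMPLETE, and S30 from `AsmStatement` (helper9)

* `epsO_inertia`: the `p`-adic cyclotomic character is trivial on inertia at `q ≠ p`;
* `lStatement : LStatement` (helper4's L1 + lead's L2 + L3);
* `s30_of_asm : AsmStatement → (the statement of S30)`.
-/

set_option autoImplicit false
set_option linter.unusedSectionVars false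
set_option linter.style.haveILetI false

open Polynomial IsLocalRing

noncomputable section

namespace Fermat.Agent.S30.LW

open Fermat.Agent.S30.L Fermat.Agent.S29

section Inertia

variable (A : ValuationSubring (AlgebraicClosure ℚ))
variable {p ℓ : ℕ} (hp : p.Prime) (hℓp : Nat.Coprime p ℓ) (hA : A.LiesOverPrime ℓ)

include hp hℓp hA in
/-- the inertia group at `ℓ ≠ p` fixes the `p^n`-th roots of unity. -/
theorem inertia_fix_pow {σ : AlgebraicClosure ℚ ≃ₐ[ℚ] AlgebraicClosure ℚ}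
    (hσ : σ ∈ A.inertiaSubgroupIn ℚ) (n : ℕ) {t : AlgebraicClosure ℚ} (ht : t ^ p ^ n = 1) :
    σ t = t := by
  obtain ⟨g, hg, rfl⟩ := Subgroup.mem_map.1 hσ
  have htA : t ∈ A := Cyc.mem_of_pow_eq_one A (pow_ne_zero _ hp.ne_zero) ht
  have hg' : ∀ x : ResidueField A, g • x = x := fun x =>
    congrArg (fun f : RingAut (ResidueField A) => f x) (show
      MulSemiringAction.toRingAut (A.decompositionSubgroup ℚ) (ResidueField A) g = 1 from hg)
  have h1 := Cyc.smul_sub_mem_of_residue_eq A g ⟨t, htA⟩ ⟨t, htA⟩ (hg' _)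
  exact eq_of_sub_mem_pow A hp hℓp hA n (by rw [← map_pow, ht, map_one]) ht h1

end Inertia

section Eps

variable (p : ℕ) [Fact p.Prime]

theorem chiP_inertia (q : ℕ) (hq : q.Prime) (hqp : q ≠ p)
    (A : ValuationSubring (AlgebraicClosure ℚ)) (hA : A.LiesOverPrime q)
    (σ : GQ) (hσ : σ ∈ A.inertiaSubgroupIn ℚ) : chiP p σ = 1 := by
  have hp : p.Prime := Fact.out
  have hcop : Nat.Coprime p q := (Nat.coprime_primes hp hq).2 (Ne.symm hqp)
  apply Units.ext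
  rw [Units.val_one, ← PadicInt.ext_of_toZModPow]
  intro n
  rw [toZModPow_chiP_eq p σ n 1 (fun t ht => by
    rw [pow_one]
    exact inertia_fix_pow A hp hcop hA hσ n ht), Nat.cast_one, map_one]

variable (O' : Type) [CommRing O'] [IsLocalRing O']
  [IsAdicComplete (maximalIdeal O') O'] (hpO : (p : O') ∈ maximalIdeal O')

theorem epsO_inertia (q : ℕ) (hq : q.Prime) (hqp : q ≠ p)
    (A : ValuationSubring (AlgebraicClosure ℚ)) (hA : A.LiesOverPrime q)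
    (σ : GQ) (hσ : σ ∈ A.inertiaSubgroupIn ℚ) : epsO p O' hpO σ = 1 := by
  apply Units.ext
  rw [coe_epsO, chiP_inertia p q hq hqp A hA σ hσ, Units.val_one, map_one, Units.val_one]

end Eps

/-- **block (L)**. -/
theorem lStatement : LStatement := by
  intro p _ N _ S hpS _ O' _ _ _ _ _ _ hpO' χ I
  obtain ⟨t, ht1, ht2⟩ := exists_trace hpS I (epsO p O' hpO')
    (fun ℓ hℓ hℓp A hA σ hσ => epsO_frob p O' hpO' ℓ hℓ hℓp A hA σ hσ)
    (epsO_cont p O' hpO')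
  refine LA.s30ConclSame_of_L1 I (epsO p O' hpO') t ht1 ?_ (epsO_cont p O' hpO')
    ⟨complexConjugation, complexConjugation_mul_self, epsO_conj p O' hpO'⟩ ?_
  · intro ℓ hℓ hℓN hℓS A hA σ hσ
    have hℓp : ℓ ≠ p := fun h => hℓS (h ▸ hpS)
    exact ⟨epsO_frob p O' hpO' ℓ hℓ hℓp A hA σ hσ, ht2 ℓ hℓ hℓN hℓS A hA σ hσ⟩
  · intro q hq _ hqp P hP σ hσ
    exact epsO_inertia p O' hpO' q hq hqp P hP σ hσ

/-- **S30 from the assembly of (F), (C), (R), (E)**. -/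
theorem s30_of_asm (hasm : AsmStatement) :
    ∀ (p : ℕ) [Fact p.Prime] (N : ℕ) [NeZero N] (S : Finset ℕ)
      (_hpS : p ∈ S) (_hNS : ∀ q : ℕ, q.Prime → q ∣ N → q ∈ S)
      (𝒪' : Type) [CommRing 𝒪'] [IsDomain 𝒪'] [IsDiscreteValuationRing 𝒪']
      [IsAdicComplete (IsLocalRing.maximalIdeal 𝒪') 𝒪'] [Finite (IsLocalRing.ResidueField 𝒪')]
      [CharZero 𝒪'] (_hp𝒪' : (p : 𝒪') ∈ IsLocalRing.maximalIdeal 𝒪')
      (χ : CuspForm.heckeAlgebra N 2 (↑S : Set ℕ) →+* 𝒪'),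
      ∃ (𝒪'' : Type) (_ : CommRing 𝒪'') (_ : IsDomain 𝒪'') (_ : IsDiscreteValuationRing 𝒪'')
        (_ : IsAdicComplete (IsLocalRing.maximalIdeal 𝒪'') 𝒪'')
        (_ : Finite (IsLocalRing.ResidueField 𝒪'')) (_ : CharZero 𝒪'')
        (_ : Algebra 𝒪' 𝒪'') (_ : Module.Finite 𝒪' 𝒪'') (_ : IsLocalHom (algebraMap 𝒪' 𝒪'')),
      Function.Injective (algebraMap 𝒪' 𝒪'') ∧
      ∃ ρ : GaloisRepAdic 𝒪'',
        (∀ (ℓ : ℕ) (hℓ : ℓ.Prime) (hℓN : ¬ ℓ ∣ N) (hℓS : ℓ ∉ (↑S : Set ℕ)),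
          ∀ A : ValuationSubring (AlgebraicClosure ℚ), A.LiesOverPrime ℓ →
            ∀ σ : AlgebraicClosure ℚ ≃ₐ[ℚ] AlgebraicClosure ℚ, A.IsFrobeniusAt σ ℓ →
              LinearMap.charpoly (ρ.ρ σ) =
                X ^ 2 - C (algebraMap 𝒪' 𝒪'' (χ (CuspForm.heckeAlgebra.T hℓ hℓN hℓS))) * X
                  + C ((ℓ : 𝒪''))) ∧
        (∀ q : ℕ, q.Prime → ¬ q ∣ N → q ≠ p → ρ.IsUnramifiedAt q) := by
  intro p _ N _ S hpS hNS O' _ _ _ _ _ _ hpO' χ
  obtain ⟨I⟩ := hasm p N S hpS hNS O' hpO' χ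
  exact LF.concl_of_conclSame p N S O' χ (lStatement p N S hpS hNS O' hpO' χ I)

end Fermat.Agent.S30.LW
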