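/-
S30 (item 92), block (C) (helper1): the DICTIONARY AT EXPONENT `m` (any `m ≥ 1`, not only a prime).

`DictM.dictStatementM : DictStatementM`: for every level `N ≥ 1` and every `m ≥ 1` an injective
additive map `Φ_m : XP N m = Hom(Γ₀(N)/(small trace), ℤ/m) → J₀(N)[m]`, Hecke-equivariant at the
primes `ℓ ∤ N m`.  The descent chain of S29 (TOP → TRANSFER → CHAIN → BOTTOM) never uses the
primality of the exponent: only `m ≠ 0`.  This file re-proves the five wrappers that carried a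
`Fact p.Prime` (TopInst, TopFinal, DictAsm, Bottom, BottomKSys) with `NeZero m` instead.
-/
import Mathlib
import Fermat.Agent.S29.Dict

set_option autoImplicit false
set_option linter.unusedSectionVars false
set_option linter.style.haveILetI false

open CongruenceSubgroup AlgebraicCurve ModularCurve HahnSeries
open Fermat.Agent.S18 Fermat.Agent.S18.RPrime Fermat.Agent.S37 Fermat.Agent.S37.E3
open Fermat.Agent.S29 Fermat.Agent.S29.KD Fermat.Agent.S29.DStep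
open scoped MatrixGroups

noncomputable section

namespace Fermat.Agent.S30.DictM

local notation "Kbar" => AlgebraicClosure ℚ

/-- **the dictionary at exponent `m`**. -/
def DictStatementM : Prop :=
  ∀ (N : ℕ) [NeZero N] (m : ℕ) [NeZero m],
    ∃ Φ : R2.XP N m →+ torsP N m, Function.Injective Φ ∧
      ∀ (ℓ : ℕ) [Fact ℓ.Prime] (hℓN : ¬ ℓ ∣ N), ¬ ℓ ∣ N * m →
        ∀ ψ : R2.XP N m,
          Φ (R2.TXP N m ℓ hℓN ψ) = heckeTors N m ⟨ℓ, Fact.out⟩ (Φ ψ)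

section Top

open Fermat.Agent.S29.Mer Fermat.Agent.S29.BrC Fermat.Agent.S29.InvC Fermat.Agent.S29.R2
  Fermat.Agent.S29.TopMG Fermat.Agent.S29.Top

variable {N : ℕ} [NeZero N] (m : ℕ) [NeZero m]

/-- the hypotheses of the top Kummer system over `ℂ`, exponent `m`. -/
def topHypM (hs : SurjStatement N) (hpl : PlaceStatement N) :
    TopHyp N m (KM.TX N m) (embFC N) (KM.CK ℂ N) (KM.KPK ℂ N m) (KM.HK ℂ N m) :=
  { Hf := fun i => haveI : Fact i.1.Prime := ⟨i.2.1⟩; heckeFun i.1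
    h := hX
    chi := chiOf
    hp := NeZero.ne m
    hinv := fun γ w => sigmaH_embFC N γ γ.2 w
    hC := fun u hu => by
      obtain ⟨c, -, h⟩ := (KM.mem_CK_iff ℂ N).1 hu
      exact ⟨c, by rw [h, embFC_const]⟩
    hH := fun i u => by
      haveI : Fact i.1.Prime := ⟨i.2.1⟩
      exact embFC_normBeta N i.1 i.not_dvd (u : FC N)
    hHf_pow := fun i y => by
      haveI : Fact i.1.Prime := ⟨i.2.1⟩
      exact (heckeFun_pow i.1 y m).symm
    h0 := hX_ne_zero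
    hchi := sigmaH_hX
    chi_inj := fun ψ h => (chiOf_eq_one_iff ψ).1 h
    hpow := fun ψ => hs _ (hX_pow_mem ψ)
    hkp := fun ψ u hu => by
      rw [KM.mem_KPK_iff]
      intro P
      obtain ⟨P', hP'⟩ := hpl P
      rw [hP' (u : FC N) ⟨hX ψ ^ m, hX_pow_mem ψ⟩ hu]
      exact hX_dvd_ord ψ P'
    hadd := fun ψ ψ' => hs _ (hX_add_div_mem ψ ψ')
    hhk := fun i ψ => by
      haveI : Fact i.1.Prime := ⟨i.2.1⟩
      exact hs _ (hX_TXP_div_mem i.1 i.not_dvd ψ) }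

variable (N)

/-- **TOP** at exponent `m`: the Kummer system over `ℂ`. -/
def topKSysCM : KM.KSysMod ℂ N m :=
  (topHypM m (surjStatement N) (placeStatement N)).ksys

end Top

section Chain

variable (N : ℕ) [NeZero N] (m : ℕ) [NeZero m]

/-- the Kummer system over `ℚ̄`, exponent `m`. -/
theorem ksys_QbarM : Nonempty (KM.KSysMod Kbar N m) := by
  letI := DictAsm.algQbarComplex
  exact ChainApply.ksys_Qbar_of N m
    (fun k L _ _ _ _ _ _ _ t ht halg => ChainStep.chain_step N m (NeZero.ne m) k L t ht halg)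
    (TransferB.transferStatement N m (Nat.pos_of_ne_zero (NeZero.ne m))) (topKSysCM N m)

end Chain

section Bottom

open Fermat.Agent.S29.Bottom

variable (N : ℕ) [NeZero N]

/-- **BOTTOM** at exponent `m`: the dictionary from a Kummer system of functions over `ℚ̄`. -/
theorem dictM_of_functions (p : ℕ) [NeZero p]
    (U : R2.XP N p → ↥(modularFunctionFieldBar N))
    (hU0 : ∀ ψ, U ψ ≠ 0)
    (hkp : ∀ ψ (P : Place Kbar ↥(modularFunctionFieldBar N)), (p : ℤ) ∣ P.ord (U ψ))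
    (hadd : ∀ ψ ψ', ∃ (c : Kbar) (w : ↥(modularFunctionFieldBar N)), c ≠ 0 ∧ w ≠ 0 ∧
      U (ψ + ψ') = c • w ^ p * (U ψ * U ψ'))
    (hinj : ∀ ψ (c : Kbar) (w : ↥(modularFunctionFieldBar N)), c ≠ 0 → w ≠ 0 →
      U ψ = c • w ^ p → ψ = 0)
    (hhk : ∀ (ℓ : ℕ) [Fact ℓ.Prime] (hℓN : ¬ ℓ ∣ N), ¬ ℓ ∣ N * p → ∀ ψ,
      ∃ (c : Kbar) (w : ↥(modularFunctionFieldBar N)), c ≠ 0 ∧ w ≠ 0 ∧
        U (R2.TXP N p ℓ hℓN ψ) =
          c • w ^ p * (haveI : NeZero ℓ := ⟨(Fact.out : ℓ.Prime).ne_zero⟩;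
            normAlong (heckeAlphaBar Kbar N ℓ) (heckeBetaBar Kbar N ℓ (U ψ)))) :
    ∃ Φ : R2.XP N p →+ torsP N p, Function.Injective Φ ∧
      ∀ (ℓ : ℕ) [Fact ℓ.Prime] (hℓN : ¬ ℓ ∣ N), ¬ ℓ ∣ N * p →
        ∀ ψ : R2.XP N p,
          Φ (R2.TXP N p ℓ hℓN ψ) = heckeTors N p ⟨ℓ, Fact.out⟩ (Φ ψ) := by
  classical
  haveI := E0M.hasPrincipalDivisors_bar N
  have hp0 : p ≠ 0 := NeZero.ne p
  have hppos : 0 < p := Nat.pos_of_ne_zero hp0
  have hpair : ∀ ψ, ∃ D : Divisor Kbar ↥(modularFunctionFieldBar N), IsKummerPair p (U ψ) D :=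
    fun ψ => exists_kummerPair p (U ψ) (hU0 ψ) (hkp ψ)
  choose D hD using hpair
  -- the class map
  set cl : R2.XP N p → JZero N := fun ψ => kcls hp0 (hD ψ) with hcl
  have hcl_add : ∀ ψ ψ', cl (ψ + ψ') = cl ψ + cl ψ' := by
    intro ψ ψ'
    obtain ⟨c, w, hc, hw, h⟩ := hadd ψ ψ'
    obtain ⟨w', hw', hcw⟩ := exists_pow_eq_smul p hppos c w hc hw
    rw [hcw] at h
    exact kcls_eq_of_pow hp0 (hD (ψ + ψ')) ((hD ψ).mul (hD ψ')) hw' h
  have hcl_mem : ∀ ψ, cl ψ ∈ torsP N p := by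
    intro ψ
    rw [mem_torsP_iff]
    exact nsmul_kcls hp0 (hD ψ)
  let Φ : R2.XP N p →+ torsP N p :=
    AddMonoidHom.mk' (fun ψ => ⟨cl ψ, hcl_mem ψ⟩) (fun ψ ψ' => Subtype.ext (hcl_add ψ ψ'))
  refine ⟨Φ, ?_, ?_⟩
  · rw [injective_iff_map_eq_zero]
    intro ψ hψ
    have h0 : cl ψ = 0 := congrArg Subtype.val hψ
    obtain ⟨c, w, hc, hw, hu⟩ := kcls_eq_zero hp0 (const_of_ord_eq_zero N) (hD ψ) h0
    exact hinj ψ c w hc hw hu
  · intro ℓ _ hℓN hℓNp ψ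
    haveI : NeZero ℓ := ⟨(Fact.out : ℓ.Prime).ne_zero⟩
    haveI := E0M.hasPrincipalDivisors_bar (N * ℓ)
    apply Subtype.ext
    show cl (R2.TXP N p ℓ hℓN ψ) = heckeOperatorBar N ⟨ℓ, Fact.out⟩ (cl ψ)
    obtain ⟨c, w, hc, hw, h⟩ := hhk ℓ hℓN hℓNp ψ
    obtain ⟨w', hw', hcw⟩ := exists_pow_eq_smul p hppos c w hc hw
    rw [hcw] at h
    have hcorr := (hD ψ).correspondence (heckeAlphaBar Kbar N ℓ) (heckeBetaBar Kbar N ℓ)
      (E0M.alphaIntegral N ℓ) (E0M.betaIntegral N ℓ) (E0M.finiteAlong_alpha N ℓ)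
      (E0M.normFormulaAlong_alpha N ℓ)
    have h1 : cl (R2.TXP N p ℓ hℓN ψ) = kcls hp0 hcorr :=
      kcls_eq_of_pow hp0 (hD (R2.TXP N p ℓ hℓN ψ)) hcorr hw' h
    rw [h1]
    have h2 := HeckePic.heckeOperatorBar_mk' N ℓ Fact.out
      ⟨D ψ, Divisor.mem_degZero.2 ((hD ψ).degree_eq_zero hp0)⟩
    show _ = heckeOperatorBar N ⟨ℓ, Fact.out⟩ (Pic0.mk ⟨D ψ, _⟩)
    rw [h2]
    rfl

variable (p : ℕ)

/-- **BOTTOM** at exponent `m`: a Kummer system over `ℚ̄` gives the dictionary. -/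
theorem dictM_of_ksys [NeZero p] (K : KM.KSysMod Kbar N p) :
    ∃ Φ : R2.XP N p →+ torsP N p, Function.Injective Φ ∧
      ∀ (ℓ : ℕ) [Fact ℓ.Prime] (hℓN : ¬ ℓ ∣ N), ¬ ℓ ∣ N * p →
        ∀ ψ : R2.XP N p,
          Φ (R2.TXP N p ℓ hℓN ψ) = heckeTors N p ⟨ℓ, Fact.out⟩ (Φ ψ) := by
  have hne : ∀ u : (↥(modularFunctionFieldFullC Kbar N))ˣ,
      eBar N (u : ↥(modularFunctionFieldFullC Kbar N)) ≠ 0 :=
    fun u => (map_ne_zero (eBar N)).2 u.ne_zero
  refine dictM_of_functions N p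
    (fun ψ => eBar N ((K.U ψ : (↥(modularFunctionFieldFullC Kbar N))ˣ) :
      ↥(modularFunctionFieldFullC Kbar N))) (fun ψ => hne _) ?_ ?_ ?_ ?_
  · intro ψ P
    exact dvd_ord_congr (MScal.modularFunctionFieldBar_eq_fullC N).symm p _
      ((KM.mem_KPK_iff Kbar N p).1 (K.kp ψ)) P
  · intro ψ ψ'
    obtain ⟨c, w, hc, hw, h⟩ := triv_transport N p (K.add ψ ψ')
    refine ⟨c, w, hc, hw, ?_⟩
    rw [Units.val_div_eq_div_val, map_div₀, Units.val_mul, map_mul] at h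
    exact (div_eq_iff (mul_ne_zero (hne _) (hne _))).1 h
  · intro ψ c w hc hw h
    exact K.inj ψ (triv_of_eq N p c w hc hw h)
  · intro ℓ _ hℓN hℓNp ψ
    haveI : NeZero ℓ := ⟨(Fact.out : ℓ.Prime).ne_zero⟩
    obtain ⟨c, w, hc, hw, h⟩ := triv_transport N p (K.hk ⟨ℓ, Fact.out, hℓNp⟩ ψ)
    refine ⟨c, w, hc, hw, ?_⟩
    rw [Units.val_div_eq_div_val, map_div₀] at h
    have h2 : eBar N ((KM.HK Kbar N p ⟨ℓ, Fact.out, hℓNp⟩ (K.U ψ) :
        (↥(modularFunctionFieldFullC Kbar N))ˣ) : ↥(modularFunctionFieldFullC Kbar N)) =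
        normAlong (heckeAlphaBar Kbar N ℓ) (heckeBetaBar Kbar N ℓ
          (eBar N ((K.U ψ : (↥(modularFunctionFieldFullC Kbar N))ˣ) :
            ↥(modularFunctionFieldFullC Kbar N)))) :=
      eBar_normBeta N ℓ _
    rw [← h2]
    exact (div_eq_iff (hne _)).1 h

end Bottom

/-- **the dictionary at every exponent `m ≥ 1`**, unconditional. -/
theorem dictStatementM : DictStatementM := by
  intro N _ m _
  obtain ⟨K⟩ := ksys_QbarM N m
  exact dictM_of_ksys N m K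

end Fermat.Agent.S30.DictM
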