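/-
S30 long shot (item 92), block (F) "reverse Kummer", piece F3 (helper5).

From a root to a character: if `h ∈ MerH`, `h ≠ 0`, and `h ^ m` is `Γ₀(N)`-invariant, then
`h` transforms under `Γ₀(N)` by a character `χ` with `χ ^ m = 1`.  The character is unique,
multiplicative in `h`, trivial iff `h` is invariant.  With the root statement (F1, helper7)
this gives the homomorphism `KPK ℂ N m → Hom(Γ₀(N), μ_m)` whose kernel consists of the
units with an INVARIANT root.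
-/
import Mathlib
import Fermat.Agent.S29.BridgeC2
import Fermat.Agent.S29.NormProd
import Fermat.Agent.S29.KSysMod

set_option autoImplicit false
set_option linter.unusedSectionVars false
set_option linter.style.haveILetI false

noncomputable section

open UpperHalfPlane hiding I
open Function Complex CongruenceSubgroup
open scoped Real MatrixGroups Manifold

namespace Fermat.Agent.S30.Rev

open Fermat.Agent.FF Fermat.Agent.S29.Mer Fermat.Agent.S29.BrC Fermat.Agent.S29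

variable (N : ℕ) [NeZero N] (m : ℕ)

/-- cancellation of a nonzero element of `MerH` in a scalar equation. -/
theorem smul_right_cancel_MerH {a b : ℂ} {h : MerH} (h0 : h ≠ 0) (hab : a • h = b • h) :
    a = b := by
  rw [Algebra.smul_def, Algebra.smul_def] at hab
  exact (algebraMap ℂ MerH).injective (mul_right_cancel₀ h0 hab)

/-- **the multiplier** of `h` at `γ`: `σ_γ h = c • h`, `c ^ m = 1`. -/
theorem exists_multiplier (hm : m ≠ 0) {h : MerH} (h0 : h ≠ 0) (γ : SL(2, ℤ))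
    (hinv : sigmaH γ (h ^ m) = h ^ m) :
    ∃ c : ℂ, c ^ m = 1 ∧ sigmaH γ h = c • h := by
  have hy : (sigmaH γ h / h) ^ m = algebraMap ℂ MerH 1 := by
    rw [div_pow, ← map_pow, hinv, div_self (pow_ne_zero _ h0), map_one]
  obtain ⟨z, hz⟩ := exists_const_of_pow_eq hm hy
  refine ⟨z, ?_, ?_⟩
  · apply (algebraMap ℂ MerH).injective
    rw [map_pow, ← hz, hy]
  · rw [Algebra.smul_def, ← hz, div_mul_cancel₀ _ h0]

/-- the multiplier as a function on `Γ₀(N)`. -/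
def mult (hm : m ≠ 0) {h : MerH} (h0 : h ≠ 0)
    (hinv : ∀ γ : Gamma0 N, sigmaH (γ : SL(2, ℤ)) (h ^ m) = h ^ m) (γ : Gamma0 N) : ℂ :=
  (exists_multiplier m hm h0 (γ : SL(2, ℤ)) (hinv γ)).choose

theorem mult_pow (hm : m ≠ 0) {h : MerH} (h0 : h ≠ 0)
    (hinv : ∀ γ : Gamma0 N, sigmaH (γ : SL(2, ℤ)) (h ^ m) = h ^ m) (γ : Gamma0 N) :
    mult N m hm h0 hinv γ ^ m = 1 :=
  (exists_multiplier m hm h0 (γ : SL(2, ℤ)) (hinv γ)).choose_spec.1

theorem sigmaH_eq_mult (hm : m ≠ 0) {h : MerH} (h0 : h ≠ 0)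
    (hinv : ∀ γ : Gamma0 N, sigmaH (γ : SL(2, ℤ)) (h ^ m) = h ^ m) (γ : Gamma0 N) :
    sigmaH (γ : SL(2, ℤ)) h = mult N m hm h0 hinv γ • h :=
  (exists_multiplier m hm h0 (γ : SL(2, ℤ)) (hinv γ)).choose_spec.2

theorem mult_ne_zero (hm : m ≠ 0) {h : MerH} (h0 : h ≠ 0)
    (hinv : ∀ γ : Gamma0 N, sigmaH (γ : SL(2, ℤ)) (h ^ m) = h ^ m) (γ : Gamma0 N) :
    mult N m hm h0 hinv γ ≠ 0 := by
  intro h1
  have := mult_pow N m hm h0 hinv γ
  rw [h1, zero_pow hm] at this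
  exact zero_ne_one this

theorem mult_one (hm : m ≠ 0) {h : MerH} (h0 : h ≠ 0)
    (hinv : ∀ γ : Gamma0 N, sigmaH (γ : SL(2, ℤ)) (h ^ m) = h ^ m) :
    mult N m hm h0 hinv 1 = 1 := by
  apply smul_right_cancel_MerH h0
  rw [← sigmaH_eq_mult, one_smul]
  exact sigmaH_one h

theorem mult_mul (hm : m ≠ 0) {h : MerH} (h0 : h ≠ 0)
    (hinv : ∀ γ : Gamma0 N, sigmaH (γ : SL(2, ℤ)) (h ^ m) = h ^ m) (γ δ : Gamma0 N) :
    mult N m hm h0 hinv (γ * δ) = mult N m hm h0 hinv γ * mult N m hm h0 hinv δ := by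
  apply smul_right_cancel_MerH h0
  rw [← sigmaH_eq_mult]
  have : ((γ * δ : Gamma0 N) : SL(2, ℤ)) = (γ : SL(2, ℤ)) * (δ : SL(2, ℤ)) := rfl
  rw [this, sigmaH_mul, sigmaH_eq_mult N m hm h0 hinv γ, sigmaH_smul,
    sigmaH_eq_mult N m hm h0 hinv δ, smul_smul]

/-- **the character of a root**. -/
def charOfRoot (hm : m ≠ 0) {h : MerH} (h0 : h ≠ 0)
    (hinv : ∀ γ : Gamma0 N, sigmaH (γ : SL(2, ℤ)) (h ^ m) = h ^ m) : Gamma0 N →* ℂˣ where
  toFun γ := Units.mk0 (mult N m hm h0 hinv γ) (mult_ne_zero N m hm h0 hinv γ)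
  map_one' := Units.ext (mult_one N m hm h0 hinv)
  map_mul' γ δ := Units.ext (mult_mul N m hm h0 hinv γ δ)

theorem charOfRoot_apply (hm : m ≠ 0) {h : MerH} (h0 : h ≠ 0)
    (hinv : ∀ γ : Gamma0 N, sigmaH (γ : SL(2, ℤ)) (h ^ m) = h ^ m) (γ : Gamma0 N) :
    ((charOfRoot N m hm h0 hinv γ : ℂˣ) : ℂ) = mult N m hm h0 hinv γ := rfl

theorem charOfRoot_pow (hm : m ≠ 0) {h : MerH} (h0 : h ≠ 0)
    (hinv : ∀ γ : Gamma0 N, sigmaH (γ : SL(2, ℤ)) (h ^ m) = h ^ m) :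
    charOfRoot N m hm h0 hinv ^ m = 1 := by
  ext γ
  rw [MonoidHom.pow_apply, Units.val_pow_eq_pow_val, charOfRoot_apply, mult_pow,
    MonoidHom.one_apply, Units.val_one]

theorem sigmaH_eq_charOfRoot (hm : m ≠ 0) {h : MerH} (h0 : h ≠ 0)
    (hinv : ∀ γ : Gamma0 N, sigmaH (γ : SL(2, ℤ)) (h ^ m) = h ^ m) (γ : Gamma0 N) :
    sigmaH (γ : SL(2, ℤ)) h = ((charOfRoot N m hm h0 hinv γ : ℂˣ) : ℂ) • h :=
  sigmaH_eq_mult N m hm h0 hinv γ

/-- **F3, existence**: a nonzero `h` with `Γ₀(N)`-invariant `m`-th power transforms by a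
character of exponent `m`. -/
theorem exists_char_of_pow_invariant (hm : m ≠ 0) {h : MerH} (h0 : h ≠ 0)
    (hinv : ∀ γ : Gamma0 N, sigmaH (γ : SL(2, ℤ)) (h ^ m) = h ^ m) :
    ∃ χ : Gamma0 N →* ℂˣ, χ ^ m = 1 ∧
      ∀ γ : Gamma0 N, sigmaH (γ : SL(2, ℤ)) h = ((χ γ : ℂˣ) : ℂ) • h :=
  ⟨charOfRoot N m hm h0 hinv, charOfRoot_pow N m hm h0 hinv,
    sigmaH_eq_charOfRoot N m hm h0 hinv⟩

/-- the Kummer relation over `ℂ` (the analogue of `Mer.Rel` for `FC N`). -/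
def RelC (χ : Gamma0 N →* ℂˣ) (u : FC N) : Prop :=
  ∃ h : MerH, h ≠ 0 ∧
    (∀ γ : Gamma0 N, sigmaH (γ : SL(2, ℤ)) h = ((χ γ : ℂˣ) : ℂ) • h) ∧
    h ^ m = embFC N u

variable {N m}

/-- the character of a relation is unique. -/
theorem RelC.unique (hm : m ≠ 0) {χ χ' : Gamma0 N →* ℂˣ} {u : FC N}
    (h : RelC N m χ u) (h' : RelC N m χ' u) : χ = χ' := by
  obtain ⟨h, h0, hχ, hu⟩ := h
  obtain ⟨h', h0', hχ', hu'⟩ := h'
  have hy : (h' / h) ^ m = algebraMap ℂ MerH 1 := by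
    rw [div_pow, hu, hu', map_one]
    exact div_self (hu ▸ pow_ne_zero _ h0)
  obtain ⟨z, hz⟩ := exists_const_of_pow_eq hm hy
  have hh : h' = z • h := by
    rw [Algebra.smul_def, ← hz, div_mul_cancel₀ _ h0]
  ext γ
  apply smul_right_cancel_MerH h0'
  calc ((χ γ : ℂˣ) : ℂ) • h' = ((χ γ : ℂˣ) : ℂ) • (z • h) := by rw [← hh]
    _ = z • (((χ γ : ℂˣ) : ℂ) • h) := smul_comm _ _ _
    _ = z • sigmaH (γ : SL(2, ℤ)) h := by rw [hχ γ]
    _ = sigmaH (γ : SL(2, ℤ)) (z • h) := (sigmaH_smul _ _ _).symm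
    _ = sigmaH (γ : SL(2, ℤ)) h' := by rw [← hh]
    _ = ((χ' γ : ℂˣ) : ℂ) • h' := hχ' γ

theorem RelC.mul {χ χ' : Gamma0 N →* ℂˣ} {u u' : FC N}
    (h : RelC N m χ u) (h' : RelC N m χ' u') : RelC N m (χ * χ') (u * u') := by
  obtain ⟨h, h0, hχ, hu⟩ := h
  obtain ⟨h', h0', hχ', hu'⟩ := h'
  refine ⟨h * h', mul_ne_zero h0 h0', fun γ => ?_, ?_⟩
  · rw [map_mul, hχ γ, hχ' γ, MonoidHom.mul_apply, Units.val_mul, smul_mul_smul_comm]
  · rw [mul_pow, hu, hu', map_mul]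

theorem RelC.one : RelC N m 1 (1 : FC N) :=
  ⟨1, one_ne_zero, fun γ => by rw [map_one, MonoidHom.one_apply, Units.val_one, one_smul],
    by rw [one_pow, map_one]⟩

theorem RelC.inv {χ : Gamma0 N →* ℂˣ} {u : FC N}
    (h : RelC N m χ u) : RelC N m χ⁻¹ u⁻¹ := by
  obtain ⟨h, h0, hχ, hu⟩ := h
  refine ⟨h⁻¹, inv_ne_zero h0, fun γ => ?_, ?_⟩
  · rw [map_inv₀, hχ γ, MonoidHom.inv_apply, Units.val_inv_eq_inv_val, Algebra.smul_def,
      Algebra.smul_def, mul_inv, map_inv₀]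
  · rw [inv_pow, hu, map_inv₀]

/-- a relation with exponent-`m` character exists as soon as a root exists. -/
theorem RelC.of_root (hm : m ≠ 0) {u : FC N} (hu0 : u ≠ 0) {h : MerH} (hu : h ^ m = embFC N u) :
    ∃ χ : Gamma0 N →* ℂˣ, χ ^ m = 1 ∧ RelC N m χ u := by
  have h0 : h ≠ 0 := by
    rintro rfl
    rw [zero_pow hm] at hu
    exact hu0 ((map_eq_zero_iff _ (embFC_injective N)).1 hu.symm)
  have hinv : ∀ γ : Gamma0 N, sigmaH (γ : SL(2, ℤ)) (h ^ m) = h ^ m := fun γ => by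
    rw [hu, sigmaH_embFC N _ γ.2]
  exact ⟨charOfRoot N m hm h0 hinv, charOfRoot_pow N m hm h0 hinv, h, h0,
    sigmaH_eq_charOfRoot N m hm h0 hinv, hu⟩

/-- constants have trivial character. -/
theorem RelC.const (hm : m ≠ 0) {c : ℂ} (hc : c ≠ 0) : RelC N m 1 (algebraMap ℂ (FC N) c) := by
  obtain ⟨z, hz⟩ : ∃ z : ℂ, z ^ m = c := IsAlgClosed.exists_pow_nat_eq c (Nat.pos_of_ne_zero hm)
  have hz0 : z ≠ 0 := by
    rintro rfl
    rw [zero_pow hm] at hz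
    exact hc hz.symm
  refine ⟨algebraMap ℂ MerH z, ?_, fun γ => ?_, ?_⟩
  · rwa [Ne, map_eq_zero_iff _ (algebraMap ℂ MerH).injective]
  · rw [sigmaH_const, MonoidHom.one_apply, Units.val_one, one_smul]
  · rw [← map_pow, hz, embFC_const]

/-- `m`-th powers have trivial character. -/
theorem RelC.pow {w : FC N} (hw : w ≠ 0) : RelC N m 1 (w ^ m) :=
  ⟨embFC N w, by rwa [Ne, map_eq_zero_iff _ (embFC_injective N)],
    fun γ => by rw [sigmaH_embFC N _ γ.2, MonoidHom.one_apply, Units.val_one, one_smul],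
    by rw [map_pow]⟩

/-- trivial character ⟺ an invariant root. -/
theorem RelC.invariant_root {u : FC N} (h : RelC N m 1 u) :
    ∃ h : MerH, h ≠ 0 ∧ (∀ γ : Gamma0 N, sigmaH (γ : SL(2, ℤ)) h = h) ∧ h ^ m = embFC N u := by
  obtain ⟨h, h0, hχ, hu⟩ := h
  exact ⟨h, h0, fun γ => by rw [hχ γ, MonoidHom.one_apply, Units.val_one, one_smul], hu⟩

end Fermat.Agent.S30.Rev
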