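/-
S30 long shot (item 92), block (F) "reverse Kummer", piece (I2) (helper5).

`Hol` is ROOT CLOSED in `MerH`: if `w ∈ MerH` and `w ^ m` is holomorphic, then `w` is
holomorphic (normal form of a meromorphic function of nonnegative order).
-/
import Mathlib
import Fermat.Agent.S29.MerField

set_option autoImplicit false
set_option linter.unusedSectionVars false
set_option linter.style.haveILetI false

noncomputable section

open UpperHalfPlane hiding I
open Function Complex Filter Topology
open scoped Real MatrixGroups Manifold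

namespace Fermat.Agent.S30.RootHol

open Fermat.Agent.FF Fermat.Agent.S29.Mer

/-- the upper half plane as a subset of `ℂ`. -/
def UH : Set ℂ := {z | 0 < z.im}

theorem isOpen_UH : IsOpen UH := isOpen_lt continuous_const Complex.continuous_im

theorem analyticAt_hol (a : Hol) {z : ℂ} (hz : z ∈ UH) :
    AnalyticAt ℂ ((a : ℍ → ℂ) ∘ ofComplex) z := by
  have h1 : DifferentiableOn ℂ ((a : ℍ → ℂ) ∘ ofComplex) UH :=
    UpperHalfPlane.mdifferentiable_iff.1 a.mdiff
  exact h1.analyticAt (isOpen_UH.mem_nhds hz)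

/-- **holomorphy of roots**, on the level of `Hol`: `a ^ m = W b ^ m` implies `b ∣ a`. -/
theorem exists_hol_of_pow (m : ℕ) (hm : m ≠ 0) (a b W : Hol) (hab : a ^ m = W * b ^ m) :
    ∃ h : Hol, a = h * b := by
  classical
  set f : ℂ → ℂ := (a : ℍ → ℂ) ∘ ofComplex with hf
  set g : ℂ → ℂ := (b : ℍ → ℂ) ∘ ofComplex with hg
  set w : ℂ → ℂ := (W : ℍ → ℂ) ∘ ofComplex with hw
  have hfa : ∀ z ∈ UH, AnalyticAt ℂ f z := fun z hz => analyticAt_hol a hz
  have hga : ∀ z ∈ UH, AnalyticAt ℂ g z := fun z hz => analyticAt_hol b hz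
  have hwa : ∀ z ∈ UH, AnalyticAt ℂ w z := fun z hz => analyticAt_hol W hz
  have hrel : ∀ z, f z ^ m = w z * g z ^ m := by
    intro z
    have := congrArg (fun x : Hol => (x : ℍ → ℂ) (ofComplex z)) hab
    show ((a : ℍ → ℂ) ∘ ofComplex) z ^ m
      = ((W : ℍ → ℂ) ∘ ofComplex) z * ((b : ℍ → ℂ) ∘ ofComplex) z ^ m
    simpa using this
  let q : ℂ → ℂ := fun z => f z / g z
  have hq : MeromorphicOn q UH := fun z hz =>
    (hfa z hz).meromorphicAt.div (hga z hz).meromorphicAt
  have hord : ∀ z ∈ UH, 0 ≤ meromorphicOrderAt q z := by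
    intro z hz
    rcases (hga z hz).eventually_eq_zero_or_eventually_ne_zero with h0 | h1
    · have h0' : ∀ᶠ y in 𝓝[≠] z, q y = 0 := by
        have : ∀ᶠ y in 𝓝 z, q y = 0 := h0.mono fun y hy => by simp [q, hy]
        exact this.filter_mono nhdsWithin_le_nhds
      rw [meromorphicOrderAt_eq_top_iff.2 h0']
      exact le_top
    · have h2 : (q ^ m) =ᶠ[𝓝[≠] z] w := by
        filter_upwards [h1] with y hy
        simp only [Pi.pow_apply, q, div_pow, hrel y]
        field_simp
      have h3 := meromorphicOrderAt_pow (hq z hz) (n := m)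
      rw [meromorphicOrderAt_congr h2] at h3
      have h4 : 0 ≤ meromorphicOrderAt w z := (hwa z hz).meromorphicOrderAt_nonneg
      rw [h3] at h4
      cases hk : meromorphicOrderAt q z with
      | top => exact le_top
      | coe k =>
        rw [hk] at h4
        have h5 : (0 : WithTop ℤ) ≤ (((m : ℤ) * k : ℤ) : WithTop ℤ) := by
          simpa using h4
        have h6 : (0 : ℤ) ≤ (m : ℤ) * k := by exact_mod_cast h5
        have h7 : (0 : ℤ) < (m : ℤ) := by exact_mod_cast Nat.pos_of_ne_zero hm
        have h8 : 0 ≤ k := by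
          by_contra hneg
          have hneg' : k < 0 := not_le.1 hneg
          have := mul_neg_of_pos_of_neg h7 hneg'
          omega
        exact_mod_cast h8
  let H : ℂ → ℂ := toMeromorphicNFOn q UH
  have hHa : ∀ z ∈ UH, AnalyticAt ℂ H z := by
    intro z hz
    have hnf : MeromorphicNFAt H z := meromorphicNFOn_toMeromorphicNFOn q UH hz
    rw [← hnf.meromorphicOrderAt_nonneg_iff_analyticAt,
      meromorphicOrderAt_toMeromorphicNFOn hq hz]
    exact hord z hz
  have hHval : ∀ z ∈ UH, g z ≠ 0 → H z = f z / g z := by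
    intro z hz hgz
    have hqa : AnalyticAt ℂ q z := (hfa z hz).div (hga z hz) hgz
    show toMeromorphicNFOn q UH z = _
    rw [toMeromorphicNFOn_eq_toMeromorphicNFAt hq hz,
      toMeromorphicNFAt_eq_self.2 hqa.meromorphicNFAt]
  have hmul : ∀ z ∈ UH, f z = H z * g z := by
    intro z hz
    by_cases hgz : g z = 0
    · have h1 : f z ^ m = 0 := by rw [hrel, hgz, zero_pow hm, mul_zero]
      rw [hgz, mul_zero]
      exact (pow_eq_zero_iff hm).1 h1
    · rw [hHval z hz hgz, div_mul_cancel₀ _ hgz]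
  have hHd : DifferentiableOn ℂ H UH := fun z hz =>
    (hHa z hz).differentiableAt.differentiableWithinAt
  have hmd : MDiff (fun τ : ℍ => H (τ : ℂ)) := by
    rw [UpperHalfPlane.mdifferentiable_iff]
    refine hHd.congr fun z hz => ?_
    have hz' : 0 < z.im := hz
    simp [Function.comp, ofComplex_apply_of_im_pos hz']
  refine ⟨⟨fun τ : ℍ => H (τ : ℂ), hmd⟩, ?_⟩
  apply Hol.ext
  intro τ
  have h1 := hmul (τ : ℂ) τ.im_pos
  simp only [hf, hg, Function.comp, ofComplex_apply] at h1
  exact h1

/-- **`Hol` is root closed in `MerH`.** -/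
theorem exists_hol_of_pow_eq (m : ℕ) (hm : m ≠ 0) (w : MerH) (W : Hol)
    (hw : w ^ m = algebraMap Hol MerH W) :
    ∃ h : Hol, algebraMap Hol MerH h = w ∧ h ^ m = W := by
  obtain ⟨a, b, hb, rfl⟩ := IsFractionRing.div_surjective (A := Hol) w
  have hb0 : algebraMap Hol MerH b ≠ 0 :=
    (map_ne_zero_iff _ (IsFractionRing.injective Hol MerH)).2 (nonZeroDivisors.ne_zero hb)
  have hab : a ^ m = W * b ^ m := by
    apply IsFractionRing.injective Hol MerH
    rw [map_pow, map_mul, map_pow, ← hw, div_pow, div_mul_cancel₀ _ (pow_ne_zero _ hb0)]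
  obtain ⟨h, hh⟩ := exists_hol_of_pow m hm a b W hab
  have h1 : algebraMap Hol MerH h = algebraMap Hol MerH a / algebraMap Hol MerH b := by
    rw [hh, map_mul, mul_div_assoc, div_self hb0, mul_one]
  refine ⟨h, h1, ?_⟩
  apply IsFractionRing.injective Hol MerH
  rw [map_pow, h1, hw]

end Fermat.Agent.S30.RootHol
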