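/-
S30 long shot (item 92), block (F) "reverse Kummer", INJECTIVITY (helper5).

If `v ∈ MerH` is `Γ₀(N)`-invariant and `v ^ m ∈ F_ℂ(N)` (`m ≠ 0`), then `v ∈ ℂ(j, j_N)`;
hence an element of `F_ℂ(N)` with an invariant `m`-th root in `MerH` is an `m`-th power in
`F_ℂ(N)`: the character map of `RevChar.lean` is injective modulo `m`-th powers.

Route: clear the denominator (`exists_PhiFC_eq_div`), the root of a holomorphic function is
holomorphic (`RootHol.exists_hol_of_pow_eq`), it has moderate growth at all cusps because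
its power has, and `TopMG.mem_fieldC_of_isMGAll` finishes.
-/
import Mathlib
import Fermat.Agent.S29.TopMG
import Fermat.Agent.S29.BridgeC2
import Fermat.Agent.S30.RootHol
import Fermat.Agent.S30.RevChar

set_option autoImplicit false
set_option linter.unusedSectionVars false
set_option linter.style.haveILetI false

noncomputable section

open UpperHalfPlane hiding I
open Function Complex Filter Topology Asymptotics CongruenceSubgroup
open scoped Real MatrixGroups Manifold

namespace Fermat.Agent.S30.Inj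

open Fermat.Agent.FF Fermat.Agent.S29.Mer Fermat.Agent.S29.BrC Fermat.Agent.S29.InvC
  Fermat.Agent.S29.MFC Fermat.Agent.S29.TopMG Fermat.Agent.S29 Fermat.Agent.S30.RootHol
  Fermat.Agent.S30.Rev Fermat.Agent.S29.W1R

theorem norm_uPar' (M : ℕ) (τ : ℍ) : ‖uPar M τ‖ = Real.exp (-(2 * π / M) * τ.im) := by
  rw [uPar_def, Complex.norm_exp]
  congr 1
  have h1 : (2 * π * I * (τ : ℂ) / ((M : ℝ) : ℂ)) = (((2 * π / M : ℝ)) : ℂ) * (I * τ) := by
    push_cast
    ring
  rw [h1, Complex.re_ofReal_mul]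
  simp [Complex.mul_re]

/-- a function with a Laurent expansion at `i∞` has moderate growth. -/
theorem isMG_of_isExp {M : ℕ} (hM : 0 < M) {x : LaurentSeries ℂ} {X : ℍ → ℂ}
    (hx : IsExp M x X) : IsMG X := by
  have hk : ∀ n < x.order, x.coeff n = 0 := fun n hn => HahnSeries.coeff_eq_zero_of_lt_order hn
  have h1 := hx.tendsto_mul_zpow hM x.order hk
  have h2 : (fun τ => X τ * uPar M τ ^ (-x.order)) =O[atImInfty] (fun _ => (1 : ℝ)) :=
    h1.isBigO_one ℝ
  refine ⟨-(2 * π / M) * x.order, ?_⟩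
  obtain ⟨C, hC⟩ := h2.bound
  refine IsBigO.of_bound C ?_
  filter_upwards [hC] with τ hτ
  have hu : uPar M τ ≠ 0 := uPar_ne_zero M τ
  have h3 : X τ = (X τ * uPar M τ ^ (-x.order)) * uPar M τ ^ x.order := by
    rw [mul_assoc, ← zpow_add₀ hu, neg_add_cancel, zpow_zero, mul_one]
  have h4 : ‖uPar M τ ^ x.order‖ = Real.exp (-(2 * π / M) * x.order * τ.im) := by
    rw [norm_zpow, norm_uPar', ← Real.rpow_intCast, ← Real.exp_mul]
    congr 1
    ring
  rw [h3, norm_mul, h4, Real.norm_eq_abs, Real.abs_exp]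
  simp only [norm_one, mul_one] at hτ
  exact mul_le_mul_of_nonneg_right hτ (Real.exp_pos _).le

/-- elements of `RC N` have moderate growth at all cusps. -/
theorem isMGAll_inclC (N : ℕ) [NeZero N] (r : RC N) : IsMGAll (inclC N r) := by
  intro γ
  obtain ⟨x, hx⟩ := r.2.2 γ
  exact isMG_of_isExp (Nat.pos_of_ne_zero (NeZero.ne N)) hx

/-- a root of a function of moderate growth has moderate growth. -/
theorem isMG_of_pow {f F : ℍ → ℂ} {m : ℕ} (hm : m ≠ 0) (hF : IsMG F)
    (h : ∀ τ, f τ ^ m = F τ) : IsMG f := by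
  obtain ⟨A, hA⟩ := hF
  obtain ⟨C, hC⟩ := hA.bound
  refine ⟨max A 0, IsBigO.of_bound (1 + |C|) ?_⟩
  filter_upwards [hC] with τ hτ
  rw [Real.norm_eq_abs, Real.abs_exp] at hτ ⊢
  have hy : 0 < τ.im := τ.im_pos
  have hE1 : Real.exp (A * τ.im) ≤ Real.exp (max A 0 * τ.im) :=
    Real.exp_le_exp.2 (mul_le_mul_of_nonneg_right (le_max_left _ _) hy.le)
  have hE2 : 1 ≤ Real.exp (max A 0 * τ.im) :=
    Real.one_le_exp (mul_nonneg (le_max_right _ _) hy.le)
  have h1 : ‖f τ‖ ≤ 1 + ‖f τ‖ ^ m := by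
    rcases le_total ‖f τ‖ 1 with h | h
    · have := pow_nonneg (norm_nonneg (f τ)) m
      linarith
    · have := le_self_pow₀ h hm
      linarith
  have h2 : ‖f τ‖ ^ m = ‖F τ‖ := by rw [← norm_pow, h τ]
  have h3 : C * Real.exp (A * τ.im) ≤ |C| * Real.exp (max A 0 * τ.im) :=
    (mul_le_mul_of_nonneg_right (le_abs_self C) (Real.exp_pos _).le).trans
      (mul_le_mul_of_nonneg_left hE1 (abs_nonneg C))
  calc ‖f τ‖ ≤ 1 + ‖F τ‖ := h2 ▸ h1
    _ ≤ 1 + C * Real.exp (A * τ.im) := by linarith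
    _ ≤ Real.exp (max A 0 * τ.im) + |C| * Real.exp (max A 0 * τ.im) := by linarith
    _ = (1 + |C|) * Real.exp (max A 0 * τ.im) := by ring

variable (N : ℕ) [NeZero N]

/-- **INJ**: a `Γ₀(N)`-invariant element of `MerH` with an `m`-th power in `F_ℂ(N)` lies in
`ℂ(j, j_N)`. -/
theorem mem_fieldC_of_invariant_root (m : ℕ) (hm : m ≠ 0) (u : FC N) (v : MerH)
    (hinv : ∀ γ : Gamma0 N, sigmaH (γ : SL(2, ℤ)) v = v) (hv : v ^ m = embFC N u) :
    v ∈ fieldC N := by
  obtain ⟨A, B, hB0, hA, hB, hAB, -⟩ := exists_PhiFC_eq_div N u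
  have hb0 : inclC N B ≠ 0 := fun h => hB0 (inclC_injective N (h.trans (map_zero _).symm))
  have hbM : algebraMap Hol MerH (inclC N B) ≠ 0 :=
    (map_ne_zero_iff _ (IsFractionRing.injective Hol MerH)).2 hb0
  have hu : embFC N u
      = algebraMap Hol MerH (inclC N A) / algebraMap Hol MerH (inclC N B) := by
    rw [embFC_apply, hAB, map_div₀, merC_algebraMap, merC_algebraMap, toMer_apply, toMer_apply]
  obtain ⟨m', rfl⟩ : ∃ m', m = m' + 1 := Nat.exists_eq_succ_of_ne_zero hm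
  have hw : (v * algebraMap Hol MerH (inclC N B)) ^ (m' + 1)
      = algebraMap Hol MerH (inclC N A * inclC N B ^ m') := by
    rw [mul_pow, hv, hu, map_mul, map_pow, pow_succ]
    field_simp
  obtain ⟨h, hh, hhW⟩ := exists_hol_of_pow_eq (m' + 1) hm _ _ hw
  have hainv : ∀ γ ∈ Gamma0 N, compH γ (inclC N A) = inclC N A := fun γ hγ => by
    rw [← inclC_compC, hA γ hγ]
  have hbinv : ∀ γ ∈ Gamma0 N, compH γ (inclC N B) = inclC N B := fun γ hγ => by
    rw [← inclC_compC, hB γ hγ]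
  have hhinv : ∀ γ ∈ Gamma0 N, compH γ h = h := by
    intro γ hγ
    apply IsFractionRing.injective Hol MerH
    rw [← sigmaH_algebraMap, hh, map_mul, hinv ⟨γ, hγ⟩, sigmaH_algebraMap, hbinv γ hγ]
  have hamg : IsMGAll (inclC N A) := isMGAll_inclC N A
  have hbmg : IsMGAll (inclC N B) := isMGAll_inclC N B
  have hWmg : IsMGAll (inclC N A * inclC N B ^ m') := isMGAll_mul hamg (isMGAll_pow hbmg m')
  have hhmg : IsMGAll h := fun γ => isMG_of_pow hm (hWmg γ) (fun τ => by
    have := congrArg (fun x : Hol => (x : ℍ → ℂ) (γ • τ)) hhW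
    simpa using this)
  have h1 := mem_fieldC_of_isMGAll (N := N) h hhinv hhmg
  have h2 := mem_fieldC_of_isMGAll (N := N) (inclC N B) hbinv hbmg
  have h3 : v = algebraMap Hol MerH h / algebraMap Hol MerH (inclC N B) := by
    rw [hh, mul_div_assoc, div_self hbM, mul_one]
  rw [h3]
  exact div_mem h1 h2

/-- an element of `F_ℂ(N)` with an invariant `m`-th root in `MerH` is an `m`-th power. -/
theorem exists_root_FC (m : ℕ) (hm : m ≠ 0) (u : FC N) (v : MerH)
    (hinv : ∀ γ : Gamma0 N, sigmaH (γ : SL(2, ℤ)) v = v) (hv : v ^ m = embFC N u) :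
    ∃ y : FC N, embFC N y = v ∧ y ^ m = u := by
  obtain ⟨y, hy⟩ := exists_embFC_eq N (mem_fieldC_of_invariant_root N m hm u v hinv hv)
  refine ⟨y, hy, embFC_injective N ?_⟩
  rw [map_pow, hy, hv]

/-- **injectivity of the character map**: trivial character ⟹ `m`-th power. -/
theorem RelC.exists_pow_of_one (m : ℕ) (hm : m ≠ 0) {u : FC N} (h : RelC N m 1 u) :
    ∃ y : FC N, y ^ m = u := by
  obtain ⟨v, -, hinv, hv⟩ := h.invariant_root
  obtain ⟨y, -, hy⟩ := exists_root_FC N m hm u v hinv hv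
  exact ⟨y, hy⟩

end Fermat.Agent.S30.Inj
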